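import Fermat.Agent.MazurQ.ExistGrp
import Fermat.Agent.CycChar.Basic
import Fermat.Agent.TwoAdic.AuxStar
import Fermat.Agent.TwoAdic.BlockF
import Fermat.Agent.CFT.Loc.UnrGlob
import Fermat.Agent.ChebFull.Places
import Fermat.Prelude.Def_GaloisRep_Residual

/-!
# Existence of good Galois elements for the auxiliary prime
-/

set_option autoImplicit false

open Polynomial

namespace Fermat.Agent.MazurQ.Exist

local notation "Qb" => AlgebraicClosure ℚ
local notation "Γℚ" => (AlgebraicClosure ℚ ≃ₐ[ℚ] AlgebraicClosure ℚ)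

section Rep

variable {L : Type} [Field L] (r : ResidualGaloisRep L) (b : Module.Basis (Fin 2) L r.V)

/-- the matrix representation -/
noncomputable def matRep : Γℚ →* Matrix (Fin 2) (Fin 2) L :=
  ((LinearMap.toMatrixAlgEquiv b : Module.End L r.V →* Matrix (Fin 2) (Fin 2) L)).comp r.ρ

theorem matRep_apply (g : Γℚ) : matRep r b g = LinearMap.toMatrix b b (r.ρ g) := rfl

theorem trace_matRep (g : Γℚ) : (matRep r b g).trace = LinearMap.trace L r.V (r.ρ g) := by
  rw [matRep_apply, LinearMap.trace_eq_matrix_trace L b]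

theorem det_matRep (g : Γℚ) : (matRep r b g).det = LinearMap.det (r.ρ g) := by
  rw [matRep_apply, LinearMap.det_toMatrix]

theorem noLine_matRep {H : Subgroup Γℚ}
    (h : ∀ W : Submodule L r.V, (∀ σ ∈ H, ∀ x ∈ W, r.ρ σ x ∈ W) → W = ⊥ ∨ W = ⊤) :
    NoLine (matRep r b) H := by
  intro v hv0
  by_contra hcon
  push Not at hcon
  set x : r.V := b.equivFun.symm v with hx
  have hx0 : x ≠ 0 := fun h0 => hv0 (by
    rw [hx, LinearEquiv.map_eq_zero_iff] at h0; exact h0)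
  have hst : ∀ σ ∈ H, ∀ y ∈ Submodule.span L {x}, r.ρ σ y ∈ Submodule.span L {x} := by
    intro σ hσ y hy
    obtain ⟨a, rfl⟩ := Submodule.mem_span_singleton.1 hy
    obtain ⟨c, hc⟩ := hcon σ hσ
    have h1 : r.ρ σ x = c • x := by
      apply b.equivFun.injective
      have h2 : b.equivFun (r.ρ σ x) = (matRep r b σ).mulVec (b.equivFun x) := by
        rw [matRep_apply]
        exact (LinearMap.toMatrix_mulVec_repr b b (r.ρ σ) x).symm
      rw [h2, hx, LinearEquiv.apply_symm_apply, hc, map_smul, LinearEquiv.apply_symm_apply]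
    rw [map_smul, h1]
    exact Submodule.smul_mem _ _ (Submodule.smul_mem _ _ (Submodule.mem_span_singleton_self x))
  rcases h _ hst with h1 | h1
  · rw [Submodule.span_singleton_eq_bot] at h1
    exact hx0 h1
  · have h2 := finrank_span_singleton (K := L) hx0
    rw [h1, finrank_top, r.finrank_eq] at h2
    norm_num at h2

end Rep

section BaseChange

variable {K : Type} [Field K] (ρbar : ResidualGaloisRep K) (L : Type) [Field L] [Algebra K L]

theorem trace_baseChange' (g : Γℚ) :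
    LinearMap.trace L (ρbar.baseChange L).V ((ρbar.baseChange L).ρ g) =
      algebraMap K L (LinearMap.trace K ρbar.V (ρbar.ρ g)) :=
  LinearMap.trace_baseChange (ρbar.ρ g) L

theorem det_baseChange' (g : Γℚ) :
    LinearMap.det ((ρbar.baseChange L).ρ g) = algebraMap K L (LinearMap.det (ρbar.ρ g)) :=
  LinearMap.det_baseChange (A := L) (ρbar.ρ g)

end BaseChange

section Cyc

/-- a prime in a residue class modulo `12` and modulo `p` -/
theorem exists_prime_crt {p : ℕ} (hp : p.Prime) (h5 : 5 ≤ p) {a b : ℕ} (ha : a.Coprime 12)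
    (hb : b.Coprime p) : ∃ r : ℕ, r.Prime ∧ p < r ∧ 12 < r ∧ r ≡ a [MOD 12] ∧ r ≡ b [MOD p] := by
  have hcop : Nat.Coprime 12 p := by
    rw [Nat.coprime_comm, hp.coprime_iff_not_dvd]
    intro h
    have h1 : p ∣ 2 * 2 * 3 := h
    rw [hp.dvd_mul, hp.dvd_mul, Nat.prime_dvd_prime_iff_eq hp Nat.prime_two,
      Nat.prime_dvd_prime_iff_eq hp Nat.prime_three] at h1
    omega
  obtain ⟨c, hc1, hc2⟩ := Nat.chineseRemainder hcop a b
  have hc : c.Coprime (12 * p) := by
    apply Nat.Coprime.mul_right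
    · have := hc1.gcd_eq
      rw [Nat.Coprime, this]; exact ha
    · have := hc2.gcd_eq
      rw [Nat.Coprime, this]; exact hb
  have : NeZero (12 * p) := ⟨by have := hp.pos; positivity⟩
  obtain ⟨r, hr, hrp, hrc⟩ := Nat.forall_exists_prime_gt_and_eq_mod
    ((ZMod.isUnit_iff_coprime c (12 * p)).2 hc) (12 + p)
  rw [ZMod.natCast_eq_natCast_iff] at hrc
  exact ⟨r, hrp, by omega, by omega, (hrc.of_mul_right p).trans hc1, (hrc.of_mul_left 12).trans hc2⟩

theorem pow_eq_of_modEq {x : Qb} {n a b : ℕ} (hx : x ^ n = 1) (h : a ≡ b [MOD n]) :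
    x ^ a = x ^ b := by
  rw [← Nat.div_add_mod a n, ← Nat.div_add_mod b n, pow_add, pow_mul, hx, one_pow, one_mul,
    pow_add, pow_mul, hx, one_pow, one_mul, h]

theorem inv_eq_pow {x : Qb} (hx : x ^ 12 = 1) : x⁻¹ = x ^ 11 := by
  apply inv_eq_of_mul_eq_one_left
  rw [← pow_succ, hx]

end Cyc

section Det

/-- the determinant is cyclotomic as soon as this holds at Frobenius elements -/
theorem det_cyc_of_frob {p : ℕ} (hp : p.Prime) {K : Type} [Field K] [CharP K p]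
    (ρbar : ResidualGaloisRep K) (S : Finset ℕ)
    (h : ∀ ℓ : ℕ, ℓ.Prime → ℓ ∉ S → ∀ P : ValuationSubring Qb, P.LiesOverPrime ℓ → ∀ σ : Γℚ,
      P.IsFrobeniusAt σ ℓ → LinearMap.det (ρbar.ρ σ) = (ℓ : K))
    (σ : Γℚ) (c : ℕ) (hc : ∀ μ : Qb, μ ^ p = 1 → σ μ = μ ^ c) :
    LinearMap.det (ρbar.ρ σ) = (c : K) := by
  classical
  have hfact : Fact p.Prime := ⟨hp⟩
  have hne : NeZero p := ⟨hp.ne_zero⟩
  obtain ⟨F₁, hF₁, h1⟩ := ρbar.factorsThroughFiniteLevel
  obtain ⟨μ, hμ⟩ : ∃ μ : Qb, IsPrimitiveRoot μ p := HasEnoughRootsOfUnity.exists_primitiveRoot Qb p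
  have hF₂ : FiniteDimensional ℚ (IntermediateField.adjoin ℚ {μ}) :=
    IntermediateField.adjoin.finiteDimensional (Algebra.IsIntegral.isIntegral μ)
  obtain ⟨ℓ, hℓ, hℓS, -, P, hP, φ, hφ, hφσ⟩ := ChebFull.exists_frobenius_eq
    (F₁ ⊔ IntermediateField.adjoin ℚ {μ}) σ (insert p S)
  rw [Finset.mem_insert, not_or] at hℓS
  have h2 : ρbar.ρ φ = ρbar.ρ σ := by
    have h3 : ρbar.ρ (σ⁻¹ * φ) = 1 := h1 _ fun x hx => by
      rw [AlgEquiv.mul_apply, hφσ x ((le_sup_left : F₁ ≤ _) hx)]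
      exact AlgEquiv.symm_apply_apply σ x
    rw [← mul_inv_cancel_left σ φ, map_mul, h3, mul_one]
  rw [← h2, h ℓ hℓ hℓS.2 P hP φ hφ]
  have h3 : φ μ = σ μ := hφσ μ ((le_sup_right : IntermediateField.adjoin ℚ {μ} ≤ _)
    (IntermediateField.mem_adjoin_simple_self ℚ μ))
  rw [CycChar.frobenius_apply_eq hP (m := p) ((Nat.coprime_primes hp hℓ).2 (Ne.symm hℓS.1)) hφ
    hμ.pow_eq_one, hc μ hμ.pow_eq_one, pow_eq_of_modEq hμ.pow_eq_one (Nat.mod_modEq ℓ p).symm,
    pow_eq_of_modEq hμ.pow_eq_one (Nat.mod_modEq c p).symm] at h3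
  have h4 := hμ.pow_inj (Nat.mod_lt _ hp.pos) (Nat.mod_lt _ hp.pos) h3
  exact (CharP.cast_eq_iff_mod_eq K p).2 h4

end Det

section Five

/-- **Existence of good elements, `p ≥ 5`.** -/
theorem exists_good_five {p : ℕ} (hp : p.Prime) (h5 : 5 ≤ p) {K : Type} [Field K] [CharP K p]
    (ρbar : ResidualGaloisRep K) (habs : ρbar.IsAbsolutelyIrreducible)
    (hdet : ∀ (σ : Γℚ) (c : ℕ), (∀ μ : Qb, μ ^ p = 1 → σ μ = μ ^ c) →
      LinearMap.det (ρbar.ρ σ) = (c : K)) :
    ∃ g : Γℚ, (∀ ζ : Qb, ζ ^ 12 = 1 → g ζ = ζ⁻¹) ∧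
      LinearMap.trace K _ (ρbar.ρ g) ^ 2 ≠ (1 + LinearMap.det (ρbar.ρ g)) ^ 2 := by
  classical
  have hfact : Fact p.Prime := ⟨hp⟩
  set L := AlgebraicClosure K with hL
  have hchar : CharP L p := charP_of_injective_algebraMap (algebraMap K L).injective p
  let r := ρbar.baseChange L
  let b : Module.Basis (Fin 2) L r.V := Module.finBasisOfFinrankEq L r.V r.finrank_eq
  obtain ⟨ζ, hζ⟩ : ∃ ζ : Qb, IsPrimitiveRoot ζ 12 :=
    HasEnoughRootsOfUnity.exists_primitiveRoot Qb 12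
  have hirr : NoLine (matRep r b) ⊤ := noLine_matRep r b fun W hW =>
    habs W fun σ x hx => hW σ trivial x hx
  -- Frobenius elements
  have key : ∀ a b' : ℕ, a.Coprime 12 → b'.Coprime p → ∃ g : Γℚ,
      (∀ z : Qb, z ^ 12 = 1 → g z = z ^ a) ∧ LinearMap.det (ρbar.ρ g) = (b' : K) := by
    intro a b' ha hb
    obtain ⟨q, hq, hqp, hq12, hqa, hqb⟩ := exists_prime_crt hp h5 ha hb
    obtain ⟨P, hP, σ, hσ⟩ := TwoAdic.exists_place_frob hq
    refine ⟨σ, fun z hz => ?_, ?_⟩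
    · rw [CycChar.frobenius_apply_eq hP (m := 12) ?_ hσ hz]
      · exact pow_eq_of_modEq hz hqa
      · rw [Nat.coprime_comm, hq.coprime_iff_not_dvd]
        exact fun h => absurd (Nat.le_of_dvd (by norm_num) h) (by omega)
    · refine hdet σ b' fun μ hμ => ?_
      rw [CycChar.frobenius_apply_eq hP (m := p) ?_ hσ hμ]
      · exact pow_eq_of_modEq hμ hqb
      · rw [Nat.coprime_comm, hq.coprime_iff_not_dvd]
        exact fun h => absurd (Nat.le_of_dvd hp.pos h) (by omega)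
  obtain ⟨g₀, hg₀, hg₀d⟩ := key 11 1 (by norm_num) (Nat.coprime_one_left p)
  obtain ⟨h₀, hh₀, hh₀d⟩ := key 1 2 (by norm_num) (by
    rw [Nat.coprime_comm, hp.coprime_iff_not_dvd]
    exact fun h => absurd (Nat.le_of_dvd (by norm_num) h) (by omega))
  let χ : Γℚ →* (ZMod 12)ˣ := hζ.autToPow ℚ
  have hχ : ∀ g : Γℚ, g ζ = ζ ^ (χ g : ZMod 12).val := fun g => (hζ.autToPow_spec ℚ g).symm
  have hχe : ∀ (g : Γℚ) (a : ℕ), g ζ = ζ ^ a ↔ (χ g : ZMod 12) = (a : ZMod 12) := by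
    intro g a
    rw [hχ g, pow_eq_of_modEq hζ.pow_eq_one (Nat.mod_modEq a 12).symm]
    constructor
    · intro h
      have h1 := hζ.pow_inj (ZMod.val_lt _) (Nat.mod_lt a (by norm_num)) h
      rw [← ZMod.natCast_zmod_val (χ g : ZMod 12), h1, ZMod.natCast_mod]
    · intro h
      rw [h, ZMod.val_natCast]
  obtain ⟨g, hg, hgt⟩ := exists_good (ρ := matRep r b) χ (e := -1) hp (by omega) hirr
    (by norm_num) (g₀ := g₀) (by
      apply Units.ext
      rw [(hχe g₀ 11).1 (hg₀ ζ hζ.pow_eq_one)]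
      decide)
    (by rw [det_matRep, det_baseChange', hg₀d, Nat.cast_one, map_one]) (h₀ := h₀) (by
      apply Units.ext
      rw [(hχe h₀ 1).1 (hh₀ ζ hζ.pow_eq_one)]
      decide)
    (by
      rw [det_matRep, det_baseChange', hh₀d, map_natCast]
      intro h
      have h1 : ((3 : ℕ) : L) = 0 := by
        push_cast
        push_cast at h
        linear_combination h
      rw [CharP.cast_eq_zero_iff L p] at h1
      exact absurd (Nat.le_of_dvd (by norm_num) h1) (by omega))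
  refine ⟨g, fun z hz => ?_, fun h => hgt ?_⟩
  · obtain ⟨i, -, rfl⟩ := hζ.eq_pow_of_pow_eq_one hz
    have h1 : g ζ = ζ ^ 11 := by
      rw [hχe, hg]
      decide
    rw [map_pow, h1, inv_eq_pow hz, ← pow_mul, ← pow_mul, mul_comm]
  · rw [trace_matRep, det_matRep, trace_baseChange', det_baseChange', ← map_pow, h, map_pow,
      map_add, map_one]

end Five

section Three

/-- Inertia at `2` does not fix `i`. -/
theorem exists_inertia_two {P : ValuationSubring Qb} (hP : P.LiesOverPrime 2) {i : Qb}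
    (hi : i ^ 2 = -1) : ∃ τ ∈ P.inertiaSubgroupIn ℚ, τ i = -i := by
  by_contra hcon
  push Not at hcon
  have hfix : ∀ τ ∈ P.inertiaSubgroupIn ℚ, τ (1 + i) = 1 + i := by
    intro τ hτ
    have h1 : (τ i - i) * (τ i + i) = 0 := by
      have h2 : (τ i) ^ 2 = -1 := by rw [← map_pow, hi, map_neg, map_one]
      linear_combination h2 - hi
    rcases mul_eq_zero.1 h1 with h2 | h2
    · rw [map_add, map_one, sub_eq_zero.1 h2]
    · exact absurd (eq_neg_of_add_eq_zero_left h2) (hcon τ hτ)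
  have hy : (1 + i : Qb) ≠ 0 := by
    intro h
    have h1 : i = -1 := by linear_combination h
    rw [h1] at hi
    norm_num at hi
  obtain ⟨n, h1, h2⟩ := CFT.Loc.exists_zpow_of_inertia Nat.prime_two hP hy hfix
  set u := (1 + i) * ((2 : ℕ) : Qb) ^ (-n) with hu
  have hu0 : u ≠ 0 := mul_ne_zero hy (zpow_ne_zero _ (by norm_num))
  have hvu : P.valuation u = 1 := by
    apply le_antisymm ((P.valuation_le_one_iff u).2 h1)
    have h3 := (P.valuation_le_one_iff u⁻¹).2 h2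
    rw [map_inv₀] at h3
    have h4 : P.valuation u ≠ 0 := (Valuation.ne_zero_iff _).2 hu0
    rwa [inv_le_one₀ (zero_lt_iff.2 h4)] at h3
  have hvi : P.valuation i = 1 := by
    have h3 : i ^ 4 = 1 := by linear_combination (i ^ 2 - 1) * hi
    have h4 : P.valuation i ^ 4 = 1 := by rw [← map_pow, h3, map_one]
    exact (pow_eq_one_iff_of_nonneg zero_le (by norm_num)).1 h4
  have hu2 : u ^ 2 = i * (2 : Qb) ^ (1 - 2 * n) := by
    rw [hu, mul_pow, ← zpow_natCast (((2 : ℕ) : Qb) ^ (-n)), ← zpow_mul,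
      zpow_sub₀ (by norm_num : (2 : Qb) ≠ 0), zpow_one]
    have h3 : (1 + i) ^ 2 = 2 * i := by linear_combination hi
    rw [h3, div_eq_mul_inv, ← zpow_neg]
    push_cast
    rw [show -n * 2 = -(2 * n) by ring]
    ring
  have h3 := congrArg P.valuation hu2
  rw [map_pow, hvu, one_pow, map_mul, hvi, one_mul, map_zpow₀] at h3
  have h4 : P.valuation 2 < 1 := by
    have h5 : ((2 : ℕ) : Qb) ∈ P.nonunits := hP
    rw [P.mem_nonunits_iff] at h5
    exact_mod_cast h5
  have h5 : P.valuation (2 : Qb) ≠ 0 := (Valuation.ne_zero_iff _).2 (by norm_num)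
  have h6 : (1 - 2 * n : ℤ) = 0 := by
    by_contra h7
    rcases lt_or_gt_of_ne h7 with h8 | h8
    · have h9 : P.valuation (2 : Qb) ^ (-(1 - 2 * n)) = 1 := by rw [zpow_neg, ← h3, inv_one]
      obtain ⟨m, hm⟩ := Int.eq_ofNat_of_zero_le (a := -(1 - 2 * n)) (by omega)
      rw [hm, zpow_natCast] at h9
      exact absurd h9 (pow_lt_one₀ zero_le h4 (by omega)).ne
    · obtain ⟨m, hm⟩ := Int.eq_ofNat_of_zero_le (a := 1 - 2 * n) (by omega)
      rw [hm, zpow_natCast] at h3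
      exact absurd h3.symm (pow_lt_one₀ zero_le h4 (by omega)).ne
  omega

/-- **Existence of good elements, `p = 3`.** -/
theorem exists_good_three {K : Type} [Field K] [CharP K 3] (ρbar : ResidualGaloisRep K)
    (hdet : ∀ (σ : Γℚ) (c : ℕ), (∀ μ : Qb, μ ^ 3 = 1 → σ μ = μ ^ c) →
      LinearMap.det (ρbar.ρ σ) = (c : K))
    (hind : ∀ (K' : Type) [Field K'] [Algebra K K'] (G : Subgroup Γℚ), G.index = 2 →
      ∀ V : Submodule K' (ρbar.baseChange K').V,
        (∀ σ ∈ G, ∀ x ∈ V, (ρbar.baseChange K').ρ σ x ∈ V) → V = ⊥ ∨ V = ⊤)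
    {P : ValuationSubring Qb} (hP : P.LiesOverPrime 2)
    (hunip : ∀ σ ∈ P.inertiaSubgroupIn ℚ, LinearMap.trace K _ (ρbar.ρ σ) = 2) :
    ∃ g : Γℚ, (∀ ζ : Qb, ζ ^ 12 = 1 → g ζ = ζ⁻¹) ∧
      LinearMap.trace K _ (ρbar.ρ g) ^ 2 ≠ (1 + LinearMap.det (ρbar.ρ g)) ^ 2 := by
  classical
  have hK3 : (3 : K) = 0 := by exact_mod_cast CharP.cast_eq_zero K 3
  by_contra hcon
  push Not at hcon
  set L := AlgebraicClosure K with hL
  let r := ρbar.baseChange L
  let b : Module.Basis (Fin 2) L r.V := Module.finBasisOfFinrankEq L r.V r.finrank_eq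
  obtain ⟨ζ, hζ⟩ : ∃ ζ : Qb, IsPrimitiveRoot ζ 12 :=
    HasEnoughRootsOfUnity.exists_primitiveRoot Qb 12
  have hζ0 : ζ ≠ 0 := hζ.ne_zero (by norm_num)
  have hω : IsPrimitiveRoot (ζ ^ 4) 3 := hζ.pow (by norm_num) (by norm_num)
  have hi : (ζ ^ 3) ^ 2 = -1 := by
    have h1 : IsPrimitiveRoot (ζ ^ 6) 2 := hζ.pow (by norm_num) (by norm_num)
    rw [← pow_mul]
    exact h1.eq_neg_one_of_two_right
  -- a Frobenius element
  obtain ⟨g₀, hg₀⟩ : ∃ g₀ : Γℚ, ∀ z : Qb, z ^ 12 = 1 → g₀ z = z ^ 11 := by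
    obtain ⟨q, hq12, hq, hqc⟩ := Nat.forall_exists_prime_gt_and_eq_mod
      ((ZMod.isUnit_iff_coprime 11 12).2 (by norm_num)) 12
    rw [ZMod.natCast_eq_natCast_iff] at hqc
    obtain ⟨P, hP, σ, hσ⟩ := TwoAdic.exists_place_frob hq
    refine ⟨σ, fun z hz => ?_⟩
    rw [CycChar.frobenius_apply_eq hP (m := 12) ?_ hσ hz]
    · exact pow_eq_of_modEq hz hqc
    · rw [Nat.coprime_comm, hq.coprime_iff_not_dvd]
      exact fun h => absurd (Nat.le_of_dvd (by norm_num) h) (by omega)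
  let N : Subgroup Γℚ := MulAction.stabilizer Γℚ ζ
  have hN : ∀ x : Γℚ, x ∈ N ↔ x ζ = ζ := fun x => MulAction.mem_stabilizer_iff
  let χ : Γℚ →* (ZMod 3)ˣ := hω.autToPow ℚ
  have hχ : ∀ g : Γℚ, g ∈ χ.ker ↔ g (ζ ^ 4) = ζ ^ 4 := by
    intro g
    have h1 : (ζ ^ 4) ^ (χ g : ZMod 3).val = g (ζ ^ 4) := hω.autToPow_spec ℚ g
    rw [MonoidHom.mem_ker, ← h1]
    constructor
    · intro h
      rw [h, Units.val_one, ZMod.val_one, pow_one]
    · intro h
      have h2 : (χ g : ZMod 3).val = 1 :=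
        hω.pow_inj (ZMod.val_lt _) (by norm_num) (h.trans (pow_one _).symm)
      apply Units.ext
      rw [← ZMod.natCast_zmod_val (χ g : ZMod 3), h2]
      rfl
  have hindex : χ.ker.index = 2 := by
    have h1 : χ.range = ⊤ := by
      rw [eq_top_iff]
      intro u _
      have h2 : ∀ u : (ZMod 3)ˣ, u = 1 ∨ u = -1 := by decide
      rcases h2 u with rfl | rfl
      · exact χ.range.one_mem
      · refine ⟨g₀, ?_⟩
        rcases h2 (χ g₀) with h3 | h3
        · exfalso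
          have h4 := (hχ g₀).1 (MonoidHom.mem_ker.2 h3)
          rw [hg₀ _ (by rw [← pow_mul, mul_comm, pow_mul, hζ.pow_eq_one, one_pow]), ← pow_mul,
            pow_eq_of_modEq hζ.pow_eq_one (show 4 * 11 ≡ 8 [MOD 12] by decide)] at h4
          exact absurd (hζ.pow_inj (by norm_num) (by norm_num) h4) (by norm_num)
        · exact h3
    rw [Subgroup.index_ker, h1, Subgroup.card_top, Nat.card_eq_fintype_card, ZMod.card_units]
  have hirr : NoLine (matRep r b) χ.ker := noLine_matRep r b (hind L χ.ker hindex)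
  -- the coset
  have hC : ∀ x ∈ N, (matRep r b (g₀ * x)).trace = 0 ∧ (matRep r b (g₀ * x)).det = -1 := by
    intro x hx
    have h1 : ∀ z : Qb, z ^ 12 = 1 → (g₀ * x) z = z⁻¹ := by
      intro z hz
      obtain ⟨i, -, rfl⟩ := hζ.eq_pow_of_pow_eq_one hz
      rw [AlgEquiv.mul_apply, map_pow, (hN x).1 hx, hg₀ _ hz, inv_eq_pow hz]
    have hd : LinearMap.det (ρbar.ρ (g₀ * x)) = -1 := by
      rw [hdet (g₀ * x) 2 (fun μ hμ => by
        rw [h1 μ (by rw [show 12 = 3 * 4 from rfl, pow_mul, hμ, one_pow])]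
        apply inv_eq_of_mul_eq_one_left
        rw [← pow_succ, hμ])]
      push_cast
      linear_combination hK3
    have ht := hcon _ h1
    rw [hd] at ht
    have ht' : LinearMap.trace K _ (ρbar.ρ (g₀ * x)) = 0 := by
      have : LinearMap.trace K _ (ρbar.ρ (g₀ * x)) ^ 2 = 0 := by
        rw [ht]; ring
      exact (pow_eq_zero_iff two_ne_zero).1 this
    rw [trace_matRep, det_matRep, trace_baseChange', det_baseChange', hd, ht', map_zero, map_neg,
      map_one]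
    exact ⟨rfl, rfl⟩
  obtain ⟨τ, hτ, hτi⟩ := exists_inertia_two hP hi
  have hτω : τ (ζ ^ 4) = ζ ^ 4 := CycChar.inertia_apply_eq hP (m := 3) (by norm_num) hτ
    hω.pow_eq_one
  have hζeq : ζ = ζ ^ 4 * (ζ ^ 3)⁻¹ := by field_simp
  have hNiff : ∀ g : Γℚ, g (ζ ^ 4) = ζ ^ 4 → g (ζ ^ 3) = ζ ^ 3 → g ∈ N := by
    intro g h1 h2
    rw [hN]
    calc g ζ = g (ζ ^ 4 * (ζ ^ 3)⁻¹) := by rw [← hζeq]
      _ = ζ ^ 4 * (ζ ^ 3)⁻¹ := by rw [map_mul, map_inv₀, h1, h2]
      _ = ζ := hζeq.symm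
  have hτinv : ∀ x : Qb, τ⁻¹ (τ x) = x := fun x => AlgEquiv.symm_apply_apply τ x
  have h0 := trace_eq_zero_of (ρ := matRep r b) (H := χ.ker) (N := N) hirr (g₀ := g₀) hC
    (τ := τ) (by
      refine hNiff _ ?_ ?_
      · rw [AlgEquiv.mul_apply, hτω, hτω]
      · rw [AlgEquiv.mul_apply, hτi, map_neg, hτi, neg_neg]) (by
      intro g hg
      have h1 := (hχ g).1 hg
      have h2 : (g (ζ ^ 3) - ζ ^ 3) * (g (ζ ^ 3) + ζ ^ 3) = 0 := by
        have h3 : (g (ζ ^ 3)) ^ 2 = -1 := by rw [← map_pow, hi, map_neg, map_one]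
        linear_combination h3 - hi
      rcases mul_eq_zero.1 h2 with h3 | h3
      · exact Or.inl (hNiff g h1 (sub_eq_zero.1 h3))
      · right
        refine hNiff _ ?_ ?_
        · rw [AlgEquiv.mul_apply, h1]
          conv_lhs => rw [← hτω]
          exact hτinv _
        · rw [AlgEquiv.mul_apply, eq_neg_of_add_eq_zero_left h3, ← hτi]
          exact hτinv _)
  rw [trace_matRep, trace_baseChange', hunip τ hτ, map_ofNat] at h0
  have hL3 : (3 : L) = 0 := by
    have := congrArg (algebraMap K L) hK3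
    rwa [map_ofNat, map_zero] at this
  apply one_ne_zero (α := L)
  linear_combination hL3 - h0

end Three

end Fermat.Agent.MazurQ.Exist
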