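import Fermat.Agent.MazurQ.Sys
import Fermat.Agent.Mazur.HeckePoly
import Fermat.Agent.Ihara.Raise

/-!
# Systems of eigenvalues modulo `p` in `J₀(N)` and eigenforms
-/

set_option autoImplicit false
set_option linter.unusedSectionVars false

noncomputable section

open AlgebraicCurve ModularCurve CongruenceSubgroup CuspForm ModularFormClass
open Fermat.Agent.Top Fermat.Agent.Period Fermat.Agent.Newform Fermat.Agent.QComp
open Fermat.Agent.Eigenform

namespace Fermat.Agent.MazurQ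

local notation "ℤbar" => integralClosure ℤ ℂ

section General

/-- A finite module over a commutative ring: a prime containing the annihilator supports a nonzero
element. -/
theorem exists_ne_zero_killed {R : Type*} [CommRing R] {V : Type*} [AddCommGroup V] [Finite V]
    (Φ : R →+* Module.End ℤ V) (I : Ideal R) [hI : I.IsPrime] (h : RingHom.ker Φ ≤ I) :
    ∃ v : V, v ≠ 0 ∧ ∀ r ∈ I, Φ r v = 0 := by
  have hfin : Finite (Module.End ℤ V) := Finite.of_injective (fun f => (f : V → V))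
    DFunLike.coe_injective
  let Q := R ⧸ RingHom.ker Φ
  let φ : Q →+* Module.End ℤ V := RingHom.kerLift Φ
  have hφ : Function.Injective φ := RingHom.kerLift_injective _
  have hQ : Finite Q := Finite.of_injective φ hφ
  have hArt : IsArtinianRing Q := inferInstance
  let q : Ideal Q := I.map (Ideal.Quotient.mk (RingHom.ker Φ))
  have hq : q.IsPrime := Ideal.map_isPrime_of_surjective Ideal.Quotient.mk_surjective (by
    rw [Ideal.mk_ker]; exact h)
  obtain ⟨b, hb, hb2⟩ := RepTwo.exists_annihilator_eq_of_isPrime q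
  have hφb : φ b ≠ 0 := fun h0 => hb (hφ (by rw [h0, map_zero]))
  obtain ⟨v, hv⟩ : ∃ v, φ b v ≠ 0 := by
    by_contra hcon
    push Not at hcon
    exact hφb (LinearMap.ext hcon)
  refine ⟨φ b v, hv, fun r hr => ?_⟩
  have h1 : Φ r = φ (Ideal.Quotient.mk _ r) := rfl
  rw [h1, ← Module.End.mul_apply, ← map_mul, hb2 _ (Ideal.mem_map_of_mem _ hr), map_zero]
  rfl

end General

/-- A Hecke polynomial killing the cusp forms kills the parabolic homomorphisms with values
in `ℤ`. -/
theorem evalPar_eq_zero_of_forms {N : ℕ} [NeZero N] {t : HeckeAlg}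
    (ht : heckeEvalForms N 2 t = 0) : evalPar N ℤ t = 0 := by
  refine LinearMap.ext fun φ => Subtype.ext ?_
  rw [coe_evalPar]
  have h0 : ∀ F : CuspForm (Gamma0 N) 2, evalHom N ℂ t (periodLin N F) = 0 := by
    intro F
    rw [← periodLin_heckeEvalForms, ht]
    exact map_zero (periodLin N)
  have hpar : Period.IsParabolicHom (Gamma0 N) ((Int.castAddHom ℂ).comp φ.1) := by
    intro γ hγ
    change (((φ.1 (Additive.ofMul γ) : ℤ)) : ℂ) = 0
    rw [φ.2 γ hγ, Int.cast_zero]
  obtain ⟨F, G, hFG⟩ := exists_period_conj_period hpar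
  have h1 : evalHom N ℂ t ((Int.castAddHom ℂ).comp φ.1) = 0 := by
    rw [hFG, map_add, h0, evalHom_comp_left, h0, AddMonoidHom.comp_zero, add_zero]
  rw [evalHom_comp_left] at h1
  refine AddMonoidHom.ext fun γ => ?_
  have h3 := DFunLike.congr_fun h1 γ
  change ((evalHom N ℤ t φ.1 γ : ℤ) : ℂ) = 0 at h3
  exact_mod_cast h3

/-- the inclusion of the polynomials in the good Hecke operators -/
def incB (B : ℕ) : GPoly B →ₐ[ℤ] HeckeAlg :=
  MvPolynomial.rename (R := ℤ) (Subtype.val : {ℓ : Nat.Primes // ¬ (ℓ : ℕ) ∣ B} → Nat.Primes)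

theorem incB_X (B : ℕ) (ℓ : {ℓ : Nat.Primes // ¬ (ℓ : ℕ) ∣ B}) :
    incB B (MvPolynomial.X ℓ) = heckeGen ℓ.1 := MvPolynomial.rename_X _ _

theorem incB_C (B : ℕ) (a : ℤ) : incB B (MvPolynomial.C a) = MvPolynomial.C a :=
  MvPolynomial.rename_C _ _

/-- naturality of the support map -/
theorem iota_natural {N B : ℕ} [NeZero N] (hNB : N ∣ B) (ι : parM N ℤ →+ JZero N)
    (hι : ∀ ℓ : Nat.Primes, ¬ (ℓ : ℕ) ∣ N → ∀ φ, ι (hopPar N ℤ ℓ φ) = heckeOperatorBar N ℓ (ι φ))
    (P : GPoly B) (φ : parM N ℤ) :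
    ι (evalPar N ℤ (incB B P) φ) = evJ B N P (ι φ) := by
  have h1 := eq_evalEnd (T := fun i : {ℓ : Nat.Primes // ¬ (ℓ : ℕ) ∣ B} => hopPar N ℤ i.1)
    (fun i j => hopPar_comm N ℤ i.1 j.1)
    ((evalPar N ℤ).toRingHom.comp (incB B).toRingHom) (fun i => by
      change evalPar N ℤ (incB B (MvPolynomial.X i)) = _
      rw [incB_X]
      exact evalEnd_X _ (hopPar_comm N ℤ) i.1) P
  have h2 := eq_evalEnd (T := fun i : {ℓ : Nat.Primes // ¬ (ℓ : ℕ) ∣ B} => heckeOperatorBar N i.1)
    (fun i j => RepTwo.heckeOperatorsCommuteBar N i.1 j.1) (evJ B N) (fun i => evJ_X B N i) P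
  rw [h2]
  have h3 := evalEnd_natural (T := fun i : {ℓ : Nat.Primes // ¬ (ℓ : ℕ) ∣ B} => hopPar N ℤ i.1)
    (fun i j => hopPar_comm N ℤ i.1 j.1)
    (T' := fun i : {ℓ : Nat.Primes // ¬ (ℓ : ℕ) ∣ B} => heckeOperatorBar N i.1)
    (fun i j => RepTwo.heckeOperatorsCommuteBar N i.1 j.1) ι
    (fun i φ => hι i.1 (fun h => i.2 (h.trans hNB)) φ) P φ
  rw [← h3, ← h1]
  rfl

/-- a torsion class is killed by the Hecke polynomials which kill the cusp forms -/
theorem evJ_eq_zero {N B : ℕ} [NeZero N] (hNB : N ∣ B) {P : GPoly B}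
    (hP : heckeEvalForms N 2 (incB B P) = 0) {n : ℕ} (hn : n ≠ 0) {x : JZero N}
    (hx : n • x = 0) : evJ B N P x = 0 := by
  obtain ⟨c, hc, H⟩ := exists_supportMap_bounded N
  have : FF.IsFnField (AlgebraicClosure ℚ) (JZ.FN (AlgebraicClosure ℚ) N) :=
    JZ.modularFieldInputsBar.fnField N
  obtain ⟨y, hy⟩ := Spc.divisible (AlgebraicClosure ℚ) (JZ.FN (AlgebraicClosure ℚ) N) hc x
  have hy' : (n * c) • y = 0 := by
    rw [mul_smul]
    exact (congrArg (fun z => n • z) hy).trans hx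
  obtain ⟨ι, -, -, h3, h4⟩ := H (n * c) (mul_ne_zero hn hc)
  obtain ⟨φ, hφ⟩ := h4 y hy'
  have hx' : x = ι φ := hy.symm.trans hφ
  rw [hx', ← iota_natural hNB ι h3, evalPar_eq_zero_of_forms hP, LinearMap.zero_apply, map_zero]

variable {p : ℕ} {K : Type} [Field K] [CharP K p]

/-- the `p`-torsion as a module over the good Hecke polynomials -/
def evT (B N p : ℕ) [NeZero N] : GPoly B →+* Module.End ℤ (RepTwo.pTor (JZero N) p) where
  toFun P :=
    { toFun := fun x => ⟨evJ B N P x, by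
        rw [RepTwo.mem_pTor, ← map_nsmul, RepTwo.mem_pTor.mp x.2, map_zero]⟩
      map_add' := fun x y => Subtype.ext (map_add (evJ B N P) (x : JZero N) y)
      map_smul' := fun n x => Subtype.ext (map_zsmul (evJ B N P) n (x : JZero N)) }
  map_one' := LinearMap.ext fun x => Subtype.ext (by
    change evJ B N 1 (x : JZero N) = x
    rw [map_one]; rfl)
  map_mul' P Q := LinearMap.ext fun x => Subtype.ext (by
    change evJ B N (P * Q) (x : JZero N) = evJ B N P (evJ B N Q x)
    rw [map_mul]; rfl)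
  map_zero' := LinearMap.ext fun x => Subtype.ext (by
    change evJ B N 0 (x : JZero N) = 0
    rw [map_zero]; rfl)
  map_add' P Q := LinearMap.ext fun x => Subtype.ext (by
    change evJ B N (P + Q) (x : JZero N) = evJ B N P x + evJ B N Q x
    rw [map_add]; rfl)

theorem coe_evT_apply {B N p : ℕ} [NeZero N] (P : GPoly B) (x : RepTwo.pTor (JZero N) p) :
    ((evT B N p P x : RepTwo.pTor (JZero N) p) : JZero N) = evJ B N P x := rfl

/-- **(c1)** the residual system of an eigenform of level `N` occurs in `J₀(N)`. -/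
theorem exists_mem_XJ {N B : ℕ} [NeZero N] (hNB : N ∣ B) (hp : p.Prime) (ψ : ℤbar →+* K)
    {f : CuspForm (Gamma0 N) 2} (hf : f.IsNormalizedEigenform) (θ : GPoly B →+* K)
    (hθ : ∀ (l : {l : Nat.Primes // ¬ (l : ℕ) ∣ B}) (a : ℤbar), (a : ℂ) = qCoeff f l →
      θ (MvPolynomial.X l) = ψ a) : ∃ x ∈ XJ N θ, x ≠ 0 := by
  have : Fact p.Prime := ⟨hp⟩
  have : NeZero p := ⟨hp.ne_zero⟩
  have hfin : Finite (RepTwo.pTor (JZero N) p) := finite_pTor N p
  obtain ⟨χ, hχ1, hχ2⟩ := exists_eigenChar_mod_p hf (CharP.cast_eq_zero K p) ψ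
  have hcomp : θ = χ.comp (incB B).toRingHom := by
    apply MvPolynomial.ringHom_ext
    · intro n
      rw [RingHom.comp_apply, eq_intCast (MvPolynomial.C : ℤ →+* GPoly B) n, map_intCast,
        map_intCast, map_intCast]
    · intro l
      rw [RingHom.comp_apply]
      change _ = χ (incB B (MvPolynomial.X l))
      rw [incB_X, hχ1 l.1 ⟨qCoeff f l, isIntegral_qCoeff_prime hf l.1.2⟩ rfl]
      exact hθ l _ rfl
  obtain ⟨ι, hι1, hι2, hι3⟩ := supportMap N p
  have hker : RingHom.ker (evT B N p) ≤ RingHom.ker θ := by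
    intro P hP
    rw [RingHom.mem_ker] at hP ⊢
    rw [hcomp, RingHom.comp_apply]
    refine hχ2 _ fun φ => hι2 _ ?_
    have h1 := iota_natural hNB ι hι3 P φ
    have h2 : evJ B N P (ι φ) = 0 := by
      have := congrArg (fun T => ((T ⟨ι φ, hι1 φ⟩ : RepTwo.pTor (JZero N) p) : JZero N)) hP
      exact this
    exact h1.trans h2
  have hprime : (RingHom.ker θ).IsPrime := RingHom.ker_isPrime θ
  obtain ⟨v, hv0, hv⟩ := exists_ne_zero_killed (evT B N p) (RingHom.ker θ) hker
  refine ⟨v, fun P hP => ?_, fun h => hv0 (Subtype.ext h)⟩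
  rw [← coe_evT_apply, hv P hP]
  rfl

theorem isIntegral_gpoly {B : ℕ} {K : Type*} [Field K] (θ : GPoly B →+* K)
    (hint : ∀ l, IsIntegral ℤ (θ (MvPolynomial.X l))) (P : GPoly B) : IsIntegral ℤ (θ P) := by
  induction P using MvPolynomial.induction_on with
  | C a =>
    rw [eq_intCast (MvPolynomial.C : ℤ →+* GPoly B) a, map_intCast]
    exact isIntegral_algebraMap (R := ℤ) (A := K) (x := a)
  | add p q hp hq => rw [map_add]; exact hp.add hq
  | mul_X p i hp => rw [map_mul]; exact hp.mul (hint i)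

/-- Hecke polynomials on cusp forms -/
def evS (B N : ℕ) [NeZero N] : GPoly B →+* Module.End ℂ (CuspForm (Gamma0 N) 2) :=
  ((heckeAlgebra N 2 ∅).val.toRingHom.comp (heckeEvalForms N 2)).comp (incB B).toRingHom

theorem evS_X {B N : ℕ} [NeZero N] (l : {l : Nat.Primes // ¬ (l : ℕ) ∣ B}) :
    evS B N (MvPolynomial.X l) = hOp N l.1 := by
  change ((heckeEvalForms N 2 (incB B (MvPolynomial.X l)) : heckeAlgebra N 2 ∅) :
    Module.End ℂ (CuspForm (Gamma0 N) 2)) = _
  rw [incB_X, heckeEvalForms_heckeGen]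
  rfl

/-- **Deligne–Serre lifting**: a residual system killed by the polynomials killing the forms of
level `N` comes from an eigenform of level `N`. -/
theorem exists_eigenform_of_ker {B N : ℕ} [NeZero N] {K : Type*} [Field K]
    (θ : GPoly B →+* K) (hmax : (RingHom.ker θ).IsMaximal)
    (hker : ∀ P, evS B N P = 0 → θ P = 0) :
    ∃ (g : CuspForm (Gamma0 N) 2) (θ' : GPoly B →+* ℤbar) (M : Ideal ℤbar),
      g.IsNormalizedEigenform ∧ (∀ l, (θ' (MvPolynomial.X l) : ℂ) = qCoeff g l) ∧ M.IsMaximal ∧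
      M.comap θ' = RingHom.ker θ := by
  let I := RingHom.ker (evS B N)
  let φ : GPoly B ⧸ I →+* Module.End ℂ (CuspForm (Gamma0 N) 2) := RingHom.kerLift (evS B N)
  have hφ : Function.Injective φ := RingHom.kerLift_injective _
  have hfinT : Module.Finite ℤ (heckeAlgebra N 2 (∅ : Set ℕ)) :=
    Eichler.moduleFinite_heckeAlgebra 2 ∅
  have hintT : Algebra.IsIntegral ℤ (GPoly B ⧸ I) := by
    refine ⟨fun t => ?_⟩
    obtain ⟨r, rfl⟩ := Ideal.Quotient.mk_surjective t
    have h1 : IsIntegral ℤ (heckeEvalForms N 2 (incB B r)) := Algebra.IsIntegral.isIntegral _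
    obtain ⟨P, hP, h⟩ := h1.map (heckeAlgebra N 2 ∅).val
    refine ⟨P, hP, ?_⟩
    rw [← Polynomial.aeval_def] at h ⊢
    apply hφ
    rw [map_zero]
    have h2 : φ (Polynomial.aeval (Ideal.Quotient.mk I r) P) =
        Polynomial.aeval (φ (Ideal.Quotient.mk I r)) P :=
      (Polynomial.aeval_algHom_apply φ.toIntAlgHom (Ideal.Quotient.mk I r) P).symm
    rw [h2]
    exact h
  have hintT' : @Algebra.IsIntegral ℤ (GPoly B ⧸ I) _ _ (Ring.toIntAlgebra _) := by
    convert hintT
    exact Subsingleton.elim _ _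
  let χ1 : GPoly B ⧸ I →+* K := Ideal.Quotient.lift I θ fun P hP => hker P hP
  have hχ1 : ∀ r, χ1 (Ideal.Quotient.mk I r) = θ r := fun r => Ideal.Quotient.lift_mk _ _ _
  have hmax' : (RingHom.ker χ1).IsMaximal := by
    have h1 : RingHom.ker χ1 = (RingHom.ker θ).map (Ideal.Quotient.mk I) := by
      apply le_antisymm
      · intro t ht
        obtain ⟨r, rfl⟩ := Ideal.Quotient.mk_surjective t
        rw [RingHom.mem_ker, hχ1] at ht
        exact Ideal.mem_map_of_mem _ ht
      · rw [Ideal.map_le_iff_le_comap]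
        intro r hr
        rw [Ideal.mem_comap, RingHom.mem_ker, hχ1]
        exact hr
    rw [h1]
    exact (Ideal.map_eq_top_or_isMaximal_of_surjective _ Ideal.Quotient.mk_surjective
      hmax).resolve_left (by
        rw [← h1]
        exact RingHom.ker_ne_top χ1)
  obtain ⟨v, θ1, M, hv0, hv, hM, hMm⟩ :=
    @exists_eigenvector_of_isMaximal _ _ _ _ _ _ hintT' φ hφ (RingHom.ker χ1) hmax'
  let θ' : GPoly B →+* ℤbar := θ1.comp (Ideal.Quotient.mk I)
  have hθv : ∀ r, evS B N r v = (θ' r : ℂ) • v := by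
    intro r
    exact hv (Ideal.Quotient.mk I r)
  let W : Submodule ℂ (CuspForm (Gamma0 N) 2) :=
    ⨅ l : {l : Nat.Primes // ¬ (l : ℕ) ∣ B}, LinearMap.ker (hOp N l.1 -
      (θ' (MvPolynomial.X l) : ℂ) • (1 : Module.End ℂ (CuspForm (Gamma0 N) 2)))
  have hmem : ∀ w, w ∈ W ↔ ∀ l : {l : Nat.Primes // ¬ (l : ℕ) ∣ B}, hOp N l.1 w =
      (θ' (MvPolynomial.X l) : ℂ) • w := by
    intro w
    simp only [W, Submodule.mem_iInf, LinearMap.mem_ker, LinearMap.sub_apply,
      sub_eq_zero, LinearMap.smul_apply, Module.End.one_apply]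
  obtain ⟨g, hgW, hg⟩ := Ihara.exists_eigenform_in W
    ((Submodule.ne_bot_iff _).mpr ⟨v, (hmem _).mpr (fun l => by
      rw [← hθv, evS_X]), hv0⟩)
    (by
      intro r w hw
      rw [hmem] at hw ⊢
      intro l
      have h3 : hOp N l.1 (hOp N r w) = hOp N r (hOp N l.1 w) :=
        LinearMap.congr_fun (hOp_comm (N := N) l.1 r) w
      rw [h3, hw l, map_smul])
  rw [hmem] at hgW
  have hg0 := ne_zero_of_isNormalizedEigenform hg
  have huniq : ∀ {x y : ℂ}, x • g = y • g → x = y := fun h => smul_left_injective ℂ hg0 h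
  refine ⟨g, θ', M, hg, fun l => ?_, hM, ?_⟩
  · apply huniq
    rw [← hgW l, hOp_eigen hg]
  · ext r
    rw [Ideal.mem_comap, RingHom.mem_ker, ← hχ1, ← RingHom.mem_ker, ← hMm, Ideal.mem_comap]
    rfl

theorem exists_lift_residue {F K k' : Type} [Field F] [Field K] [Field k'] (i1 : F →+* K)
    (i2 : F →+* k') (h : ∀ y : k', IsIntegral ℤ y) :
    ∃ (L : Type) (_ : Field L) (_ : Algebra K L) (e : k' →+* L),
      ∀ z, e (i2 z) = algebraMap K L (i1 z) := by
  let _ : Algebra F (AlgebraicClosure K) := ((algebraMap K (AlgebraicClosure K)).comp i1).toAlgebra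
  let _ : Algebra F k' := i2.toAlgebra
  have halg : Algebra.IsAlgebraic F k' :=
    ⟨fun y => (IsIntegral.tower_top (R := ℤ) (A := F) (h y)).isAlgebraic⟩
  let e : k' →ₐ[F] AlgebraicClosure K := IsAlgClosed.lift
  exact ⟨AlgebraicClosure K, inferInstance, inferInstance, e.toRingHom, fun z => e.commutes z⟩

/-- **(c2)** a residual system occurring in `J₀(M)` comes from an eigenform of level `M`. -/
theorem exists_form_of_mem_XJ {M B : ℕ} [NeZero M] (hMB : M ∣ B) (hp : p.Prime)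
    (θ : GPoly B →+* K) (hint : ∀ l, IsIntegral ℤ (θ (MvPolynomial.X l))) {x : JZero M}
    (hx : x ∈ XJ M θ) (hx0 : x ≠ 0) :
    ∃ (L : Type) (_ : Field L) (_ : Algebra K L) (ψ' : ℤbar →+* L)
      (g : CuspForm (Gamma0 M) 2), g.IsNormalizedEigenform ∧
      ∀ (l : {l : Nat.Primes // ¬ (l : ℕ) ∣ B}) (b : ℤbar), (b : ℂ) = qCoeff g l →
        ψ' b = algebraMap K L (θ (MvPolynomial.X l)) := by
  have : Fact p.Prime := ⟨hp⟩
  have hpK : (p : K) = 0 := CharP.cast_eq_zero K p
  have hmax : (RingHom.ker θ).IsMaximal :=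
    Ihara.isMaximal_ker hpK θ (isIntegral_gpoly θ hint)
  have hpx : p • x = 0 := by
    have h1 := hx (MvPolynomial.C (p : ℤ)) (by
      rw [eq_intCast (MvPolynomial.C : ℤ →+* GPoly B), map_intCast]
      push_cast
      exact hpK)
    rw [evJ_C] at h1
    rw [← natCast_zsmul]
    exact h1
  -- the annihilator of `x`
  have hann : ∀ P, evJ B M P x = 0 → θ P = 0 := by
    intro P hP
    by_contra hne
    obtain ⟨Q, hQ⟩ : ∃ Q, 1 - Q * P ∈ RingHom.ker θ := by
      have h2 := (Ideal.isMaximal_iff.mp hmax).2 (RingHom.ker θ ⊔ Ideal.span {P}) P le_sup_left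
        (by rwa [RingHom.mem_ker]) (Ideal.mem_sup_right (Ideal.mem_span_singleton_self P))
      obtain ⟨y, hy, z, hz, hyz⟩ := Submodule.mem_sup.mp h2
      obtain ⟨Q, rfl⟩ := Ideal.mem_span_singleton'.mp hz
      refine ⟨Q, ?_⟩
      rw [← hyz, add_sub_cancel_right]
      exact hy
    have h3 := hx _ hQ
    rw [map_sub, map_one, map_mul, LinearMap.sub_apply, Module.End.mul_apply, hP, map_zero,
      sub_zero] at h3
    exact hx0 h3
  have hker : ∀ P, evS B M P = 0 → θ P = 0 := by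
    intro P hP
    refine hann P (evJ_eq_zero hMB ?_ hp.ne_zero hpx)
    exact Subtype.ext hP
  obtain ⟨g, θ', 𝔐, hg, hθ', h𝔐, hcomap⟩ := exists_eigenform_of_ker θ hmax hker
  -- the residue fields
  let _ : Field (ℤbar ⧸ 𝔐) := Ideal.Quotient.field 𝔐
  let _ : Field (GPoly B ⧸ RingHom.ker θ) := Ideal.Quotient.field _
  obtain ⟨L, _, _, e, he⟩ := exists_lift_residue (RingHom.kerLift θ)
    (Ideal.Quotient.lift (RingHom.ker θ) ((Ideal.Quotient.mk 𝔐).comp θ') (by
      intro P hP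
      rw [← hcomap] at hP
      rw [RingHom.comp_apply, Ideal.Quotient.eq_zero_iff_mem]
      exact hP)) (by
      intro y
      obtain ⟨b, rfl⟩ := Ideal.Quotient.mk_surjective y
      exact (Algebra.IsIntegral.isIntegral (R := ℤ) b).map (Ideal.Quotient.mk 𝔐).toIntAlgHom)
  refine ⟨L, inferInstance, inferInstance, e.comp (Ideal.Quotient.mk 𝔐), g, hg,
    fun l b hb => ?_⟩
  have h1 : b = θ' (MvPolynomial.X l) := Subtype.ext (by rw [hb, hθ'])
  have h2 := he (Ideal.Quotient.mk _ (MvPolynomial.X l))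
  rw [Ideal.Quotient.lift_mk] at h2
  rw [h1, RingHom.comp_apply]
  exact h2

end Fermat.Agent.MazurQ
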