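import Fermat.Agent.MazurQ.MPMain
import Fermat.Agent.MazurQ.SysForm
import Fermat.Agent.LL.BN

/-!
# Mazur's principle at rigid level (a prime `r ≡ 11 mod 12` divides the level)
-/

set_option autoImplicit false
set_option linter.unusedSectionVars false
set_option linter.style.haveILetI false

noncomputable section

open AlgebraicCurve ModularCurve Polynomial

namespace Fermat.Agent.MazurQ

local notation "Qb" => AlgebraicClosure ℚ
local notation "Γℚ" => (AlgebraicClosure ℚ ≃ₐ[ℚ] AlgebraicClosure ℚ)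
local notation "ℤbar" => integralClosure ℤ ℂ

section Rep

variable {K : Type} [Field K]

/-- the matrix representation in a basis -/
def matRep (ρ : ResidualGaloisRep K) (b : Module.Basis (Fin 2) K ρ.V) :
    Γℚ →* Matrix (Fin 2) (Fin 2) K :=
  ((LinearMap.toMatrixAlgEquiv b : _ ≃ₐ[K] _) : _ →* _).comp ρ.ρ

theorem matRep_apply (ρ : ResidualGaloisRep K) (b : Module.Basis (Fin 2) K ρ.V) (g : Γℚ) :
    matRep ρ b g = LinearMap.toMatrixAlgEquiv b (ρ.ρ g) := rfl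

theorem trace_det_of_charpoly {ρ : ResidualGaloisRep K} {b : Module.Basis (Fin 2) K ρ.V} {g : Γℚ}
    {t d : K} (h : LinearMap.charpoly (ρ.ρ g) = X ^ 2 - C t * X + C d) :
    (matRep ρ b g).trace = t ∧ (matRep ρ b g).det = d := by
  have h1 : (matRep ρ b g).charpoly = X ^ 2 - C t * X + C d := by
    rw [← h, ← LinearMap.charpoly_toMatrix (ρ.ρ g) b]
    rfl
  rw [Matrix.charpoly_fin_two] at h1
  constructor
  · have h2 := congrArg (fun P : K[X] => P.coeff 1) h1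
    simp only [coeff_add, coeff_sub, coeff_X_pow, coeff_C_mul, coeff_X_one, coeff_C,
      mul_one] at h2
    norm_num at h2
    exact h2
  · have h2 := congrArg (fun P : K[X] => P.coeff 0) h1
    simp only [coeff_add, coeff_sub, coeff_X_pow, coeff_C_mul, coeff_X_zero, coeff_C_zero,
      mul_zero] at h2
    norm_num at h2
    exact h2

theorem span_matRep {ρ : ResidualGaloisRep K} (b : Module.Basis (Fin 2) K ρ.V)
    (h : ρ.IsAbsolutelyIrreducible) : Submodule.span K (Set.range (matRep ρ b)) = ⊤ := by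
  have h1 := LL.span_range_of_absIrr ρ h
  have h2 : Set.range (matRep ρ b) =
      (LinearMap.toMatrixAlgEquiv b).toLinearEquiv.toLinearMap '' Set.range ρ.ρ := by
    rw [← Set.range_comp]
    rfl
  rw [h2, ← Submodule.map_span, h1, Submodule.map_top]
  exact LinearMap.range_eq_top.2 (LinearMap.toMatrixAlgEquiv b).surjective

theorem matRep_eq_one {ρ : ResidualGaloisRep K} {b : Module.Basis (Fin 2) K ρ.V} {g : Γℚ} :
    matRep ρ b g = 1 ↔ ρ.ρ g = 1 := by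
  rw [matRep_apply, map_eq_one_iff _ (LinearMap.toMatrixAlgEquiv b).injective]

theorem matRep_eq_neg_one {ρ : ResidualGaloisRep K} {b : Module.Basis (Fin 2) K ρ.V} {g : Γℚ} :
    matRep ρ b g = -1 ↔ ρ.ρ g = -1 := by
  rw [matRep_apply, ← (LinearMap.toMatrixAlgEquiv b).injective.eq_iff, map_neg, map_one]

end Rep

section Cheb

variable {K : Type} [Field K] {p : ℕ} [CharP K p]

/-- **Chebotarev** for the system `θ` -/
theorem chebES {B N : ℕ} [NeZero N] (hp : p.Prime) (hB0 : B ≠ 0) (hNB : N * p ∣ B)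
    (ρ : ResidualGaloisRep K) (b : Module.Basis (Fin 2) K ρ.V) (θ : GPoly B →+* K)
    (hθ : ∀ (ℓ : {ℓ : Nat.Primes // ¬ (ℓ : ℕ) ∣ B}) (P : ValuationSubring Qb),
      P.LiesOverPrime ((ℓ : Nat.Primes) : ℕ) → ∀ σ : Γℚ,
      P.IsFrobeniusAt σ ((ℓ : Nat.Primes) : ℕ) →
      LinearMap.charpoly (ρ.ρ σ) =
        X ^ 2 - C (θ (MvPolynomial.X ℓ)) * X + C (((ℓ : Nat.Primes) : ℕ) : K)) :
    ChebES B N p θ (matRep ρ b) := by
  classical
  intro g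
  haveI : NeZero p := ⟨hp.ne_zero⟩
  haveI := Top.finite_pTor (N := N) (m := p)
  have hlevJ : GaloisFactorsThroughFiniteLevel (RepTwo.pTorRep (JZero N) p) :=
    RepTwo.factors_of_finite _ fun x => by
      obtain ⟨E, hE, h⟩ := RepTwo.torsionLevel N p x x.2
      exact ⟨E, hE, fun σ hσ => Subtype.ext (h σ hσ)⟩
  obtain ⟨F1, hF1, h1⟩ := hlevJ
  obtain ⟨F2, hF2, h2⟩ := ρ.factorsThroughFiniteLevel
  obtain ⟨ζ, hζ⟩ := HasEnoughRootsOfUnity.exists_primitiveRoot Qb p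
  let F3 : IntermediateField ℚ Qb := IntermediateField.adjoin ℚ {ζ}
  haveI := hF1
  haveI := hF2
  haveI hF3 : FiniteDimensional ℚ F3 :=
    IntermediateField.adjoin.finiteDimensional (Algebra.IsIntegral.isIntegral ζ)
  haveI : FiniteDimensional ℚ (F1 ⊔ F2 : IntermediateField ℚ Qb) :=
    IntermediateField.finiteDimensional_sup F1 F2
  haveI : FiniteDimensional ℚ (F1 ⊔ F2 ⊔ F3 : IntermediateField ℚ Qb) :=
    IntermediateField.finiteDimensional_sup _ F3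
  obtain ⟨ℓ, hℓ, hS, -, A, hA, φ, hφ, hφσ⟩ := ChebFull.exists_frobenius_eq (F1 ⊔ F2 ⊔ F3) g
    B.primeFactors
  have hℓB : ¬ ℓ ∣ B := fun h => hS (Nat.mem_primeFactors.mpr ⟨hℓ, h, hB0⟩)
  have hℓp : ℓ ≠ p := by rintro rfl; exact hℓB ((dvd_mul_left _ _).trans hNB)
  have hfix : ∀ y ∈ (F1 ⊔ F2 ⊔ F3 : IntermediateField ℚ Qb), (g⁻¹ * φ) y = y := by
    intro y hy
    have : (g⁻¹ * φ) y = g⁻¹ (φ y) := rfl
    rw [this, hφσ y hy]
    exact inv_smul_smul g y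
  have e1 : ∀ x : JZero N, p • x = 0 → φ • x = g • x := by
    intro x hx
    have h3 := h1 (g⁻¹ * φ) fun y hy =>
      hfix y (le_sup_left (a := F1 ⊔ F2) (le_sup_left (a := F1) hy))
    have h4 := congrArg (fun f : Module.End (ZMod p) (RepTwo.pTor (JZero N) p) =>
      ((f ⟨x, hx⟩ : RepTwo.pTor (JZero N) p) : JZero N)) h3
    have h5 : (g⁻¹ * φ) • x = x := h4
    rw [mul_smul] at h5
    exact inv_smul_eq_iff.mp h5
  have e2 : ρ.ρ φ = ρ.ρ g := by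
    have h3 := h2 (g⁻¹ * φ) fun y hy =>
      hfix y (le_sup_left (a := F1 ⊔ F2) (le_sup_right (a := F1) hy))
    have h4 : φ = g * (g⁻¹ * φ) := by group
    rw [h4, map_mul, h3, mul_one]
  have e3 : φ ζ = g ζ := hφσ ζ (le_sup_right (a := F1 ⊔ F2)
    (IntermediateField.mem_adjoin_simple_self ℚ ζ))
  have h3 := hθ ⟨⟨ℓ, hℓ⟩, hℓB⟩ A hA φ hφ
  rw [e2] at h3
  obtain ⟨h4, h5⟩ := trace_det_of_charpoly (b := b) h3
  refine ⟨⟨⟨ℓ, hℓ⟩, hℓB⟩, h4.symm, h5.symm, fun ζ' hζ' => ?_, fun x hx => ?_⟩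
  · obtain ⟨i, -, hi⟩ := hζ.eq_pow_of_pow_eq_one hζ'
    have h6 : φ ζ = ζ ^ ℓ := RepTwo.frobenius_apply_root (m := 1) hℓ hp hℓp hA hφ
      (by rw [pow_one]; exact hζ.pow_eq_one)
    rw [← hi, map_pow, ← e3, h6, ← pow_mul, ← pow_mul, mul_comm]
  · have h6 := (TwoAdic.MazH.jzeroES N p).frob ℓ hℓ (fun h => hℓB (h.trans hNB)) A hA φ hφ x
      ⟨1, by rw [pow_one]; exact hx⟩
    rw [e1 x hx, e1 _ (nsmul_smul_zero g hx)] at h6
    exact h6

end Cheb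

section Final

variable {K : Type} [Field K] {p : ℕ} [CharP K p]

/-- the residual system of eigenvalues of an eigenform, away from `B` -/
def thetaF {N : ℕ} [NeZero N] {f : CuspForm (CongruenceSubgroup.Gamma0 N) 2}
    (hf : f.IsNormalizedEigenform) (ψ : ℤbar →+* K) (B : ℕ) : GPoly B →+* K :=
  MvPolynomial.eval₂Hom (Int.castRingHom K) fun ℓ =>
    ψ ⟨ModularFormClass.qCoeff f ℓ, Eigenform.isIntegral_qCoeff_prime hf ℓ.1.2⟩

theorem thetaF_X {N : ℕ} [NeZero N] {f : CuspForm (CongruenceSubgroup.Gamma0 N) 2}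
    (hf : f.IsNormalizedEigenform) (ψ : ℤbar →+* K) {B : ℕ}
    (ℓ : {ℓ : Nat.Primes // ¬ (ℓ : ℕ) ∣ B}) {a : ℤbar}
    (ha : (a : ℂ) = ModularFormClass.qCoeff f ℓ) :
    thetaF hf ψ B (MvPolynomial.X ℓ) = ψ a := by
  rw [thetaF, MvPolynomial.eval₂Hom_X']
  congr 1
  exact Subtype.ext ha.symm

/-- **Mazur's principle at rigid level.** -/
theorem mp_rigid {M q : ℕ} [NeZero M] [NeZero (M * q)] (hq : q.Prime) (hp : p.Prime)
    (hqp : q ≠ p) (hM : ¬ q ∣ M) (hr : ∃ r : ℕ, r.Prime ∧ r ∣ M ∧ r % 12 = 11)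
    (ψ : ℤbar →+* K) (f : CuspForm (CongruenceSubgroup.Gamma0 (M * q)) 2)
    (hf : f.IsNormalizedEigenform) (ρbar : ResidualGaloisRep K)
    (habs : ρbar.IsAbsolutelyIrreducible)
    (hρ : ∀ ℓ : ℕ, ℓ.Prime → ¬ ℓ ∣ M * q → ℓ ≠ p → ∀ P : ValuationSubring Qb,
      P.LiesOverPrime ℓ → ∀ σ : Γℚ, P.IsFrobeniusAt σ ℓ → ∀ a : ℤbar,
      (a : ℂ) = ModularFormClass.qCoeff f ℓ →
      LinearMap.charpoly (ρbar.ρ σ) = X ^ 2 - C (ψ a) * X + C (ℓ : K))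
    (hur : ρbar.IsUnramifiedAt q)
    (hnew : ∀ (L : Type) [Field L] [Algebra K L] (ψ' : ℤbar →+* L)
      (g : CuspForm (CongruenceSubgroup.Gamma0 M) 2), g.IsNormalizedEigenform →
      ∃ ℓ : ℕ, ℓ.Prime ∧ ¬ ℓ ∣ M * q ∧ ℓ ≠ p ∧ ∃ a b : ℤbar,
        (a : ℂ) = ModularFormClass.qCoeff f ℓ ∧ (b : ℂ) = ModularFormClass.qCoeff g ℓ ∧
        ψ' b ≠ algebraMap K L (ψ a)) :
    (q : K) = 1 ∧ ∀ P : ValuationSubring Qb, P.LiesOverPrime q →
      ∀ σ : Γℚ, P.IsFrobeniusAt σ q → ρbar.ρ σ = 1 ∨ ρbar.ρ σ = -1 := by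
  haveI : NeZero q := ⟨hq.ne_zero⟩
  haveI : Fact q.Prime := ⟨hq⟩
  set B := M * q * p with hB
  have hB0 : B ≠ 0 := mul_ne_zero (NeZero.ne _) hp.ne_zero
  have hBN : ∀ ℓ : {ℓ : Nat.Primes // ¬ (ℓ : ℕ) ∣ B},
      ¬ ((ℓ : Nat.Primes) : ℕ) ∣ M * q ∧ ((ℓ : Nat.Primes) : ℕ) ≠ p := fun ℓ =>
    ⟨fun h => ℓ.2 (h.mul_right p), fun h => ℓ.2 (h ▸ dvd_mul_left _ _)⟩
  have hBN' : ∀ ℓ : ℕ, ℓ.Prime → ¬ ℓ ∣ M * q → ℓ ≠ p → ¬ ℓ ∣ B := by
    intro ℓ hℓ h1 h2 h3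
    rcases hℓ.dvd_mul.1 h3 with h4 | h4
    · exact h1 h4
    · exact h2 ((Nat.prime_dvd_prime_iff_eq hℓ hp).1 h4)
  let θ := thetaF hf ψ B
  have hint : ∀ ℓ, IsIntegral ℤ (θ (MvPolynomial.X ℓ)) := by
    intro ℓ
    have h1 : IsIntegral ℤ (⟨ModularFormClass.qCoeff f ℓ,
        Eigenform.isIntegral_qCoeff_prime hf ℓ.1.2⟩ : ℤbar) :=
      IsIntegralClosure.isIntegral ℤ ℂ _
    have h2 := h1.map ψ.toIntAlgHom
    have h3 : θ (MvPolynomial.X ℓ) = ψ ⟨ModularFormClass.qCoeff f ℓ,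
        Eigenform.isIntegral_qCoeff_prime hf ℓ.1.2⟩ := thetaF_X hf ψ ℓ rfl
    rw [h3]
    exact h2
  have hX : ∃ x ∈ XJ (M * q) θ, x ≠ 0 :=
    exists_mem_XJ (dvd_mul_right _ _) hp ψ hf θ fun l a ha => thetaF_X hf ψ l ha
  have hZ : ∀ z ∈ XJ M θ, z = 0 := by
    intro z hz
    by_contra hz0
    obtain ⟨L, _, _, ψ', g, hg, h⟩ := exists_form_of_mem_XJ
      ((dvd_mul_right _ _).trans (dvd_mul_right _ _)) hp θ hint hz hz0
    obtain ⟨ℓ, hℓ, h1, h2, a, b, ha, hb, hne⟩ := hnew L ψ' g hg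
    apply hne
    rw [h ⟨⟨ℓ, hℓ⟩, hBN' ℓ hℓ h1 h2⟩ b hb]
    congr 1
    exact thetaF_X hf ψ _ ha
  let b : Module.Basis (Fin 2) K ρbar.V := Module.finBasisOfFinrankEq K ρbar.V ρbar.finrank_eq
  have hcheb : ChebES B (M * q) p θ (matRep ρbar b) := by
    refine chebES hp hB0 dvd_rfl ρbar b θ fun ℓ P hP σ hσ => ?_
    have h3 : θ (MvPolynomial.X ℓ) = ψ ⟨ModularFormClass.qCoeff f ℓ,
        Eigenform.isIntegral_qCoeff_prime hf ℓ.1.2⟩ := thetaF_X hf ψ ℓ rfl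
    rw [h3]
    exact hρ ℓ ℓ.1.2 (hBN ℓ).1 (hBN ℓ).2 P hP σ hσ _ rfl
  have key : ∀ P : ValuationSubring Qb, P.LiesOverPrime q → ∀ σ : Γℚ, P.IsFrobeniusAt σ q →
      (q : K) = 1 ∧ (matRep ρbar b σ = 1 ∨ matRep ρbar b σ = -1) := fun P hP σ hσ =>
    main_frob hP hM hr hp (Ne.symm hqp) dvd_rfl (span_matRep b habs) hcheb hint hX hZ
      (fun t ht => matRep_eq_one.2 (hur P hP t ht)) hσ
  obtain ⟨A, hA⟩ := Frob.exists_liesOverPrime Qb hq
  obtain ⟨φ, hφ⟩ := Frob.exists_isFrobeniusAt A hq hA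
  refine ⟨(key A hA φ hφ).1, fun P hP σ hσ => ?_⟩
  rcases (key P hP σ hσ).2 with h | h
  · exact Or.inl (matRep_eq_one.1 h)
  · exact Or.inr (matRep_eq_neg_one.1 h)

end Final

end Fermat.Agent.MazurQ
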