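import Fermat.Agent.MazurQ.MPFinal
import Fermat.Agent.MazurQ.MPRigid

/-!
# Mazur's principle (block MP), `p ≥ 5` and the case `p = 3`
-/

set_option autoImplicit false

noncomputable section

open IsLocalRing Polynomial ModularFormClass CongruenceSubgroup

namespace Fermat.Agent.MazurQ

local notation "ℤbar" => integralClosure ℤ ℂ
local notation "Γℚ" => (AlgebraicClosure ℚ ≃ₐ[ℚ] AlgebraicClosure ℚ)
local notation "Qb" => AlgebraicClosure ℚ

theorem mpRigid {p : ℕ} (hp : p.Prime) : MPRigid p := by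
  intro N q _ hq hqp hqN hqN2 hr K _ _ ψ f ρbar D
  obtain ⟨M, rfl⟩ : ∃ M, N = M * q := ⟨N / q, (Nat.div_mul_cancel hqN).symm⟩
  have hM : M * q / q = M := Nat.mul_div_cancel _ hq.pos
  have hM0 : NeZero M := ⟨left_ne_zero_of_mul (NeZero.ne (M * q))⟩
  have hqM : ¬ q ∣ M := fun h => hqN2 (by rw [pow_two]; exact Nat.mul_dvd_mul_right h q)
  have hno := D.hno
  rw [hM] at hno
  obtain ⟨r, h1, h2, h3⟩ := hr
  rw [hM] at h3
  exact mp_rigid hq hp hqp hqM ⟨r, h1, h3, h2⟩ ψ f D.hf ρbar D.irr D.frob D.unr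
    (fun L _ _ ψ' g hg => hno L ψ' g hg)

end Fermat.Agent.MazurQ

namespace Fermat.Agent.LL

/-- **Block MP** for `p ≥ 5`. -/
theorem mpStmtGe5 : MPStmtGe5 := mpStmtGe5_of_rigid fun _ hp _ => MazurQ.mpRigid hp

end Fermat.Agent.LL
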