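import Fermat.Agent.MazurQ.Toric

/-!
# The pair of reductions of a divisor class of finite order
-/

set_option autoImplicit false
set_option linter.unusedSectionVars false
set_option linter.style.haveILetI false

noncomputable section

open AlgebraicCurve ModularCurve IntermediateField Module

namespace Fermat.Agent.MazurQ

open Fermat.Agent.FF Fermat.Agent.Red Fermat.Agent.QComp Fermat.Agent.QVal Fermat.Agent.JZ
  Fermat.Agent.ESh

local notation "Qb" => AlgebraicClosure ℚ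
local notation "Γℚ" => (AlgebraicClosure ℚ ≃ₐ[ℚ] AlgebraicClosure ℚ)

section Abstract

variable {K k : Type*} [Field K] [Field k] {A : ValuationSubring K} {π : A →+* k}
  {F₀ F κ : Type*} [Field F₀] [Algebra K F₀] [Field F] [Algebra K F] [Field κ] [Algebra k κ]
  [IsAlgClosed K] [CharZero K] [IsAlgClosed k] [IsFnField K F₀] [IsFnField K F] [IsFnField k κ]
  {R₀ : ConstRed A π F₀ κ} {R₁ R₂ : ConstRed A π F κ} {j : F₀} {jb : κ}
    {α : F₀ →ₐ[K] F} {w : F →ₐ[K] F} {Fr : κ →ₐ[k] κ} {q : ℕ}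
    (H : TwoLevel R₀ R₁ R₂ j jb α w Fr q)
    {Q : ℕ} {τ τ' : F →+* F} {σ σ' : K →+* K} {ψ ψ' : κ →+* κ}
    {n : ℕ} {y : F} {D : Divisor K F} {c₁ c₂ : K} {a₁ a₂ : κ}

include H in
/-- inertia acts trivially on toric classes -/
theorem toric_inertia (W : W1 R₁ R₂ n y D c₁ c₂ a₁ a₂) (hA : IsArch A)
    (hA' : ∃ c : A, ¬ IsUnit c ∧ c ≠ 0) (hn : (n : k) ≠ 0) (hπ : Function.Surjective π)
    (Φ : TwoLevel.Frob R₁ R₂ (α j * w (α j)) Fr Q τ τ' σ σ' ψ ψ')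
    {g : SemilinearAut K F} (hg : SemiRed R₁ R₂ (α j * w (α j)) (gF g) (gK g) (RingHom.id κ)) :
    Divisor.IsPrincipal (g • D - D) := by
  have h3 := divisor_smul_sub (g := g) W.ne W.div 1
  rw [one_smul, pow_one] at h3
  obtain ⟨f, hf⟩ := W.inertia H hA hA' hn hπ Φ hg (D₁ := g • D - D)
    (by rw [map_sub, SemilinearAut.degree_smul, sub_self]) h3
  have hf0 : f ≠ 0 := by
    rintro rfl
    rw [zero_pow W.n0] at hf
    exact div_ne_zero ((map_ne_zero _).2 W.ne) W.ne hf.symm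
  refine ⟨f, hf0, fun P => ?_⟩
  have h4 := h3 P
  rw [← hf, ord_pow] at h4
  exact mul_left_cancel₀ (by exact_mod_cast W.n0) h4

end Abstract

variable {k : Type*} [Field k] {A : ValuationSubring Qb} {π : A →+* k} {M q : ℕ} [NeZero M]
  [NeZero q] [hqf : Fact q.Prime]

section Def

variable (hA : A.LiesOverPrime q) (hπ : ∀ a : A, π a = 0 ↔ ¬ IsUnit a)
  (hs : Function.Surjective π) (hM : ¬ q ∣ M)

/-- `x` is the class of `D`, `n D = div y`, and `b₁`, `b₂` are the reductions of `y` on the two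
components of `X₀(M q)` modulo `q` (up to constants). -/
def HasRed (n : ℕ) (x : JZero (M * q)) (b₁ b₂ : modularFunctionFieldFullC k M) : Prop :=
  ∃ (D : Divisor.degZero (K := Qb) (F := FB (M * q))) (y : FB (M * q)) (γ₁ γ₂ : Qb),
    Pic0.mk D = x ∧ y ≠ 0 ∧ (∀ P, (n : ℤ) * (D : Divisor Qb (FB (M * q))) P = P.ord y) ∧
    γ₁ ≠ 0 ∧ γ₂ ≠ 0 ∧ b₁ ≠ 0 ∧ b₂ ≠ 0 ∧
    (rInf1 M q hA hπ hs hM).IsRed (algebraMap Qb (FB (M * q)) γ₁ * y) b₁ ∧
    (rZero1 M q hA hπ hs hM).IsRed (algebraMap Qb (FB (M * q)) γ₂ * y) b₂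

end Def

variable {hA : A.LiesOverPrime q} {hπ : ∀ a : A, π a = 0 ↔ ¬ IsUnit a}
  {hs : Function.Surjective π} {hM : ¬ q ∣ M} {n : ℕ} {x x' : JZero (M * q)}
  {b₁ b₂ b₁' b₂' : modularFunctionFieldFullC k M}

theorem exists_hasRed (hx : n • x = 0) : ∃ b₁ b₂, HasRed hA hπ hs hM n x b₁ b₂ := by
  obtain ⟨D, rfl⟩ := Pic0.mk_surjective x
  obtain ⟨y, hy, hdiv⟩ := exists_div_of_torsion hx
  obtain ⟨γ₁, hγ₁, b₁, hb₁, h1⟩ := (rInf1 M q hA hπ hs hM).exists_isRed_mul hy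
  obtain ⟨γ₂, hγ₂, b₂, hb₂, h2⟩ := (rZero1 M q hA hπ hs hM).exists_isRed_mul hy
  exact ⟨b₁, b₂, D, y, γ₁, γ₂, rfl, hy, hdiv, hγ₁, hγ₂, hb₁, hb₂, h1, h2⟩

namespace HasRed

theorem ne1 (h : HasRed hA hπ hs hM n x b₁ b₂) : b₁ ≠ 0 := by
  obtain ⟨D, y, γ₁, γ₂, rfl, hy, hdiv, hγ₁, hγ₂, hb₁, hb₂, h1, h2⟩ := h
  exact hb₁

theorem ne2 (h : HasRed hA hπ hs hM n x b₁ b₂) : b₂ ≠ 0 := by
  obtain ⟨D, y, γ₁, γ₂, rfl, hy, hdiv, hγ₁, hγ₂, hb₁, hb₂, h1, h2⟩ := h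
  exact hb₂

theorem smul_eq_zero (h : HasRed hA hπ hs hM n x b₁ b₂) : n • x = 0 := by
  obtain ⟨D, y, γ₁, γ₂, rfl, hy, hdiv, hγ₁, hγ₂, hb₁, hb₂, h1, h2⟩ := h
  change Pic0.mk (n • D) = 0
  rw [Red.pic0_mk_eq_zero]
  refine ⟨y, hy, fun P => ?_⟩
  rw [← hdiv P]
  change (n • (D : Divisor Qb (FB (M * q)))) P = _
  rw [Finsupp.smul_apply, nsmul_eq_mul]

theorem add (h : HasRed hA hπ hs hM n x b₁ b₂) (h' : HasRed hA hπ hs hM n x' b₁' b₂') :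
    HasRed hA hπ hs hM n (x + x') (b₁ * b₁') (b₂ * b₂') := by
  obtain ⟨D, y, γ₁, γ₂, rfl, hy, hdiv, hγ₁, hγ₂, hb₁, hb₂, h1, h2⟩ := h
  obtain ⟨D', y', γ₁', γ₂', rfl, hy', hdiv', hγ₁', hγ₂', hb₁', hb₂', h1', h2'⟩ := h'
  refine ⟨D + D', y * y', γ₁ * γ₁', γ₂ * γ₂', rfl, mul_ne_zero hy hy', fun P => ?_,
    mul_ne_zero hγ₁ hγ₁', mul_ne_zero hγ₂ hγ₂', mul_ne_zero hb₁ hb₁', mul_ne_zero hb₂ hb₂', ?_, ?_⟩
  · change (n : ℤ) * ((D : Divisor Qb (FB (M * q))) + D') P = _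
    rw [Finsupp.add_apply, mul_add, hdiv, hdiv', P.ord_mul hy hy']
  · have h3 := h1.mul h1'
    convert h3 using 1
    rw [map_mul]; ring
  · have h3 := h2.mul h2'
    convert h3 using 1
    rw [map_mul]; ring

theorem neg (h : HasRed hA hπ hs hM n x b₁ b₂) : HasRed hA hπ hs hM n (-x) b₁⁻¹ b₂⁻¹ := by
  obtain ⟨D, y, γ₁, γ₂, rfl, hy, hdiv, hγ₁, hγ₂, hb₁, hb₂, h1, h2⟩ := h
  refine ⟨-D, y⁻¹, γ₁⁻¹, γ₂⁻¹, rfl, inv_ne_zero hy, fun P => ?_,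
    inv_ne_zero hγ₁, inv_ne_zero hγ₂, inv_ne_zero hb₁, inv_ne_zero hb₂, ?_, ?_⟩
  · change (n : ℤ) * (-(D : Divisor Qb (FB (M * q)))) P = _
    rw [Finsupp.neg_apply, mul_neg, hdiv, P.ord_inv]
  · have h3 := h1.inv hb₁
    convert h3 using 1
    rw [map_inv₀, mul_inv]
  · have h3 := h2.inv hb₂
    convert h3 using 1
    rw [map_inv₀, mul_inv]

theorem sub (h : HasRed hA hπ hs hM n x b₁ b₂) (h' : HasRed hA hπ hs hM n x' b₁' b₂') :
    HasRed hA hπ hs hM n (x - x') (b₁ / b₁') (b₂ / b₂') := by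
  rw [sub_eq_add_neg, div_eq_mul_inv, div_eq_mul_inv]
  exact h.add h'.neg

theorem zero : HasRed hA hπ hs hM n 0 1 1 := by
  refine ⟨0, 1, 1, 1, rfl, one_ne_zero, fun P => ?_, one_ne_zero, one_ne_zero, one_ne_zero,
    one_ne_zero, ?_, ?_⟩
  · rw [P.ord_one]; simp
  · rw [map_one, one_mul]; exact ConstRed.isRed_one _
  · rw [map_one, one_mul]; exact ConstRed.isRed_one _

/-- multiplication by `n`-th powers of functions -/
theorem mul_pow (h : HasRed hA hπ hs hM n x b₁ b₂) {e : FB (M * q)} (he : e ≠ 0)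
    {γ₁ γ₂ : Qb} (hγ₁ : γ₁ ≠ 0) (hγ₂ : γ₂ ≠ 0) {e₁ e₂ : modularFunctionFieldFullC k M}
    (he₁ : e₁ ≠ 0) (he₂ : e₂ ≠ 0)
    (h1 : (rInf1 M q hA hπ hs hM).IsRed (algebraMap Qb (FB (M * q)) γ₁ * e) e₁)
    (h2 : (rZero1 M q hA hπ hs hM).IsRed (algebraMap Qb (FB (M * q)) γ₂ * e) e₂) :
    HasRed hA hπ hs hM n x (b₁ * e₁ ^ n) (b₂ * e₂ ^ n) := by
  obtain ⟨D, y, δ₁, δ₂, rfl, hy, hdiv, hδ₁, hδ₂, hb₁, hb₂, h1', h2'⟩ := h
  have hdeg : Divisor.degree (RR.divOf (K := Qb) e) = 0 := RR.degree_divOf e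
  refine ⟨D + ⟨RR.divOf (K := Qb) e, Divisor.mem_degZero.2 hdeg⟩, y * e ^ n, δ₁ * γ₁ ^ n,
    δ₂ * γ₂ ^ n, ?_, mul_ne_zero hy (pow_ne_zero _ he), fun P => ?_,
    mul_ne_zero hδ₁ (pow_ne_zero _ hγ₁), mul_ne_zero hδ₂ (pow_ne_zero _ hγ₂),
    mul_ne_zero hb₁ (pow_ne_zero _ he₁), mul_ne_zero hb₂ (pow_ne_zero _ he₂), ?_, ?_⟩
  · have h3 : Pic0.mk (⟨RR.divOf (K := Qb) e, Divisor.mem_degZero.2 hdeg⟩ :
        Divisor.degZero (K := Qb) (F := FB (M * q))) = 0 := by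
      rw [Red.pic0_mk_eq_zero]
      exact ⟨e, he, fun P => RR.divOf_apply _ _⟩
    rw [Pic0.mk_add, h3, add_zero]
  · change (n : ℤ) * ((D : Divisor Qb (FB (M * q))) + RR.divOf (K := Qb) e) P = _
    rw [Finsupp.add_apply, mul_add, hdiv, RR.divOf_apply, P.ord_mul hy (pow_ne_zero _ he),
      ord_pow]
  · have h3 := h1'.mul (h1.pow n)
    convert h3 using 1
    rw [map_mul, map_pow]; ring
  · have h3 := h2'.mul (h2.pow n)
    convert h3 using 1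
    rw [map_mul, map_pow]; ring

/-- the reductions are well defined modulo `n`-th powers -/
theorem unique (hn : n ≠ 0) [IsAlgClosed k] (h : HasRed hA hπ hs hM n x b₁ b₂)
    (h' : HasRed hA hπ hs hM n x b₁' b₂') :
    (∃ e, e ≠ 0 ∧ b₁' = b₁ * e ^ n) ∧ ∃ e, e ≠ 0 ∧ b₂' = b₂ * e ^ n := by
  obtain ⟨D, y, γ₁, γ₂, hx, hy, hdiv, hγ₁, hγ₂, hb₁, hb₂, h1, h2⟩ := h
  obtain ⟨D', y', γ₁', γ₂', rfl, hy', hdiv', hγ₁', hγ₂', hb₁', hb₂', h1', h2'⟩ := h'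
  have h3 : Pic0.mk (D' - D) = 0 := by
    change Pic0.mk D' - Pic0.mk D = 0
    rw [hx, sub_self]
  rw [Red.pic0_mk_eq_zero] at h3
  have hne : y' / y ≠ 0 := div_ne_zero hy' hy
  obtain ⟨e, he⟩ := exists_pow_eq_of_div hn h3 hne (fun P => by
    change (n : ℤ) * ((D' : Divisor Qb (FB (M * q))) - D) P = _
    rw [Finsupp.sub_apply, mul_sub, hdiv, hdiv', ord_div P hy' hy])
  have he0 : e ≠ 0 := by
    rintro rfl
    rw [zero_pow hn] at he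
    exact hne he.symm
  have hk : ∀ c : k, ∃ d : k, d ^ n = c := fun c => IsAlgClosed.exists_pow_nat_eq c
    (Nat.pos_of_ne_zero hn)
  have key : ∀ (R : ConstRed A π (FB (M * q)) (modularFunctionFieldFullC k M)) (γ γ' : Qb)
      (b b' : modularFunctionFieldFullC k M), γ ≠ 0 → γ' ≠ 0 → b ≠ 0 → b' ≠ 0 →
      R.IsRed (algebraMap Qb (FB (M * q)) γ * y) b →
      R.IsRed (algebraMap Qb (FB (M * q)) γ' * y') b' → ∃ e, e ≠ 0 ∧ b' = b * e ^ n := by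
    intro R γ γ' b b' hγ hγ' hb hb' hr hr'
    obtain ⟨δ, hδ, e₁, he₁, h4⟩ := R.exists_isRed_mul he0
    obtain ⟨c, hc⟩ := IsAlgClosed.exists_pow_nat_eq (γ' / γ) (Nat.pos_of_ne_zero hn)
    have hc0 : c ≠ 0 := by
      rintro rfl
      rw [zero_pow hn] at hc
      exact div_ne_zero hγ' hγ hc.symm
    have h5 := hr'.div hr hb
    have h6 : algebraMap Qb (FB (M * q)) γ' * y' / (algebraMap Qb (FB (M * q)) γ * y) =
        (algebraMap Qb (FB (M * q)) c * e) ^ n := by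
      have e1 : algebraMap Qb (FB (M * q)) γ ≠ 0 := (map_ne_zero _).2 hγ
      rw [_root_.mul_pow, he, ← map_pow, hc, map_div₀]
      field_simp
    rw [h6] at h5
    obtain ⟨z, hz⟩ := exists_pow_of_isRed hn h5
    refine ⟨z, ?_, ?_⟩
    · rintro rfl
      rw [zero_pow hn] at hz
      exact div_ne_zero hb' hb hz.symm
    · rw [hz, mul_div_cancel₀ _ hb]
  exact ⟨key _ γ₁ γ₁' b₁ b₁' hγ₁ hγ₁' hb₁ hb₁' h1 h1',
    key _ γ₂ γ₂' b₂ b₂' hγ₂ hγ₂' hb₂ hb₂' h2 h2'⟩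

/-- the Atkin-Lehner involution exchanges the two reductions -/
theorem w (h : HasRed hA hπ hs hM n x b₁ b₂) :
    HasRed hA hπ hs hM n (wSemi hM • x) b₂ b₁ := by
  obtain ⟨D, y, γ₁, γ₂, rfl, hy, hdiv, hγ₁, hγ₂, hb₁, hb₂, h1, h2⟩ := h
  refine ⟨SemilinearAut.degZeroSMulHom (wSemi hM) D, w1 hqf.out hM y, γ₂, γ₁, rfl,
    (map_ne_zero_iff _ (w1 hqf.out hM).injective).2 hy, divisor_smul_div hdiv, hγ₂, hγ₁, hb₂, hb₁,
    ?_, ?_⟩
  · rw [isRed_rZero1, map_mul, AlgEquiv.commutes] at h2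
    exact h2
  · rw [isRed_rZero1, map_mul, AlgEquiv.commutes, w1_w1]
    exact h1

/-- the action of the decomposition group -/
theorem galois (h : HasRed hA hπ hs hM n x b₁ b₂) {σ : Γℚ} (sA : A →+* A)
    (hsA : ∀ a : A, ((sA a : A) : Qb) = σ a) (sk : k ≃+* k)
    (hsk : ∀ a : A, π (sA a) = sk (π a)) :
    HasRed hA hπ hs hM n (σ • x) (gF (coeffSemi M sk) b₁) (gF (coeffSemi M sk) b₂) := by
  obtain ⟨D, y, γ₁, γ₂, rfl, hy, hdiv, hγ₁, hγ₂, hb₁, hb₂, h1, h2⟩ := h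
  have H := semiRed_galois (M := M) (hA := hA) (hπ := hπ) (hs := hs) (hM := hM) sA hsA sk hsk
  have e1 := H.red1 _ _ h1
  have e2 := H.red2 _ _ h2
  rw [map_mul, H.comm] at e1 e2
  refine ⟨SemilinearAut.degZeroSMulHom
    (arithmeticGalois (modularFunctionFieldFull (M * q)) σ) D,
    gF (arithmeticGalois (modularFunctionFieldFull (M * q)) σ) y, _, _, rfl,
    (map_ne_zero _).2 hy, divisor_smul_div hdiv, (map_ne_zero _).2 hγ₁, (map_ne_zero _).2 hγ₂,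
    (map_ne_zero _).2 hb₁, (map_ne_zero _).2 hb₂, e1, e2⟩

/-- the action of Frobenius -/
theorem frob [CharP k q] [PerfectRing k q] (h : HasRed hA hπ hs hM n x b₁ b₂) {φ : Γℚ}
    (hφ : A.IsFrobeniusAt φ q) :
    HasRed hA hπ hs hM n (φ • x) (phiK q M b₁) (phiK q M b₂) := by
  obtain ⟨⟨sA, h1, h2⟩, -⟩ := exists_act (k := k) hπ hφ
  have h3 := h.galois sA h1 _ h2
  rwa [gF_coeffSemi_frob, gF_coeffSemi_frob] at h3

/-- the action of inertia -/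
theorem inertia (h : HasRed hA hπ hs hM n x b₁ b₂) {s : Γℚ} (hs' : s ∈ A.inertiaSubgroupIn ℚ) :
    HasRed hA hπ hs hM n (s • x) b₁ b₂ := by
  obtain ⟨hσD, hσF⟩ := (Frob.mem_inertiaSubgroupIn_iff A s).1 hs'
  have h3 := h.galois (((s : Qb →+* Qb).comp A.subtype).codRestrict A.toSubring
    (fun a => (Frob.apply_mem_iff hσD).2 a.2)) (fun a => rfl) (RingEquiv.refl k) (fun a => by
      rw [RingEquiv.refl_apply, ← sub_eq_zero, ← map_sub, hπ]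
      have h1 := hσF a a.2
      rw [ValuationSubring.mem_nonunits_iff_exists_mem_maximalIdeal] at h1
      obtain ⟨h2, h3⟩ := h1
      exact (IsLocalRing.mem_maximalIdeal _).1 h3)
  rwa [gF_coeffSemi_refl] at h3

/-- the norm along the first degeneracy map -/
theorem trA [CharP k q] (hn : n ≠ 0) (h : HasRed hA hπ hs hM n x b₁ b₂)
    (hx : trA M q x = 0) : ∃ z, z ^ n = b₁ * phiK q M b₂ := by
  obtain ⟨D, y, γ₁, γ₂, rfl, hy, hdiv, hγ₁, hγ₂, hb₁, hb₂, h1, h2⟩ := h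
  rw [trA_mk, Red.pic0_mk_eq_zero, coe_degZeroPush] at hx
  obtain ⟨hα, hα'⟩ := exists_norm_root _ _ (finiteAlong _) (nInputs.norm _ _ _ _) hn hx hy hdiv
  exact isRed_norm_root hn hα' h1 h2

/-- the norm along the second degeneracy map -/
theorem trB [CharP k q] (hn : n ≠ 0) (h : HasRed hA hπ hs hM n x b₁ b₂)
    (hx : trB M q x = 0) : ∃ z, z ^ n = phiK q M b₁ * b₂ := by
  obtain ⟨D, y, γ₁, γ₂, rfl, hy, hdiv, hγ₁, hγ₂, hb₁, hb₂, h1, h2⟩ := h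
  rw [trB_mk, Red.pic0_mk_eq_zero, coe_degZeroPush] at hx
  obtain ⟨hα, hα'⟩ := exists_norm_root _ _ (finiteAlong _) (nInputs.norm _ _ _ _) hn hx hy hdiv
  exact isRed_norm_root' hn hα' h1 h2

end HasRed

/-! ### Toric classes -/

section Toric

variable (hA hπ hs hM n x) in
/-- both reductions are `n`-th powers -/
def IsToric : Prop := ∃ b₁ b₂, HasRed hA hπ hs hM n x (b₁ ^ n) (b₂ ^ n)

theorem HasRed.isToric {z₁ z₂ : modularFunctionFieldFullC k M}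
    (h : HasRed hA hπ hs hM n x b₁ b₂) (h1 : z₁ ^ n = b₁) (h2 : z₂ ^ n = b₂) :
    IsToric hA hπ hs hM n x := ⟨z₁, z₂, by rw [h1, h2]; exact h⟩

namespace IsToric

theorem w (h : IsToric hA hπ hs hM n x) : IsToric hA hπ hs hM n (wSemi hM • x) := by
  obtain ⟨b₁, b₂, h⟩ := h
  exact ⟨b₂, b₁, h.w⟩

theorem add (h : IsToric hA hπ hs hM n x) (h' : IsToric hA hπ hs hM n x') :
    IsToric hA hπ hs hM n (x + x') := by
  obtain ⟨b₁, b₂, h⟩ := h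
  obtain ⟨b₁', b₂', h'⟩ := h'
  refine ⟨b₁ * b₁', b₂ * b₂', ?_⟩
  rw [_root_.mul_pow, _root_.mul_pow]
  exact h.add h'

theorem neg (h : IsToric hA hπ hs hM n x) : IsToric hA hπ hs hM n (-x) := by
  obtain ⟨b₁, b₂, h⟩ := h
  refine ⟨b₁⁻¹, b₂⁻¹, ?_⟩
  rw [inv_pow, inv_pow]
  exact h.neg

theorem zero : IsToric hA hπ hs hM n (0 : JZero (M * q)) :=
  ⟨1, 1, by rw [one_pow]; exact HasRed.zero⟩

variable [CharP k q] [PerfectRing k q] [IsAlgClosed k]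
    [IsFnField k (modularFunctionFieldFullC k M)]

/-- Frobenius acts on toric classes as `- q w` -/
theorem frob_w (hn : (n : k) ≠ 0) (h : IsToric hA hπ hs hM n x) {φ : Γℚ}
    (hφ : A.IsFrobeniusAt φ q) : φ • wSemi hM • x + q • x = 0 := by
  obtain ⟨b₁, b₂, D, y, γ₁, γ₂, rfl, hy, hdiv, hγ₁, hγ₂, hb₁, hb₂, h1, h2⟩ := h
  have hn0 : n ≠ 0 := by rintro rfl; simp at hn
  exact frob_wSemi hA hπ hs hM hn hφ hy hdiv hγ₁ hγ₂ (fun h => hb₁ (by rw [h, zero_pow hn0]))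
    (fun h => hb₂ (by rw [h, zero_pow hn0])) h1 h2

/-- Frobenius acts on toric classes as `- q w` -/
theorem frob (hn : (n : k) ≠ 0) (h : IsToric hA hπ hs hM n x) {φ : Γℚ}
    (hφ : A.IsFrobeniusAt φ q) : φ • x + q • wSemi hM • x = 0 := by
  have h1 := h.w.frob_w hn hφ
  rwa [wSemi_wSemi] at h1

/-- inertia acts trivially on toric classes -/
theorem inertia (hn : (n : k) ≠ 0) (h : IsToric hA hπ hs hM n x) {t : Γℚ}
    (ht : t ∈ A.inertiaSubgroupIn ℚ) : t • x = x := by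
  obtain ⟨φ, hφ⟩ := Frob.exists_isFrobeniusAt A hqf.out hA
  obtain ⟨b₁, b₂, D, y, γ₁, γ₂, rfl, hy, hdiv, hγ₁, hγ₂, hb₁, hb₂, h1, h2⟩ := h
  have hn0 : n ≠ 0 := by rintro rfl; simp at hn
  obtain ⟨c₁, hc₁⟩ := IsAlgClosed.exists_pow_nat_eq γ₁ (Nat.pos_of_ne_zero hn0)
  obtain ⟨c₂, hc₂⟩ := IsAlgClosed.exists_pow_nat_eq γ₂ (Nat.pos_of_ne_zero hn0)
  have hc₁0 : c₁ ≠ 0 := by rintro rfl; rw [zero_pow hn0] at hc₁; exact hγ₁ hc₁.symm
  have hc₂0 : c₂ ≠ 0 := by rintro rfl; rw [zero_pow hn0] at hc₂; exact hγ₂ hc₂.symm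
  have W : W1 (rInf1 M q hA hπ hs hM) (rZero1 M q hA hπ hs hM) n y D c₁ c₂ b₁ b₂ :=
    ⟨hn0, Divisor.mem_degZero.1 D.2, hy, hdiv, hc₁0, hc₂0,
      (fun h => hb₁ (by rw [h, zero_pow hn0])), (fun h => hb₂ (by rw [h, zero_pow hn0])),
      by rw [← map_pow, hc₁]; exact h1, by rw [← map_pow, hc₂]; exact h2⟩
  have h3 := toric_inertia (twoLevel hA hπ hs hM) W (isArch_of_liesOverPrime hA)
    (exists_nonunit hA) hn hs (frobStructure hφ) (semiRed_inertia hA hπ hs hM ht)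
  rw [← sub_eq_zero]
  have h4 : t • Pic0.mk D - Pic0.mk D = Pic0.mk (SemilinearAut.degZeroSMulHom
    (arithmeticGalois (modularFunctionFieldFull (M * q)) t) D - D) := rfl
  rw [h4, Red.pic0_mk_eq_zero]
  exact h3

end IsToric

variable [CharP k q] [PerfectRing k q] [IsAlgClosed k]
    [IsFnField k (modularFunctionFieldFullC k M)]

/-- the image of `s - 1` is toric -/
theorem isToric_inertia_sub (hx : n • x = 0) {s : Γℚ} (hs' : s ∈ A.inertiaSubgroupIn ℚ) :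
    IsToric hA hπ hs hM n (s • x - x) := by
  obtain ⟨b₁, b₂, h⟩ := exists_hasRed (hA := hA) (hπ := hπ) (hs := hs) (hM := hM) hx
  have h1 := (h.inertia hs').sub h
  rw [div_self h.ne1, div_self h.ne2] at h1
  exact h1.isToric (one_pow n) (one_pow n)

/-- `φ + w` maps the kernel of the two traces to toric classes -/
theorem isToric_frob_add (hn : n ≠ 0) (hx : n • x = 0) (hα : trA M q x = 0)
    (hβ : trB M q x = 0) {φ : Γℚ} (hφ : A.IsFrobeniusAt φ q) :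
    IsToric hA hπ hs hM n (φ • x + wSemi hM • x) := by
  obtain ⟨b₁, b₂, h⟩ := exists_hasRed (hA := hA) (hπ := hπ) (hs := hs) (hM := hM) hx
  obtain ⟨z₁, h1⟩ := h.trA hn hα
  obtain ⟨z₂, h2⟩ := h.trB hn hβ
  exact ((h.frob hφ).add h.w).isToric h2 (by rw [h1, mul_comm])

end Toric

end Fermat.Agent.MazurQ
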