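import Fermat.Agent.MazurQ.HasRed
import Fermat.Agent.MazurP.HeckeSlope

/-!
# The pair of reductions of a class of finite order and Hecke operators
-/

set_option autoImplicit false
set_option linter.unusedSectionVars false
set_option linter.style.haveILetI false
set_option linter.unusedVariables false

noncomputable section

open AlgebraicCurve ModularCurve IntermediateField Module

namespace Fermat.Agent.MazurQ

open Fermat.Agent.FF Fermat.Agent.Red Fermat.Agent.QComp Fermat.Agent.QVal Fermat.Agent.JZ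
  Fermat.Agent.ESh Fermat.Agent.MazurP

local notation "Qb" => AlgebraicClosure ℚ

/-- the Hecke correspondence on functions in characteristic `q` -/
def TlC (k : Type*) [Field k] (M ℓ : ℕ) [NeZero M] [NeZero ℓ]
    (b : modularFunctionFieldFullC k M) : modularFunctionFieldFullC k M :=
  normAlong (alphaC k M ℓ) (betaC k M ℓ b)

theorem ord_correspondence {K F F' : Type*} [Field K] [Field F] [Field F'] [Algebra K F]
    [Algebra K F'] [HasPrincipalDivisors K F'] (be al : F →ₐ[K] F')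
    (hbe : be.toRingHom.IsIntegral) (hal : al.toRingHom.IsIntegral)
    (hfin : FiniteAlong K al) (hN : NormFormulaAlong K al hfin) {y : F} (hy : y ≠ 0) (n : ℤ)
    (D : Divisor K F) (hD : ∀ P, n * D P = P.ord y) (P : Place K F) :
    n * Divisor.correspondence be al hbe hal D P = P.ord (normAlong al (be y)) := by
  have h3 := pushforwardAlong_apply_of_ord al hal hfin hN ((map_ne_zero be).2 hy)
      (D := Divisor.pullbackAlong be hbe (n • D)) (fun w => by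
        rw [Divisor.pullbackAlong_apply, Finsupp.smul_apply, smul_eq_mul, hD,
          ← Place.ord_restrictAlong]) P
  rw [← h3, Divisor.correspondence_apply, map_zsmul, map_zsmul, Finsupp.smul_apply, smul_eq_mul]

section AL

variable {M q ℓ : ℕ} [NeZero M] [NeZero q] [NeZero ℓ] [hqf : Fact q.Prime]

theorem exists_wL (hMℓ : ¬ q ∣ M * ℓ) {L : ℕ} [NeZero L] (hL : L = M * ℓ * q) :
    ∃ w : FB L ≃ₐ[Qb] FB L, ∀ (x : FB (M * ℓ)) (y y' : FB L),
      (y : LaurentSeries Qb) = x → (y' : LaurentSeries Qb) = qExpand Qb q (x : LaurentSeries Qb) →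
      w y = y' ∧ w y' = y := by
  subst hL
  refine ⟨w1 hqf.out hMℓ, fun x y y' h1 h2 => ?_⟩
  have e1 : y = al1 (M * ℓ) q x := Subtype.ext (by rw [h1, coe_al1])
  have e2 : y' = be1 (M * ℓ) q x := Subtype.ext (by rw [h2, coe_be1])
  rw [e1, e2]
  exact ⟨w1_al _ _ _, w1_be _ _ _⟩

/-- the Atkin-Lehner operator at level `M q ℓ` -/
theorem exists_wUp (hM : ¬ q ∣ M) (hMℓ : ¬ q ∣ M * ℓ) :
    ∃ w : FB (M * q * ℓ) ≃ₐ[Qb] FB (M * q * ℓ),
      (∀ x, w (heckeAlphaBar Qb (M * q) ℓ x) = heckeAlphaBar Qb (M * q) ℓ (w1 hqf.out hM x)) ∧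
      (∀ x, w (heckeBetaBar Qb (M * q) ℓ x) = heckeBetaBar Qb (M * q) ℓ (w1 hqf.out hM x)) := by
  obtain ⟨w, hw⟩ := exists_wL (q := q) hMℓ (L := M * q * ℓ) (lvl_comm M q ℓ)
  have ha : ∀ z : FB M, w (heckeAlphaBar Qb (M * q) ℓ (al1 M q z)) =
        heckeAlphaBar Qb (M * q) ℓ (be1 M q z) ∧
      w (heckeAlphaBar Qb (M * q) ℓ (be1 M q z)) = heckeAlphaBar Qb (M * q) ℓ (al1 M q z) := by
    intro z
    refine hw (heckeAlphaBar Qb M ℓ z) _ _ ?_ ?_
    · rw [coe_heckeAlphaBar, coe_heckeAlphaBar, coe_al1]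
    · rw [coe_heckeAlphaBar, coe_heckeAlphaBar, coe_be1]
  have hb : ∀ z : FB M, w (heckeBetaBar Qb (M * q) ℓ (al1 M q z)) =
        heckeBetaBar Qb (M * q) ℓ (be1 M q z) ∧
      w (heckeBetaBar Qb (M * q) ℓ (be1 M q z)) = heckeBetaBar Qb (M * q) ℓ (al1 M q z) := by
    intro z
    refine hw (heckeBetaBar Qb M ℓ z) _ _ ?_ ?_
    · change qExpand Qb ℓ (al1 M q z : LaurentSeries Qb) = qExpand Qb ℓ (z : LaurentSeries Qb)
      rw [coe_al1]
    · change qExpand Qb ℓ (be1 M q z : LaurentSeries Qb) =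
        qExpand Qb q (qExpand Qb ℓ (z : LaurentSeries Qb))
      rw [coe_be1, qExpand_qExpand, qExpand_qExpand]
      exact qExpand_congr (mul_comm _ _) _
  refine ⟨w, ?_, ?_⟩
  · have h1 : RingHom.eqLocusField
        ((w : FB (M * q * ℓ) →+* FB (M * q * ℓ)).comp
          (heckeAlphaBar Qb (M * q) ℓ : FB (M * q) →+* FB (M * q * ℓ)))
        ((heckeAlphaBar Qb (M * q) ℓ : FB (M * q) →+* FB (M * q * ℓ)).comp
          (w1 hqf.out hM : FB (M * q) →+* FB (M * q))) = ⊤ := by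
      apply gen1 M q
      · intro z
        change w (heckeAlphaBar Qb (M * q) ℓ (al1 M q z)) =
          heckeAlphaBar Qb (M * q) ℓ (w1 hqf.out hM (al1 M q z))
        rw [w1_al, (ha z).1]
      · change w (heckeAlphaBar Qb (M * q) ℓ (be1 M q _)) =
          heckeAlphaBar Qb (M * q) ℓ (w1 hqf.out hM (be1 M q _))
        rw [w1_be, (ha _).2]
    intro x
    have : x ∈ RingHom.eqLocusField
        ((w : FB (M * q * ℓ) →+* FB (M * q * ℓ)).comp
          (heckeAlphaBar Qb (M * q) ℓ : FB (M * q) →+* FB (M * q * ℓ)))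
        ((heckeAlphaBar Qb (M * q) ℓ : FB (M * q) →+* FB (M * q * ℓ)).comp
          (w1 hqf.out hM : FB (M * q) →+* FB (M * q))) := h1 ▸ Subfield.mem_top x
    exact this
  · have h1 : RingHom.eqLocusField
        ((w : FB (M * q * ℓ) →+* FB (M * q * ℓ)).comp
          (heckeBetaBar Qb (M * q) ℓ : FB (M * q) →+* FB (M * q * ℓ)))
        ((heckeBetaBar Qb (M * q) ℓ : FB (M * q) →+* FB (M * q * ℓ)).comp
          (w1 hqf.out hM : FB (M * q) →+* FB (M * q))) = ⊤ := by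
      apply gen1 M q
      · intro z
        change w (heckeBetaBar Qb (M * q) ℓ (al1 M q z)) =
          heckeBetaBar Qb (M * q) ℓ (w1 hqf.out hM (al1 M q z))
        rw [w1_al, (hb z).1]
      · change w (heckeBetaBar Qb (M * q) ℓ (be1 M q _)) =
          heckeBetaBar Qb (M * q) ℓ (w1 hqf.out hM (be1 M q _))
        rw [w1_be, (hb _).2]
    intro x
    have : x ∈ RingHom.eqLocusField
        ((w : FB (M * q * ℓ) →+* FB (M * q * ℓ)).comp
          (heckeBetaBar Qb (M * q) ℓ : FB (M * q) →+* FB (M * q * ℓ)))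
        ((heckeBetaBar Qb (M * q) ℓ : FB (M * q) →+* FB (M * q * ℓ)).comp
          (w1 hqf.out hM : FB (M * q) →+* FB (M * q))) := h1 ▸ Subfield.mem_top x
    exact this

/-- the Atkin-Lehner involution commutes with the Hecke correspondence on functions -/
theorem w1_norm_beta (hM : ¬ q ∣ M) (hMℓ : ¬ q ∣ M * ℓ) (f : FB (M * q)) :
    w1 hqf.out hM (normAlong (heckeAlphaBar Qb (M * q) ℓ) (heckeBetaBar Qb (M * q) ℓ f)) =
      normAlong (heckeAlphaBar Qb (M * q) ℓ) (heckeBetaBar Qb (M * q) ℓ (w1 hqf.out hM f)) := by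
  obtain ⟨w, h1, h2⟩ := exists_wUp (ℓ := ℓ) hM hMℓ
  rw [← h2]
  exact (normAlong_equiv_equiv _ _ (w1 hqf.out hM) w (fun x => (h1 x).symm) _).symm

end AL

variable {k : Type*} [Field k] {A : ValuationSubring Qb} {π : A →+* k} {M q : ℕ} [NeZero M]
  [NeZero q] [hqf : Fact q.Prime]
variable {hA : A.LiesOverPrime q} {hπ : ∀ a : A, π a = 0 ↔ ¬ IsUnit a}
  {hs : Function.Surjective π} {hM : ¬ q ∣ M} {n : ℕ} {x x' : JZero (M * q)}
  {b₁ b₂ b₁' b₂' : modularFunctionFieldFullC k M}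

theorem norm_beta_const {ℓ : ℕ} [NeZero ℓ] (c : Qb)
    (y : FB (M * q)) :
    normAlong (heckeAlphaBar Qb (M * q) ℓ) (heckeBetaBar Qb (M * q) ℓ
      (algebraMap Qb _ c * y)) = algebraMap Qb _ (c ^ finrankAlong Qb (heckeAlphaBar Qb (M * q) ℓ)) *
      normAlong (heckeAlphaBar Qb (M * q) ℓ) (heckeBetaBar Qb (M * q) ℓ y) := by
  rw [map_mul, AlgHom.commutes, map_mul, normAlong_const']

/-- **the pair of reductions is compatible with the Hecke operators `T_ℓ`, `U_ℓ`, `ℓ ≠ q`.** -/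
theorem HasRed.hecke {ℓ : ℕ} [NeZero ℓ] [hlf : Fact ℓ.Prime] (hMℓ : ¬ q ∣ M * ℓ)
    (h : HasRed hA hπ hs hM n x b₁ b₂) :
    HasRed hA hπ hs hM n (heckeOperatorAlong Qb (M * q) ℓ x) (TlC k M ℓ b₁) (TlC k M ℓ b₂) := by
  haveI := charP_of_liesOverPrime (k := k) hA hπ
  haveI : IsAlgClosed k := isAlgClosed_of_surjective hs
  haveI := isFnField_bar (M * q)
  haveI := isFnField_bar (M * q * ℓ)
  haveI := isFnField_fullC (k := k) M q hM
  haveI := isFnField_fullC (k := k) (M * ℓ) q hMℓ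
  obtain ⟨hα, hβ, hP, hfin, hFI, hNf⟩ :=
    JZ.heckeInputsAlong JZ.modularFieldInputsBar (FF.normInputs _) (M * q) ℓ
  obtain ⟨D, y, γ₁, γ₂, rfl, hy, hdiv, hγ₁, hγ₂, hb₁, hb₂, h1, h2⟩ := h
  have e0 : heckeOperatorAlong Qb (M * q) ℓ (Pic0.mk D) =
      Pic0.mk (Pic0.degZeroCorrespondence (heckeBetaBar Qb (M * q) ℓ)
        (heckeAlphaBar Qb (M * q) ℓ) hβ hα hFI D) := by
    rw [heckeOperatorAlong_eq hα hβ hFI hfin hNf]
    exact Pic0.correspondence_mk _ _ hβ hα hFI hfin hNf D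
  have hNy : normAlong (heckeAlphaBar Qb (M * q) ℓ) (heckeBetaBar Qb (M * q) ℓ y) ≠ 0 :=
    JZ.normAlong_ne_zero _ hfin ((map_ne_zero _).2 hy)
  have hT : ∀ b : modularFunctionFieldFullC k M, b ≠ 0 → TlC k M ℓ b ≠ 0 := fun b hb =>
    JZ.normAlong_ne_zero _ (JZ.finiteAlong _) ((map_ne_zero _).2 hb)
  refine ⟨_, _, γ₁ ^ finrankAlong Qb (heckeAlphaBar Qb (M * q) ℓ),
    γ₂ ^ finrankAlong Qb (heckeAlphaBar Qb (M * q) ℓ), e0.symm, hNy, fun P => ?_, pow_ne_zero _ hγ₁,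
    pow_ne_zero _ hγ₂, hT _ hb₁, hT _ hb₂, ?_, ?_⟩
  · exact ord_correspondence (heckeBetaBar Qb (M * q) ℓ) (heckeAlphaBar Qb (M * q) ℓ) hβ hα hfin
      hNf hy n D hdiv P
  · have h3 := isRed_norm_beta hA hπ hs hM hMℓ h1
    rw [norm_beta_const] at h3
    exact h3
  · rw [isRed_rZero1] at h2 ⊢
    have h3 := isRed_norm_beta hA hπ hs hM hMℓ h2
    rw [← w1_norm_beta hM hMℓ, norm_beta_const] at h3
    exact h3

/-- **slopes at the nodes and Hecke operators**, for divisor classes. -/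
theorem HasRed.slope_hecke {ℓ : ℕ} [NeZero ℓ] [hlf : Fact ℓ.Prime] (hMℓ : ¬ q ∣ M * ℓ)
    (hℓ : ¬ ℓ ∣ M * q) (hn : n ≠ 0) (h : HasRed hA hπ hs hM n x b₁ b₂)
    (h' : HasRed hA hπ hs hM n (heckeOperatorAlong Qb (M * q) ℓ x) b₁' b₂')
    {η : modularFunctionFieldFullC k M}
    (hh : (η : LaurentSeries k) * (Igusa.deltaC k) ^ (q - 1) = 1)
    (h12 : ∀ Q : Place k (modularFunctionFieldFullC k M), 0 ≤ Q.ord (RedQ.xj k M) →
      0 < Q.ord η → Q.ord η = 12) (c : ℤ)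
    (hc : ∀ Q : Place k (modularFunctionFieldFullC k M), 0 ≤ Q.ord (RedQ.xj k M) →
      0 < Q.ord η → (n : ℤ) ∣ Q.ord b₁ - c)
    (Q : Place k (modularFunctionFieldFullC k M)) (hQ : 0 ≤ Q.ord (RedQ.xj k M))
    (hQ' : 0 < Q.ord η) : (n : ℤ) ∣ Q.ord b₁' - (ℓ + 1) * c := by
  haveI := charP_of_liesOverPrime (k := k) hA hπ
  haveI : IsAlgClosed k := isAlgClosed_of_surjective hs
  obtain ⟨⟨e, he, h3⟩, -⟩ := (h.hecke hMℓ).unique hn h'
  have hT : TlC k M ℓ b₁ ≠ 0 := (h.hecke hMℓ).ne1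
  obtain ⟨D, y, γ₁, γ₂, hx, hy, hdiv, hγ₁, hγ₂, hb₁, hb₂, h1, h2⟩ := h
  have h4 : (rInf1 M q hA hπ hs hM).IsRed (algebraMap Qb _
      (γ₁ ^ finrankAlong Qb (heckeAlphaBar Qb (M * q) ℓ)) *
      normAlong (heckeAlphaBar Qb (M * q) ℓ) (heckeBetaBar Qb (M * q) ℓ y)) (TlC k M ℓ b₁) := by
    have h3 := isRed_norm_beta hA hπ hs hM hMℓ h1
    rw [norm_beta_const] at h3
    exact h3
  have h5 := hecke_slope hA hπ hs hM hMℓ hℓ hh h12 h1 hb₁ h4 hT n c hc Q hQ hQ'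
  rw [h3, Q.ord_mul hT (pow_ne_zero _ he), ord_pow]
  have h6 : (n : ℤ) ∣ (n : ℤ) * Q.ord e := dvd_mul_right _ _
  have h7 := dvd_add h5 h6
  rw [sub_add_eq_add_sub] at h7
  exact h7

end Fermat.Agent.MazurQ
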