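import Fermat.Agent.Red.JHecke
import Fermat.Agent.Red.JFixed
import Fermat.Agent.Zeta.Main
import Fermat.Agent.Spc.Main

/-!
# The reduction of `J₀(N)` modulo `ℓ` is bijective on torsion prime to `ℓ`
-/

set_option autoImplicit false
set_option linter.unusedSectionVars false
set_option linter.style.haveILetI false

noncomputable section

open AlgebraicCurve IntermediateField Module ModularCurve

namespace Fermat.Agent.MazurQ

open Fermat.Agent.FF Fermat.Agent.Red

variable {N : ℕ} [NeZero N] {ℓ : ℕ} [hℓ : Fact ℓ.Prime]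
  {A : ValuationSubring (AlgebraicClosure ℚ)} {k : Type*} [Field k] {π : A →+* k}
  (hA : A.LiesOverPrime ℓ)
  (hπ : ∀ a : A, π a = 0 ↔ ¬ IsUnit a) (hs : Function.Surjective π) (hN : ¬ ℓ ∣ N)

/-- the reduction map on the `m`-torsion -/
def redTor (m : ℕ) : Pic0.torsion (AlgebraicClosure ℚ) (modularFunctionFieldBar N) m →+
    Pic0.torsion k (modularFunctionFieldFullC k N) m :=
  ((redJ hA hπ hs hN).comp (Pic0.torsion (AlgebraicClosure ℚ)
    (modularFunctionFieldBar N) m).subtype).codRestrict _ (fun x => by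
      have h := Pic0.mem_torsion.1 x.2
      rw [Pic0.mem_torsion]
      change (m : ℤ) • redJ hA hπ hs hN (x : JZero N) = 0
      rw [← map_zsmul]
      change redJ hA hπ hs hN ((m : ℤ) • (x : Pic0 _ _)) = 0
      rw [h, map_zero])

theorem coe_redTor {m : ℕ} (x : Pic0.torsion (AlgebraicClosure ℚ) (modularFunctionFieldBar N) m) :
    (redTor hA hπ hs hN m x : JZeroC k N) = redJ hA hπ hs hN (x : JZero N) := rfl

theorem redTor_injective {m : ℕ} (hm : ¬ ℓ ∣ m) : Function.Injective (redTor hA hπ hs hN m) := by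
  rw [injective_iff_map_eq_zero]
  intro x hx
  have h := Pic0.mem_torsion.1 x.2
  rw [natCast_zsmul] at h
  exact Subtype.ext (redJ_injective hA hπ hs hN hm (x : JZero N) h (congrArg Subtype.val hx))

include hA hπ hs hN in
theorem card_torsion_C (p : ℕ) [hp : Fact p.Prime] (hpℓ : p ≠ ℓ) (n : ℕ) :
    Nat.card (Pic0.torsion k (modularFunctionFieldFullC k N) (p ^ n)) =
      Nat.card (Pic0.torsion (AlgebraicClosure ℚ) (modularFunctionFieldBar N) (p ^ n)) := by
  haveI hch := charP_of_liesOverPrime (k := k) hA hπ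
  haveI : IsAlgClosed k := isAlgClosed_of_surjective hs
  haveI : PerfectRing k ℓ := PerfectField.toPerfectRing ℓ
  haveI := isFnField_bar N
  haveI := isFnField_fullC (k := k) N ℓ hN
  haveI := RRC.ff_of_isFnField k (modularFunctionFieldFullC k N)
  have hk := mem_perSub_of_residue (ℓ := ℓ) hA hπ hs
  rw [Zeta.card_torsion (frob_coeffSemi (M := N) hk) p (fun h => hpℓ
    ((Nat.prime_dvd_prime_iff_eq hp.out hℓ.out).1 h)) n, Spc.card_torsion,
    genusFF_redX hA hπ hs hN]

theorem redTor_bijective (p : ℕ) [hp : Fact p.Prime] (hpℓ : p ≠ ℓ) (n : ℕ) :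
    Function.Bijective (redTor hA hπ hs hN (p ^ n)) := by
  haveI := isFnField_bar N
  have h1 := Spc.card_torsion (AlgebraicClosure ℚ) (modularFunctionFieldBar N) p n
  haveI : Finite (Pic0.torsion (AlgebraicClosure ℚ) (modularFunctionFieldBar N) (p ^ n)) := by
    refine Nat.finite_of_card_ne_zero ?_
    rw [h1]
    exact pow_ne_zero _ hp.out.ne_zero
  haveI : Finite (Pic0.torsion k (modularFunctionFieldFullC k N) (p ^ n)) := by
    refine Nat.finite_of_card_ne_zero ?_
    rw [card_torsion_C hA hπ hs hN p hpℓ n, h1]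
    exact pow_ne_zero _ hp.out.ne_zero
  exact (redTor_injective hA hπ hs hN (fun h => hpℓ
    ((Nat.prime_dvd_prime_iff_eq hℓ.out hp.out).1 (hℓ.out.dvd_of_dvd_pow h)).symm)).bijective_of_nat_card_le
    (card_torsion_C hA hπ hs hN p hpℓ n).le

/-- **lifting of torsion classes** -/
theorem exists_redJ_eq {p : ℕ} (hp : p.Prime) (hpℓ : p ≠ ℓ) (n : ℕ) {c : JZeroC k N}
    (hc : p ^ n • c = 0) : ∃ z : JZero N, p ^ n • z = 0 ∧ redJ hA hπ hs hN z = c := by
  haveI : Fact p.Prime := ⟨hp⟩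
  obtain ⟨z, hz⟩ := (redTor_bijective hA hπ hs hN p hpℓ n).2 ⟨c, by
    rw [Pic0.mem_torsion, natCast_zsmul]; exact hc⟩
  have h := Pic0.mem_torsion.1 z.2
  rw [natCast_zsmul] at h
  exact ⟨z, h, congrArg Subtype.val hz⟩

/-- uniqueness of the lift -/
theorem redJ_eq_iff {p : ℕ} (hp : p.Prime) (hpℓ : p ≠ ℓ) {n : ℕ} {z z' : JZero N}
    (hz : p ^ n • z = 0) (hz' : p ^ n • z' = 0)
    (h : redJ hA hπ hs hN z = redJ hA hπ hs hN z') : z = z' := by
  rw [← sub_eq_zero]
  refine redJ_injective hA hπ hs hN (m := p ^ n) (fun h => hpℓ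
    ((Nat.prime_dvd_prime_iff_eq hℓ.out hp).1 (hℓ.out.dvd_of_dvd_pow h)).symm) _ ?_ ?_
  · rw [nsmul_sub, hz, hz', sub_zero]
  · rw [map_sub, h, sub_self]

end Fermat.Agent.MazurQ
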