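import Fermat.Agent.MazurQ.HasRed
import Fermat.Agent.MazurQ.RedTor

/-!
# Kummer functions of torsion classes and their reductions
-/

set_option autoImplicit false
set_option linter.unusedSectionVars false
set_option linter.style.haveILetI false

noncomputable section

open AlgebraicCurve ModularCurve IntermediateField Module

namespace Fermat.Agent.MazurQ

open Fermat.Agent.FF Fermat.Agent.Red Fermat.Agent.QComp Fermat.Agent.QVal Fermat.Agent.JZ
  Fermat.Agent.ESh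

/-! ### Kummer functions -/

section Cls

variable {K F : Type*} [Field K] [Field F] [Algebra K F]

/-- `c` is the class of a divisor `D` with `n D = div y` -/
def Cls (n : ℕ) (c : Pic0 K F) (y : F) : Prop :=
  ∃ D : Divisor.degZero (K := K) (F := F), Pic0.mk D = c ∧ y ≠ 0 ∧
    ∀ P, (n : ℤ) * (D : Divisor K F) P = P.ord y

theorem ord_div' (P : Place K F) {a b : F} (ha : a ≠ 0) (hb : b ≠ 0) :
    P.ord (a / b) = P.ord a - P.ord b := by
  rw [div_eq_mul_inv, P.ord_mul ha (inv_ne_zero hb), P.ord_inv]; ring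

variable {n : ℕ} {c c' : Pic0 K F} {y y' : F}

namespace Cls

theorem ne (h : Cls n c y) : y ≠ 0 := by
  obtain ⟨D, hD, hy, hdiv⟩ := h
  exact hy

theorem dvd (h : Cls n c y) (P : Place K F) : (n : ℤ) ∣ P.ord y := by
  obtain ⟨D, hD, hy, hdiv⟩ := h
  exact ⟨_, (hdiv P).symm⟩

theorem mul (h : Cls n c y) (h' : Cls n c' y') : Cls n (c + c') (y * y') := by
  obtain ⟨D, rfl, hy, hdiv⟩ := h
  obtain ⟨D', rfl, hy', hdiv'⟩ := h'
  refine ⟨D + D', rfl, mul_ne_zero hy hy', fun P => ?_⟩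
  change (n : ℤ) * ((D : Divisor K F) + D') P = _
  rw [Finsupp.add_apply, mul_add, hdiv, hdiv', P.ord_mul hy hy']

theorem inv (h : Cls n c y) : Cls n (-c) y⁻¹ := by
  obtain ⟨D, rfl, hy, hdiv⟩ := h
  refine ⟨-D, rfl, inv_ne_zero hy, fun P => ?_⟩
  change (n : ℤ) * (-(D : Divisor K F)) P = _
  rw [Finsupp.neg_apply, mul_neg, hdiv, P.ord_inv]

theorem one : Cls n (0 : Pic0 K F) 1 :=
  ⟨0, rfl, one_ne_zero, fun P => by rw [P.ord_one]; simp⟩

theorem div (h : Cls n c y) (h' : Cls n c' y') : Cls n (c - c') (y / y') := by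
  rw [sub_eq_add_neg, div_eq_mul_inv]
  exact h.mul h'.inv

theorem const {a : K} (ha : a ≠ 0) : Cls n (0 : Pic0 K F) (algebraMap K F a) :=
  ⟨0, rfl, (map_ne_zero _).2 ha, fun P => by rw [FF.ord_algebraMap]; simp⟩

theorem const_mul (h : Cls n c y) {a : K} (ha : a ≠ 0) : Cls n c (algebraMap K F a * y) := by
  have h1 := (const (n := n) (F := F) ha).mul h
  rwa [zero_add] at h1

theorem nsmul_eq_zero (h : Cls n c y) : n • c = 0 := by
  obtain ⟨D, rfl, hy, hdiv⟩ := h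
  change Pic0.mk (n • D) = 0
  rw [Red.pic0_mk_eq_zero]
  refine ⟨y, hy, fun P => ?_⟩
  rw [← hdiv P]
  change (n • (D : Divisor K F)) P = _
  rw [Finsupp.smul_apply, nsmul_eq_mul]

theorem unique_cls (hn : n ≠ 0) (h : Cls n c y) (h' : Cls n c' y) : c = c' := by
  obtain ⟨D, rfl, hy, hdiv⟩ := h
  obtain ⟨D', rfl, hy', hdiv'⟩ := h'
  congr 1
  refine Subtype.ext (Finsupp.ext fun P => ?_)
  have h1 : (n : ℤ) ≠ 0 := by exact_mod_cast hn
  exact mul_left_cancel₀ h1 ((hdiv P).trans (hdiv' P).symm)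

theorem pow (h : Cls n c y) (m : ℕ) : Cls (n * m) c (y ^ m) := by
  obtain ⟨D, rfl, hy, hdiv⟩ := h
  refine ⟨D, rfl, pow_ne_zero _ hy, fun P => ?_⟩
  rw [ord_pow, ← hdiv]
  push_cast
  ring

theorem nsmul (h : Cls n c y) (m : ℕ) : Cls n (m • c) (y ^ m) := by
  induction m with
  | zero => rw [zero_nsmul, pow_zero]; exact one
  | succ m ih => rw [succ_nsmul, pow_succ]; exact ih.mul h

end Cls

variable [IsAlgClosed K] [IsFnField K F]

namespace Cls

theorem of_pow {e : F} (he : e ≠ 0) : Cls n (0 : Pic0 K F) (e ^ n) := by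
  have hdeg : Divisor.degree (RR.divOf (K := K) e) = 0 := RR.degree_divOf e
  refine ⟨⟨RR.divOf (K := K) e, Divisor.mem_degZero.2 hdeg⟩, ?_, pow_ne_zero _ he, fun P => ?_⟩
  · rw [Red.pic0_mk_eq_zero]
    exact ⟨e, he, fun P => RR.divOf_apply _ _⟩
  · rw [ord_pow]
    rfl

theorem mul_pow (h : Cls n c y) {e : F} (he : e ≠ 0) : Cls n c (y * e ^ n) := by
  have h1 := h.mul (of_pow (n := n) (K := K) he)
  rwa [add_zero] at h1

theorem eq_zero (hn : n ≠ 0) {e : F} (h : Cls n c (e ^ n)) : c = 0 := by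
  have he : e ≠ 0 := by
    rintro rfl
    exact h.ne (zero_pow hn)
  exact h.unique_cls hn (of_pow he)

end Cls

theorem exists_cls (hc : n • c = 0) : ∃ y, Cls n c y := by
  obtain ⟨D, rfl⟩ := Pic0.mk_surjective c
  have h1 : Pic0.mk (n • D) = 0 := hc
  rw [Red.pic0_mk_eq_zero] at h1
  obtain ⟨y, hy, h2⟩ := h1
  refine ⟨y, D, rfl, hy, fun P => ?_⟩
  rw [← h2 P]
  change _ = (n • (D : Divisor K F)) P
  rw [Finsupp.smul_apply, nsmul_eq_mul]

theorem exists_cls_of_dvd (hn : n ≠ 0) (hy : y ≠ 0) (h : ∀ P : Place K F, (n : ℤ) ∣ P.ord y) :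
    ∃ c : Pic0 K F, Cls n c y := by
  classical
  have hn' : (n : ℤ) ≠ 0 := by exact_mod_cast hn
  set E : Divisor K F := (RR.divOf (K := K) y).mapRange (fun a => a / (n : ℤ)) (Int.zero_ediv _)
    with hE
  have h1 : ∀ P, (n : ℤ) * E P = P.ord y := by
    intro P
    rw [hE, Finsupp.mapRange_apply, RR.divOf_apply]
    exact Int.mul_ediv_cancel' (h P)
  have h2 : n • E = RR.divOf (K := K) y := by
    ext P
    rw [Finsupp.smul_apply, nsmul_eq_mul, h1, RR.divOf_apply]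
  have h3 : Divisor.degree E = 0 := by
    have h4 := congrArg Divisor.degree h2
    rw [map_nsmul, RR.degree_divOf, nsmul_eq_mul] at h4
    exact (mul_eq_zero.1 h4).resolve_left hn'
  exact ⟨Pic0.mk ⟨E, Divisor.mem_degZero.2 h3⟩, ⟨E, Divisor.mem_degZero.2 h3⟩, rfl, hy, h1⟩

theorem exists_pow_eq_of_div' (hn : n ≠ 0)
    {D : Divisor K F} (hD : D.IsPrincipal) {f : F}
    (hf : f ≠ 0) (h : ∀ P, (n : ℤ) * D P = P.ord f) : ∃ g : F, g ^ n = f := by
  obtain ⟨g, hg0, hg⟩ := hD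
  have h1 : ∀ v : Place K F, v.ord (f / g ^ n) = 0 := by
    intro v
    rw [ord_div' v hf (pow_ne_zero _ hg0), ord_pow, ← h v, ← hg v, sub_self]
  obtain ⟨a, ha⟩ := RR.exists_algebraMap_eq_of_forall_ord_nonneg (fun v => (h1 v).ge)
  obtain ⟨b, hb⟩ := IsAlgClosed.exists_pow_nat_eq a (Nat.pos_of_ne_zero hn)
  exact ⟨algebraMap K F b * g, by
    rw [_root_.mul_pow, ← map_pow, hb, ha, div_mul_cancel₀ _ (pow_ne_zero _ hg0)]⟩

theorem Cls.exists_pow (hn : n ≠ 0) (h : Cls n (0 : Pic0 K F) y) :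
    ∃ e, e ≠ 0 ∧ y = e ^ n := by
  obtain ⟨D, hD, hy, hdiv⟩ := h
  rw [Red.pic0_mk_eq_zero] at hD
  obtain ⟨e, he⟩ := exists_pow_eq_of_div' hn hD hy hdiv
  refine ⟨e, ?_, he.symm⟩
  rintro rfl
  rw [zero_pow hn] at he
  exact hy he.symm

theorem Cls.unique_fun (hn : n ≠ 0) (h : Cls n c y) (h' : Cls n c y') :
    ∃ e, e ≠ 0 ∧ y' = y * e ^ n := by
  have h1 := h'.div h
  rw [sub_self] at h1
  obtain ⟨e, he, h2⟩ := h1.exists_pow hn
  refine ⟨e, he, ?_⟩
  rw [← h2, mul_div_cancel₀ _ h.ne]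

section Corr

variable {F' : Type*} [Field F'] [Algebra K F'] [IsFnField K F'] [HasPrincipalDivisors K F']
  (φ ψ : F →ₐ[K] F')

theorem Cls.correspondence (h : Cls n c y) (hφ : φ.toRingHom.IsIntegral)
    (hψ : ψ.toRingHom.IsIntegral) (hFI : FundamentalIdentityAlong K φ hφ)
    (hfin : FiniteAlong K ψ) (hN : NormFormulaAlong K ψ hfin) :
    Cls n (Pic0.correspondence φ ψ hφ hψ hFI hfin hN c) (normAlong ψ (φ y)) := by
  obtain ⟨D, rfl, hy, hdiv⟩ := h
  have hφy : φ y ≠ 0 := (map_ne_zero_iff _ φ.injective).2 hy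
  refine ⟨Pic0.degZeroCorrespondence φ ψ hφ hψ hFI D, rfl, normAlong_ne_zero ψ hfin hφy,
    fun P => ?_⟩
  have h1 : ∀ w : Place K F', (n • Divisor.pullbackAlong φ hφ (D : Divisor K F)) w =
      w.ord (φ y) := by
    intro w
    rw [Finsupp.smul_apply, nsmul_eq_mul, Divisor.pullbackAlong_apply, Place.ord_restrictAlong φ hφ,
      ← hdiv]
    ring
  have h2 := pushforwardAlong_apply_of_ord ψ hψ hfin hN hφy h1 P
  rw [← h2, map_nsmul, Finsupp.smul_apply, nsmul_eq_mul]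
  rfl

end Corr

section Semi

variable (g : SemilinearAut K F)

theorem Cls.smul (h : Cls n c y) : Cls n (g • c) (g • y) := by
  obtain ⟨D, rfl, hy, hdiv⟩ := h
  exact ⟨SemilinearAut.degZeroSMulHom g D, rfl, fun h0 => hy (by
    have h1 := congrArg (fun z => g⁻¹ • z) h0
    simpa using h1), divisor_smul_div hdiv⟩

end Semi

end Cls

/-! ### Reductions of Kummer functions -/

section KRed

variable {K k : Type*} [Field K] [Field k] {A : ValuationSubring K} {π : A →+* k}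
  {F κ : Type*} [Field F] [Algebra K F] [Field κ] [Algebra k κ]

/-- `b` is the reduction of a Kummer function of the class `x` -/
def KRed (R : ConstRed A π F κ) (n : ℕ) (x : Pic0 K F) (b : κ) : Prop :=
  ∃ y : F, Cls n x y ∧ b ≠ 0 ∧ R.IsRed y b

/-- the class `c` is the reduction of the class `x` -/
def Rel (R : ConstRed A π F κ) (n : ℕ) (x : Pic0 K F) (c : Pic0 k κ) : Prop :=
  ∃ b : κ, KRed R n x b ∧ Cls n c b

variable {R : ConstRed A π F κ} {n : ℕ} {x x' : Pic0 K F} {b b' : κ} {c c' : Pic0 k κ}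

namespace KRed

theorem ne (h : KRed R n x b) : b ≠ 0 := by
  obtain ⟨y, hy, hb, hr⟩ := h
  exact hb

theorem nsmul_eq_zero (h : KRed R n x b) : n • x = 0 := by
  obtain ⟨y, hy, hb, hr⟩ := h
  exact hy.nsmul_eq_zero

theorem mul (h : KRed R n x b) (h' : KRed R n x' b') : KRed R n (x + x') (b * b') := by
  obtain ⟨y, hy, hb, hr⟩ := h
  obtain ⟨y', hy', hb', hr'⟩ := h'
  exact ⟨y * y', hy.mul hy', mul_ne_zero hb hb', hr.mul hr'⟩

theorem inv (h : KRed R n x b) : KRed R n (-x) b⁻¹ := by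
  obtain ⟨y, hy, hb, hr⟩ := h
  exact ⟨y⁻¹, hy.inv, inv_ne_zero hb, hr.inv hb⟩

theorem one : KRed R n (0 : Pic0 K F) 1 :=
  ⟨1, Cls.one, one_ne_zero, ConstRed.isRed_one _⟩

theorem div (h : KRed R n x b) (h' : KRed R n x' b') : KRed R n (x - x') (b / b') := by
  rw [sub_eq_add_neg, div_eq_mul_inv]
  exact h.mul h'.inv

theorem pow (h : KRed R n x b) (m : ℕ) : KRed R (n * m) x (b ^ m) := by
  obtain ⟨y, hy, hb, hr⟩ := h
  exact ⟨y ^ m, hy.pow m, pow_ne_zero _ hb, hr.pow m⟩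

theorem nsmul (h : KRed R n x b) (m : ℕ) : KRed R n (m • x) (b ^ m) := by
  obtain ⟨y, hy, hb, hr⟩ := h
  exact ⟨y ^ m, hy.nsmul m, pow_ne_zero _ hb, hr.pow m⟩

end KRed

variable [IsAlgClosed K] [IsFnField K F]

theorem exists_kred (R : ConstRed A π F κ) (hx : n • x = 0) : ∃ b, KRed R n x b := by
  obtain ⟨y, hy⟩ := exists_cls hx
  obtain ⟨γ, hγ, b, hb, h1⟩ := R.exists_isRed_mul hy.ne
  exact ⟨b, _, hy.const_mul hγ, hb, h1⟩

namespace KRed

theorem mul_pow (h : KRed R n x b) {e : κ} (he : e ≠ 0) : KRed R n x (b * e ^ n) := by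
  obtain ⟨y, hy, hb, hr⟩ := h
  obtain ⟨f, hf⟩ := R.exists_isRed e
  exact ⟨y * f ^ n, hy.mul_pow (hf.ne_zero he), mul_ne_zero hb (pow_ne_zero _ he),
    hr.mul (hf.pow n)⟩

theorem of_pow {e : κ} (he : e ≠ 0) : KRed R n (0 : Pic0 K F) (e ^ n) := by
  have h1 := (one (R := R) (n := n)).mul_pow he
  rwa [one_mul] at h1

variable [IsAlgClosed k]

theorem const_mul (hn : n ≠ 0) (h : KRed R n x b) {a : k} (ha : a ≠ 0) :
    KRed R n x (algebraMap k κ a * b) := by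
  obtain ⟨d, hd⟩ := IsAlgClosed.exists_pow_nat_eq a (Nat.pos_of_ne_zero hn)
  have hd0 : d ≠ 0 := by
    rintro rfl
    rw [zero_pow hn] at hd
    exact ha hd.symm
  rw [mul_comm, ← hd, map_pow]
  exact h.mul_pow ((map_ne_zero _).2 hd0)

/-- the reduction of the zero class is an `n`-th power -/
theorem exists_pow (hn : n ≠ 0) (h : KRed R n (0 : Pic0 K F) b) : ∃ e, e ≠ 0 ∧ b = e ^ n := by
  obtain ⟨y, hy, hb, hr⟩ := h
  obtain ⟨e, he, rfl⟩ := hy.exists_pow hn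
  obtain ⟨γ, hγ, z, hz, h1⟩ := R.exists_isRed_mul he
  have h2 := h1.pow n
  rw [_root_.mul_pow, ← map_pow] at h2
  have h3 := h2.div hr hb
  rw [mul_div_assoc, div_self (pow_ne_zero _ he), mul_one] at h3
  have h4 : z ^ n / b ≠ 0 := div_ne_zero (pow_ne_zero _ hz) hb
  -- `γ ^ n` is a unit constant
  have hmem : γ ^ n ∈ A := (R.algebraMap_mem_iff _).1 h3.mem
  have h5 := h3.unique (R.isRed_algebraMap hmem)
  have h6 : π ⟨γ ^ n, hmem⟩ ≠ 0 := by
    intro h0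
    rw [h0, map_zero] at h5
    exact h4 h5
  obtain ⟨d, hd⟩ := IsAlgClosed.exists_pow_nat_eq (π ⟨γ ^ n, hmem⟩) (Nat.pos_of_ne_zero hn)
  have hd0 : d ≠ 0 := by
    rintro rfl
    rw [zero_pow hn] at hd
    exact h6 hd.symm
  refine ⟨z / algebraMap k κ d, div_ne_zero hz ((map_ne_zero _).2 hd0), ?_⟩
  rw [div_pow, ← map_pow, hd, ← h5]
  field_simp

/-- the reduction is unique up to `n`-th powers -/
theorem unique (hn : n ≠ 0) (h : KRed R n x b) (h' : KRed R n x b') :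
    ∃ e, e ≠ 0 ∧ b' = b * e ^ n := by
  have h1 := h'.div h
  rw [sub_self] at h1
  obtain ⟨e, he, h2⟩ := h1.exists_pow hn
  refine ⟨e, he, ?_⟩
  rw [← h2, mul_div_cancel₀ _ h.ne]

theorem dvd_iff [IsFnField k κ] (hn : n ≠ 0) (h : KRed R n x b) (h' : KRed R n x b')
    (P : Place k κ) (m : ℤ) : (n : ℤ) ∣ P.ord b - m ↔ (n : ℤ) ∣ P.ord b' - m := by
  obtain ⟨e, he, rfl⟩ := h.unique hn h'
  rw [P.ord_mul h.ne (pow_ne_zero _ he), ord_pow]
  have h1 : P.ord b + (n : ℤ) * P.ord e - m = (P.ord b - m) + (n : ℤ) * P.ord e := by ring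
  rw [h1]
  exact (dvd_add_left (dvd_mul_right (n : ℤ) (P.ord e))).symm

end KRed

namespace Rel

theorem nsmul_eq_zero (h : Rel R n x c) : n • x = 0 := by
  obtain ⟨b, h1, h2⟩ := h
  exact h1.nsmul_eq_zero

theorem nsmul_eq_zero' (h : Rel R n x c) : n • c = 0 := by
  obtain ⟨b, h1, h2⟩ := h
  exact h2.nsmul_eq_zero

theorem add (h : Rel R n x c) (h' : Rel R n x' c') : Rel R n (x + x') (c + c') := by
  obtain ⟨b, h1, h2⟩ := h
  obtain ⟨b', h1', h2'⟩ := h'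
  exact ⟨b * b', h1.mul h1', h2.mul h2'⟩

theorem neg (h : Rel R n x c) : Rel R n (-x) (-c) := by
  obtain ⟨b, h1, h2⟩ := h
  exact ⟨b⁻¹, h1.inv, h2.inv⟩

theorem sub (h : Rel R n x c) (h' : Rel R n x' c') : Rel R n (x - x') (c - c') := by
  obtain ⟨b, h1, h2⟩ := h
  obtain ⟨b', h1', h2'⟩ := h'
  exact ⟨b / b', h1.div h1', h2.div h2'⟩

theorem zero : Rel R n (0 : Pic0 K F) (0 : Pic0 k κ) := ⟨1, KRed.one, Cls.one⟩

theorem nsmul (h : Rel R n x c) (m : ℕ) : Rel R n (m • x) (m • c) := by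
  obtain ⟨b, h1, h2⟩ := h
  exact ⟨b ^ m, h1.nsmul m, h2.nsmul m⟩

/-- changing `n` -/
theorem pow (h : Rel R n x c) (m : ℕ) : Rel R (n * m) x c := by
  obtain ⟨b, h1, h2⟩ := h
  exact ⟨b ^ m, h1.pow m, h2.pow m⟩

variable [IsAlgClosed k] [IsFnField k κ]

theorem unique (hn : n ≠ 0) (h : Rel R n x c) (h' : Rel R n x c') : c = c' := by
  obtain ⟨b, h1, h2⟩ := h
  obtain ⟨b', h1', h2'⟩ := h'
  obtain ⟨e, he, rfl⟩ := h1.unique hn h1'
  exact (h2.mul_pow he).unique_cls hn h2'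

theorem zero_iff (hn : n ≠ 0) : Rel R n x (0 : Pic0 k κ) ↔ ∃ e, e ≠ 0 ∧ KRed R n x (e ^ n) := by
  constructor
  · rintro ⟨b, h1, h2⟩
    obtain ⟨e, he, rfl⟩ := h2.exists_pow hn
    exact ⟨e, he, h1⟩
  · rintro ⟨e, he, h1⟩
    exact ⟨_, h1, Cls.of_pow he⟩

end Rel

theorem exists_rel_of_dvd [IsAlgClosed k] [IsFnField k κ] (hn : n ≠ 0) (h : KRed R n x b)
    (hd : ∀ P : Place k κ, (n : ℤ) ∣ P.ord b) : ∃ c, Rel R n x c := by
  obtain ⟨c, hc⟩ := exists_cls_of_dvd hn h.ne hd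
  exact ⟨c, b, h, hc⟩

section Corr

variable {F' κ' : Type*} [Field F'] [Algebra K F'] [Field κ'] [Algebra k κ'] [IsFnField K F']
  [IsAlgClosed k] [IsFnField k κ] [IsFnField k κ'] [HasPrincipalDivisors K F']
  [HasPrincipalDivisors k κ'] {R' : ConstRed A π F' κ'} (φ ψ : F →ₐ[K] F') (φk ψk : κ →ₐ[k] κ')

theorem KRed.correspondence (h : KRed R n x b) (hφ : φ.toRingHom.IsIntegral)
    (hψ : ψ.toRingHom.IsIntegral) (hFI : FundamentalIdentityAlong K φ hφ)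
    (hfin : FiniteAlong K ψ) (hN : NormFormulaAlong K ψ hfin)
    (h1 : ∀ f z, R.IsRed f z → R'.IsRed (φ f) (φk z))
    (h2 : ∀ f z, R'.IsRed f z → R.IsRed (normAlong ψ f) (normAlong ψk z)) :
    KRed R n (Pic0.correspondence φ ψ hφ hψ hFI hfin hN x) (normAlong ψk (φk b)) := by
  obtain ⟨y, hy, hb, hr⟩ := h
  exact ⟨_, hy.correspondence φ ψ hφ hψ hFI hfin hN,
    normAlong_ne_zero ψk (finiteAlong ψk) ((map_ne_zero_iff _ φk.injective).2 hb),
    h2 _ _ (h1 _ _ hr)⟩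

theorem Rel.correspondence (h : Rel R n x c) (hφ : φ.toRingHom.IsIntegral)
    (hψ : ψ.toRingHom.IsIntegral) (hFI : FundamentalIdentityAlong K φ hφ)
    (hfin : FiniteAlong K ψ) (hN : NormFormulaAlong K ψ hfin)
    (hφk : φk.toRingHom.IsIntegral)
    (hψk : ψk.toRingHom.IsIntegral) (hFIk : FundamentalIdentityAlong k φk hφk)
    (hfink : FiniteAlong k ψk) (hNk : NormFormulaAlong k ψk hfink)
    (h1 : ∀ f z, R.IsRed f z → R'.IsRed (φ f) (φk z))
    (h2 : ∀ f z, R'.IsRed f z → R.IsRed (normAlong ψ f) (normAlong ψk z)) :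
    Rel R n (Pic0.correspondence φ ψ hφ hψ hFI hfin hN x)
      (Pic0.correspondence φk ψk hφk hψk hFIk hfink hNk c) := by
  obtain ⟨b, hb, hc⟩ := h
  exact ⟨_, hb.correspondence φ ψ φk ψk hφ hψ hFI hfin hN h1 h2,
    hc.correspondence φk ψk hφk hψk hFIk hfink hNk⟩

end Corr

section Semi

/-- semilinear automorphisms compatible with the reduction -/
theorem KRed.smul (g : SemilinearAut K F) (gk : SemilinearAut k κ)
    (hg : ∀ f z, R.IsRed f z → R.IsRed (g • f) (gk • z)) (h : KRed R n x b) :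
    KRed R n (g • x) (gk • b) := by
  obtain ⟨y, hy, hb, hr⟩ := h
  refine ⟨_, hy.smul g, fun h0 => hb ?_, hg _ _ hr⟩
  have h1 := congrArg (fun z => gk⁻¹ • z) h0
  simpa using h1

theorem Rel.smul [IsAlgClosed k] [IsFnField k κ] (g : SemilinearAut K F) (gk : SemilinearAut k κ)
    (hg : ∀ f z, R.IsRed f z → R.IsRed (g • f) (gk • z)) (h : Rel R n x c) :
    Rel R n (g • x) (gk • c) := by
  obtain ⟨b, hb, hc⟩ := h
  exact ⟨_, hb.smul g gk hg, hc.smul gk⟩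

end Semi

end KRed

end Fermat.Agent.MazurQ
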