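import Fermat.Agent.MazurQ.RelZ
import Fermat.Agent.MazurQ.HeckeRed
import Fermat.Agent.Node.SlopeRed

/-!
# Slopes of torsion classes at the supersingular points
-/

set_option autoImplicit false
set_option linter.unusedSectionVars false
set_option linter.style.haveILetI false

noncomputable section

open AlgebraicCurve ModularCurve IntermediateField Module

namespace Fermat.Agent.MazurQ

open Fermat.Agent.FF Fermat.Agent.Red Fermat.Agent.QComp Fermat.Agent.QVal Fermat.Agent.JZ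

local notation "Qb" => AlgebraicClosure ℚ
local notation "Γℚ" => (AlgebraicClosure ℚ ≃ₐ[ℚ] AlgebraicClosure ℚ)

variable {k : Type*} [Field k] {A : ValuationSubring Qb} {π : A →+* k} {M q : ℕ} [NeZero M]
  [NeZero q] [hqf : Fact q.Prime]

/-- `Q` is a supersingular place -/
def IsSS (q : ℕ) (Q : Place k (modularFunctionFieldFullC k M)) : Prop :=
  0 ≤ Q.ord (RedQ.xj k M) ∧ ∃ h : modularFunctionFieldFullC k M,
    (h : LaurentSeries k) * (Igusa.deltaC k) ^ (q - 1) = 1 ∧ 0 < Q.ord h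

theorem hasse_unique {h h' : modularFunctionFieldFullC k M}
    (hh : (h : LaurentSeries k) * (Igusa.deltaC k) ^ (q - 1) = 1)
    (hh' : (h' : LaurentSeries k) * (Igusa.deltaC k) ^ (q - 1) = 1) : h = h' := by
  apply Subtype.ext
  exact mul_right_cancel₀ (pow_ne_zero _ (Igusa.deltaC_ne_zero k)) (hh.trans hh'.symm)

theorem isSS_iff {h : modularFunctionFieldFullC k M}
    (hh : (h : LaurentSeries k) * (Igusa.deltaC k) ^ (q - 1) = 1)
    {Q : Place k (modularFunctionFieldFullC k M)} :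
    IsSS q Q ↔ 0 ≤ Q.ord (RedQ.xj k M) ∧ 0 < Q.ord h := by
  constructor
  · rintro ⟨h1, h', hh', h2⟩
    rw [hasse_unique hh hh']
    exact ⟨h1, h2⟩
  · rintro ⟨h1, h2⟩
    exact ⟨h1, h, hh, h2⟩

section Defs

variable (hA : A.LiesOverPrime q) (hπ : ∀ a : A, π a = 0 ↔ ¬ IsUnit a)
  (hs : Function.Surjective π) (hM : ¬ q ∣ M)

/-- the slopes of `x` at the supersingular places are constant `= c` modulo `n` -/
def HasSlope (n : ℕ) (x : JZero (M * q)) (c : ℤ) : Prop :=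
  n • x = 0 ∧ ∀ b, KRed (rInf1 M q hA hπ hs hM) n x b →
    ∀ Q : Place k (modularFunctionFieldFullC k M), IsSS q Q → (n : ℤ) ∣ Q.ord b - c

end Defs

variable {hA : A.LiesOverPrime q} {hπ : ∀ a : A, π a = 0 ↔ ¬ IsUnit a}
  {hs : Function.Surjective π} {hM : ¬ q ∣ M} {n : ℕ} {x x' : JZero (M * q)}
  {b b' : modularFunctionFieldFullC k M} {z z' : JZero M} {c c' : ℤ}

/-- **(S)** -/
theorem dvd_ord_of_not_ss (h : KRed (rInf1 M q hA hπ hs hM) n x b)
    {Q : Place k (modularFunctionFieldFullC k M)} (hQ : ¬ IsSS q Q) : (n : ℤ) ∣ Q.ord b := by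
  haveI := charP_of_liesOverPrime (k := k) hA hπ
  haveI : IsAlgClosed k := isAlgClosed_of_surjective hs
  haveI : PerfectRing k q := PerfectField.toPerfectRing q
  haveI := isFnField_fullC (k := k) M q hM
  haveI := (isCoord' hA hπ hs hM).finiteDimensionalk
  haveI := RedQ.isSeparable_charP M k q hM
  obtain ⟨y, hy, hb, hr⟩ := h
  obtain ⟨η, hη, -⟩ := exists_hasse M hA hπ hs hM
  refine Node.dvd_ord_red1 (hA := hA) (hπ := hπ) (hs := hs) (hM := hM) (fun s hs' => hQ ?_) hr hb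
    hy.dvd
  rw [isSS_iff hη]
  exact (Node.node1_iff (hA := hA) (hπ := hπ) (hs := hs) (hM := hM) hη).1 ⟨s, hs'⟩

theorem exists_kred' (hx : n • x = 0) : ∃ b, KRed (rInf1 M q hA hπ hs hM) n x b := by
  haveI := isFnField_bar (M * q)
  exact exists_kred _ hx

namespace HasSlope

/-- one Kummer reduction suffices -/
theorem mk' (hn : n ≠ 0) (h : KRed (rInf1 M q hA hπ hs hM) n x b)
    (h' : ∀ Q : Place k (modularFunctionFieldFullC k M), IsSS q Q → (n : ℤ) ∣ Q.ord b - c) :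
    HasSlope hA hπ hs hM n x c := by
  haveI := charP_of_liesOverPrime (k := k) hA hπ
  haveI : IsAlgClosed k := isAlgClosed_of_surjective hs
  haveI := isFnField_bar (M * q)
  haveI := isFnField_fullC (k := k) M q hM
  exact ⟨h.nsmul_eq_zero, fun b' hb' Q hQ => (h.dvd_iff hn hb' Q c).1 (h' Q hQ)⟩

theorem add (hn : n ≠ 0) (h : HasSlope hA hπ hs hM n x c) (h' : HasSlope hA hπ hs hM n x' c') :
    HasSlope hA hπ hs hM n (x + x') (c + c') := by
  obtain ⟨b, hb⟩ := exists_kred' (hA := hA) (hπ := hπ) (hs := hs) (hM := hM) h.1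
  obtain ⟨b', hb'⟩ := exists_kred' (hA := hA) (hπ := hπ) (hs := hs) (hM := hM) h'.1
  refine mk' hn (hb.mul hb') fun Q hQ => ?_
  have h1 := dvd_add (h.2 b hb Q hQ) (h'.2 b' hb' Q hQ)
  rw [Q.ord_mul hb.ne hb'.ne]
  have e : Q.ord b + Q.ord b' - (c + c') = Q.ord b - c + (Q.ord b' - c') := by ring
  rw [e]
  exact h1

theorem neg (hn : n ≠ 0) (h : HasSlope hA hπ hs hM n x c) :
    HasSlope hA hπ hs hM n (-x) (-c) := by
  obtain ⟨b, hb⟩ := exists_kred' (hA := hA) (hπ := hπ) (hs := hs) (hM := hM) h.1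
  refine mk' hn hb.inv fun Q hQ => ?_
  have h1 := (dvd_neg (α := ℤ)).2 (h.2 b hb Q hQ)
  rw [Q.ord_inv]
  have e : -Q.ord b - -c = -(Q.ord b - c) := by ring
  rw [e]
  exact h1

theorem zero (hn : n ≠ 0) : HasSlope hA hπ hs hM n 0 0 := by
  refine mk' hn (b := 1) KRed.one fun Q hQ => ?_
  rw [Q.ord_one, sub_zero]
  exact dvd_zero _

theorem nsmul (hn : n ≠ 0) (h : HasSlope hA hπ hs hM n x c) (m : ℕ) :
    HasSlope hA hπ hs hM n (m • x) (m * c) := by
  induction m with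
  | zero => rw [zero_nsmul, Nat.cast_zero, zero_mul]; exact zero hn
  | succ m ih =>
    rw [succ_nsmul]
    have := ih.add hn h
    convert this using 1
    push_cast
    ring

theorem zsmul (hn : n ≠ 0) (h : HasSlope hA hπ hs hM n x c) (m : ℤ) :
    HasSlope hA hπ hs hM n (m • x) (m * c) := by
  cases m with
  | ofNat m => rw [Int.ofNat_eq_natCast, natCast_zsmul]; exact h.nsmul hn m
  | negSucc m =>
    rw [negSucc_zsmul]
    have := (h.nsmul hn (m + 1)).neg hn
    convert this using 1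
    rw [Int.negSucc_eq]
    push_cast
    ring

/-- slopes are unique modulo `n` (if there is a supersingular place) -/
theorem unique {Q : Place k (modularFunctionFieldFullC k M)} (hQ : IsSS q Q)
    (h : HasSlope hA hπ hs hM n x c) (h' : HasSlope hA hπ hs hM n x c') : (n : ℤ) ∣ c - c' := by
  obtain ⟨b, hb⟩ := exists_kred' (hA := hA) (hπ := hπ) (hs := hs) (hM := hM) h.1
  have h1 := dvd_sub (h'.2 b hb Q hQ) (h.2 b hb Q hQ)
  have e : c - c' = Q.ord b - c' - (Q.ord b - c) := by ring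
  rw [e]
  exact h1

/-- vanishing slopes: all orders are divisible by `n` -/
theorem dvd_ord (h : HasSlope hA hπ hs hM n x 0) (hb : KRed (rInf1 M q hA hπ hs hM) n x b)
    (Q : Place k (modularFunctionFieldFullC k M)) : (n : ℤ) ∣ Q.ord b := by
  by_cases hQ : IsSS q Q
  · have h1 := h.2 b hb Q hQ
    rwa [sub_zero] at h1
  · exact dvd_ord_of_not_ss hb hQ

/-- vanishing slopes modulo `p ^ m`: the reduction exists -/
theorem exists_relZ {p m : ℕ} (hp : p.Prime) (hpq : p ≠ q)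
    (h : HasSlope hA hπ hs hM (p ^ m) x 0) : ∃ z, RelZ hA hπ hs hM (p ^ m) x z := by
  obtain ⟨b, hb⟩ := exists_kred' (hA := hA) (hπ := hπ) (hs := hs) (hM := hM) h.1
  exact MazurQ.exists_relZ hp hpq hb fun P => h.dvd_ord hb P

/-- slopes and Hecke operators at rigid level -/
theorem hecke {ℓ : ℕ} [NeZero ℓ] [hlf : Fact ℓ.Prime] (hr : ∃ r : ℕ, r.Prime ∧ r ∣ M ∧ r % 12 = 11)
    (hℓ : ¬ ℓ ∣ M * q) (hn : n ≠ 0) (h : HasSlope hA hπ hs hM n x c) :
    HasSlope hA hπ hs hM n (heckeOperatorAlong Qb (M * q) ℓ x) ((ℓ + 1) * c) := by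
  haveI := charP_of_liesOverPrime (k := k) hA hπ
  haveI : IsAlgClosed k := isAlgClosed_of_surjective hs
  haveI : PerfectRing k q := PerfectField.toPerfectRing q
  haveI := isFnField_fullC (k := k) M q hM
  haveI := (isCoord' hA hπ hs hM).finiteDimensionalk
  haveI := RedQ.isSeparable_charP M k q hM
  haveI := isFnField_bar (M * q)
  have hMℓ : ¬ q ∣ M * ℓ := by
    intro hd
    rcases hqf.out.dvd_mul.1 hd with h1 | h1
    · exact hM h1
    · rw [Nat.prime_dvd_prime_iff_eq hqf.out hlf.out] at h1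
      exact hℓ (h1 ▸ dvd_mul_left _ _)
  obtain ⟨η, hη, -⟩ := exists_hasse M hA hπ hs hM
  obtain ⟨b₁, b₂, hb⟩ := exists_hasRed (hA := hA) (hπ := hπ) (hs := hs) (hM := hM) h.1
  have hb' := hb.hecke hMℓ
  refine mk' hn hb'.kred fun Q hQ => ?_
  rw [isSS_iff hη] at hQ
  exact hb.slope_hecke hMℓ hℓ hn hb' hη
    (fun Q hQ hQ' => Node.ord_hasse_eq hr hA hπ hs hM hQ hη hQ') c
    (fun Q h1 h2 => h.2 b₁ hb.kred Q ((isSS_iff hη).2 ⟨h1, h2⟩)) Q hQ.1 hQ.2

end HasSlope

/-- **(T)** at rigid level -/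
theorem exists_hasSlope (hr : ∃ r : ℕ, r.Prime ∧ r ∣ M ∧ r % 12 = 11) (hn : n ≠ 0)
    (hx : n • x = 0) (hI : ∀ t ∈ A.inertiaSubgroupIn ℚ, t • x = x) :
    ∃ c, HasSlope hA hπ hs hM n x c := by
  haveI := charP_of_liesOverPrime (k := k) hA hπ
  haveI : IsAlgClosed k := isAlgClosed_of_surjective hs
  haveI : PerfectRing k q := PerfectField.toPerfectRing q
  haveI := isFnField_fullC (k := k) M q hM
  haveI := (isCoord' hA hπ hs hM).finiteDimensionalk
  haveI := RedQ.isSeparable_charP M k q hM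
  obtain ⟨η, hη, -⟩ := exists_hasse M hA hπ hs hM
  obtain ⟨b₁, b₂, hb⟩ := exists_hasRed (hA := hA) (hπ := hπ) (hs := hs) (hM := hM) hx
  obtain ⟨c, hc⟩ := Node.hasRed_slope hr hn hI hb
  refine ⟨c, HasSlope.mk' hn hb.kred fun Q hQ => ?_⟩
  rw [isSS_iff hη, ← Node.node1_iff (hA := hA) (hπ := hπ) (hs := hs) (hM := hM) hη] at hQ
  obtain ⟨s, rfl⟩ := hQ
  exact (hc s).1

end Fermat.Agent.MazurQ
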