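import Mathlib

/-!
# Group theory for the existence of good auxiliary primes
-/

set_option autoImplicit false

namespace Fermat.Agent.MazurQ.Exist

section Mat

variable {k : Type*} [Field k]

theorem cayley (m : Matrix (Fin 2) (Fin 2) k) : m * m = m.trace • m - m.det • 1 := by
  ext i j
  rw [Matrix.mul_apply, Fin.sum_univ_two, Matrix.trace_fin_two, Matrix.det_fin_two]
  fin_cases i <;> fin_cases j <;> simp [Matrix.one_apply] <;> ring

theorem exists_ne_zero {m : Matrix (Fin 2) (Fin 2) k} (hm : m ≠ 0) : ∃ u, m.mulVec u ≠ 0 := by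
  by_contra hcon
  push Not at hcon
  apply hm
  ext i j
  have h1 := congrFun (hcon (Pi.single j 1)) i
  rw [Matrix.mulVec_single_one] at h1
  exact h1

/-- two vectors in the kernel of a nonzero matrix are proportional -/
theorem ker_line {m : Matrix (Fin 2) (Fin 2) k} (hm : m ≠ 0) {v w : Fin 2 → k} (hv0 : v ≠ 0)
    (hv : m.mulVec v = 0) (hw : m.mulVec w = 0) : ∃ c : k, w = c • v := by
  have hdet : v 0 * w 1 - v 1 * w 0 = 0 := by
    by_contra hd
    apply hm
    have e0 : ∀ i, m i 0 * v 0 + m i 1 * v 1 = 0 := fun i => by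
      have := congrFun hv i
      simpa [Matrix.mulVec, dotProduct, Fin.sum_univ_two] using this
    have e1 : ∀ i, m i 0 * w 0 + m i 1 * w 1 = 0 := fun i => by
      have := congrFun hw i
      simpa [Matrix.mulVec, dotProduct, Fin.sum_univ_two] using this
    have f0 : ∀ i, m i 0 = 0 := fun i => by
      have h : (v 0 * w 1 - v 1 * w 0) * m i 0 = 0 := by
        linear_combination w 1 * e0 i - v 1 * e1 i
      exact (mul_eq_zero.1 h).resolve_left hd
    have f1 : ∀ i, m i 1 = 0 := fun i => by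
      have h : (v 0 * w 1 - v 1 * w 0) * m i 1 = 0 := by
        linear_combination v 0 * e1 i - w 0 * e0 i
      exact (mul_eq_zero.1 h).resolve_left hd
    ext i j
    fin_cases j
    · exact f0 i
    · exact f1 i
  by_cases h0 : v 0 = 0
  · have h1 : v 1 ≠ 0 := by
      intro h1
      apply hv0
      ext i
      fin_cases i
      · exact h0
      · exact h1
    have h2 : w 0 = 0 := by
      rw [h0, zero_mul, zero_sub, neg_eq_zero] at hdet
      exact (mul_eq_zero.1 hdet).resolve_left h1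
    refine ⟨w 1 / v 1, ?_⟩
    ext i
    fin_cases i
    · change w 0 = w 1 / v 1 * v 0
      rw [h0, h2, mul_zero]
    · change w 1 = w 1 / v 1 * v 1
      rw [div_mul_cancel₀ _ h1]
  · refine ⟨w 0 / v 0, ?_⟩
    ext i
    fin_cases i
    · change w 0 = w 0 / v 0 * v 0
      rw [div_mul_cancel₀ _ h0]
    · change w 1 = w 0 / v 0 * v 1
      field_simp
      linear_combination hdet

end Mat

variable {G : Type*} [Group G] {k : Type*} [Field k] {ρ : G →* Matrix (Fin 2) (Fin 2) k}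

/-- no line is stable under `H` -/
def NoLine (ρ : G →* Matrix (Fin 2) (Fin 2) k) (H : Subgroup G) : Prop :=
  ∀ v : Fin 2 → k, v ≠ 0 → ∃ g ∈ H, ∀ c : k, (ρ g).mulVec v ≠ c • v

/-- a nonzero matrix with an `H`-stable kernel -/
theorem NoLine.false {H : Subgroup G} (h : NoLine ρ H) {m : Matrix (Fin 2) (Fin 2) k}
    (hm : m ≠ 0) {v : Fin 2 → k} (hv0 : v ≠ 0) (hv : m.mulVec v = 0)
    (hst : ∀ g ∈ H, m.mulVec ((ρ g).mulVec v) = 0) : False := by
  obtain ⟨g, hg, hgc⟩ := h v hv0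
  obtain ⟨c, hc⟩ := ker_line hm hv0 hv (hst g hg)
  exact hgc c hc

/-- Schur -/
theorem schur [IsAlgClosed k] {H : Subgroup G} (h : NoLine ρ H) {z : Matrix (Fin 2) (Fin 2) k}
    (hz : ∀ g ∈ H, z * ρ g = ρ g * z) : ∃ c : k, z = c • 1 := by
  obtain ⟨c, hc⟩ := IsAlgClosed.exists_root (z.charpoly) (by
    rw [Matrix.charpoly_degree_eq_dim]; simp)
  refine ⟨c, ?_⟩
  by_contra hne
  have hm : z - c • 1 ≠ 0 := sub_ne_zero.2 hne
  have hdet : (z - c • 1).det = 0 := by
    rw [Polynomial.IsRoot, Matrix.eval_charpoly] at hc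
    have h1 : z - c • 1 = -(Matrix.scalar (Fin 2) c - z) := by
      rw [neg_sub]
      congr 1
      ext i j
      simp [Matrix.scalar_apply, Matrix.diagonal_apply, Matrix.one_apply]
    rw [h1, Matrix.det_neg, hc, mul_zero]
  obtain ⟨v, hv0, hv⟩ := Matrix.exists_mulVec_eq_zero_iff.2 hdet
  refine h.false hm hv0 hv fun g hg => ?_
  rw [Matrix.mulVec_mulVec]
  have h1 : (z - c • 1) * ρ g = ρ g * (z - c • 1) := by
    rw [sub_mul, mul_sub, hz g hg, smul_mul_assoc, mul_smul_comm, one_mul, mul_one]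
  rw [h1, ← Matrix.mulVec_mulVec, hv, Matrix.mulVec_zero]

theorem inv_eq {g : G} (hd : (ρ g).det = 1) : ρ g⁻¹ = (ρ g).trace • 1 - ρ g := by
  have h1 : ρ g * ρ g⁻¹ = 1 := by rw [← map_mul, mul_inv_cancel, map_one]
  have h2 : ρ g * ((ρ g).trace • 1 - ρ g) = 1 := by
    rw [mul_sub, cayley, hd, mul_smul_comm, mul_one, one_smul, sub_sub_cancel]
  have h3 : ρ g⁻¹ * ρ g = 1 := by rw [← map_mul, inv_mul_cancel, map_one]
  calc ρ g⁻¹ = ρ g⁻¹ * (ρ g * ((ρ g).trace • 1 - ρ g)) := by rw [h2, mul_one]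
    _ = (ρ g).trace • 1 - ρ g := by rw [← mul_assoc, h3, one_mul]

theorem trace_conj (g h : G) : (ρ (h * g * h⁻¹)).trace = (ρ g).trace := by
  rw [map_mul, Matrix.trace_mul_comm, ← map_mul, inv_mul_cancel_left]

theorem det_conj (g h : G) : (ρ (h * g * h⁻¹)).det = (ρ g).det := by
  rw [map_mul, Matrix.det_mul_comm, ← map_mul, inv_mul_cancel_left]

/-- A normal subgroup of unipotents acts trivially. -/
theorem eq_one_of_unip {H P' : Subgroup G} (h : NoLine ρ H)
    (hn : ∀ g ∈ P', ∀ h ∈ H, h * g * h⁻¹ ∈ P')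
    (htr : ∀ g ∈ P', (ρ g).trace = 2) (hdet : ∀ g ∈ P', (ρ g).det = 1) :
    ∀ g ∈ P', ρ g = 1 := by
  intro g hg
  by_contra hne
  set m := ρ g - 1 with hmdef
  have hm : m ≠ 0 := sub_ne_zero.2 hne
  have hmtr : m.trace = 0 := by
    rw [hmdef, Matrix.trace_sub, htr g hg, Matrix.trace_one, Fintype.card_fin]
    norm_num
  have hmm : m * m = 0 := by
    have h1 := cayley (ρ g)
    rw [htr g hg, hdet g hg, one_smul] at h1
    rw [hmdef, sub_mul, mul_sub, h1, mul_one, one_mul, two_smul]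
    abel
  have hmdet : m.det = 0 := by
    have h1 := cayley m
    rw [hmm, hmtr, zero_smul, zero_sub] at h1
    have h2 := congrFun (congrFun h1 0) 0
    simpa using h2
  -- the trace condition
  have key : ∀ x ∈ H, (m * ρ x).trace = 0 := by
    intro x hx
    have h1 := htr _ (P'.mul_mem hg (hn g hg x hx))
    have h2 : ρ (g * (x * g * x⁻¹)) = (1 + m) * (1 + ρ x * m * ρ x⁻¹) := by
      rw [map_mul, map_mul, map_mul, hmdef, mul_sub, sub_mul, mul_one, ← map_mul ρ x x⁻¹,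
        mul_inv_cancel, map_one]
      congr 1 <;> abel
    have h3 : (ρ x * m * ρ x⁻¹).trace = 0 := by
      rw [Matrix.trace_mul_comm, ← mul_assoc, ← map_mul, inv_mul_cancel, map_one, one_mul, hmtr]
    have h4 : (m * (ρ x * m * ρ x⁻¹)).trace = 0 := by
      rw [h2] at h1
      rw [add_mul, one_mul, mul_add, mul_one, Matrix.trace_add, Matrix.trace_add,
        Matrix.trace_add, Matrix.trace_one, h3, hmtr, Fintype.card_fin] at h1
      push_cast at h1
      linear_combination h1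
    -- explicit computation
    have h5 : ρ x * ρ x⁻¹ = 1 := by rw [← map_mul, mul_inv_cancel, map_one]
    have h6 : ρ x⁻¹ * ρ x = 1 := by rw [← map_mul, inv_mul_cancel, map_one]
    have hD : (ρ x).det ≠ 0 := by
      intro h0
      have := congrArg Matrix.det h5
      rw [Matrix.det_mul, h0, zero_mul, Matrix.det_one] at this
      exact zero_ne_one this
    have h7 : (ρ x).det • ρ x⁻¹ = (ρ x).trace • 1 - ρ x := by
      have h8 : ρ x * ((ρ x).trace • 1 - ρ x) = (ρ x).det • 1 := by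
        rw [mul_sub, cayley, mul_smul_comm, mul_one, sub_sub_cancel]
      calc (ρ x).det • ρ x⁻¹ = ρ x⁻¹ * ((ρ x).det • 1) := by rw [mul_smul_comm, mul_one]
        _ = ρ x⁻¹ * (ρ x * ((ρ x).trace • 1 - ρ x)) := by rw [h8]
        _ = _ := by rw [← mul_assoc, h6, one_mul]
    have h9 : (m * (ρ x * m * ((ρ x).trace • 1 - ρ x))).trace = 0 := by
      rw [← h7, mul_smul_comm, mul_smul_comm, Matrix.trace_smul, h4, smul_zero]
    rw [mul_sub, mul_sub, mul_smul_comm, mul_smul_comm, mul_one, Matrix.trace_sub,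
      Matrix.trace_smul] at h9
    have h10 : (m * (ρ x * m)).trace = 0 := by
      rw [← mul_assoc, Matrix.trace_mul_comm, ← mul_assoc, hmm, zero_mul, Matrix.trace_zero]
    rw [h10, smul_zero, zero_sub, neg_eq_zero] at h9
    have h11 : (m * ρ x) * (m * ρ x) = (m * ρ x).trace • (m * ρ x) := by
      rw [cayley, Matrix.det_mul, hmdet, zero_mul, zero_smul, sub_zero]
    have h12 : (m * (ρ x * m * ρ x)).trace = (m * ρ x).trace * (m * ρ x).trace := by
      rw [show m * (ρ x * m * ρ x) = (m * ρ x) * (m * ρ x) by noncomm_ring, h11,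
        Matrix.trace_smul, smul_eq_mul]
    rw [h12] at h9
    exact mul_self_eq_zero.1 h9
  obtain ⟨u, hu⟩ := exists_ne_zero hm
  refine h.false hm hu (by rw [Matrix.mulVec_mulVec, hmm, Matrix.zero_mulVec]) fun x hx => ?_
  rw [Matrix.mulVec_mulVec, Matrix.mulVec_mulVec]
  have h1 : m * (ρ x * m) = 0 := by
    have h2 : m * ρ x * m = (m * ρ x).trace • m := by
      ext i j
      have e : m.det = 0 := hmdet
      rw [Matrix.det_fin_two] at e
      rw [Matrix.trace_fin_two]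
      simp only [Matrix.mul_apply, Fin.sum_univ_two, Matrix.smul_apply, smul_eq_mul]
      fin_cases i <;> fin_cases j <;> simp only [Fin.zero_eta, Fin.mk_one, Fin.isValue]
      · linear_combination (-(ρ x 1 1)) * e
      · linear_combination (ρ x 0 1) * e
      · linear_combination (ρ x 1 0) * e
      · linear_combination (-(ρ x 0 0)) * e
    rw [← mul_assoc, h2, key x hx, zero_smul]
  rw [mul_assoc, h1, Matrix.zero_mulVec]

theorem sq_trace {g : G} (hd : (ρ g).det = 1) :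
    (ρ (g * g)).trace = (ρ g).trace ^ 2 - 2 := by
  rw [map_mul, cayley, hd, one_smul, Matrix.trace_sub, Matrix.trace_smul, Matrix.trace_one,
    Fintype.card_fin, smul_eq_mul]
  push_cast
  ring

/-- the trace identity in `SL₂` -/
theorem trace_mul_add {g h : G} (hd : (ρ h).det = 1) :
    (ρ (g * h)).trace + (ρ (g * h⁻¹)).trace = (ρ g).trace * (ρ h).trace := by
  rw [map_mul, map_mul, inv_eq hd, mul_sub, mul_smul_comm, mul_one, Matrix.trace_sub,
    Matrix.trace_smul, smul_eq_mul]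
  ring

/-- A normal subgroup with determinants `1` and traces `± 2` acts by `± 1`. -/
theorem eq_one_or_neg_one {H G₁ : Subgroup G} (h2 : (2 : k) ≠ 0) (h : NoLine ρ H)
    (hn : ∀ g ∈ G₁, ∀ h ∈ H, h * g * h⁻¹ ∈ G₁)
    (htr : ∀ g ∈ G₁, (ρ g).trace ^ 2 = 4) (hdet : ∀ g ∈ G₁, (ρ g).det = 1) :
    ∀ g ∈ G₁, ρ g = 1 ∨ ρ g = -1 := by
  have hcase : ∀ g ∈ G₁, (ρ g).trace = 2 ∨ (ρ g).trace = -2 := fun g hg => by
    have h1 : ((ρ g).trace - 2) * ((ρ g).trace + 2) = 0 := by linear_combination htr g hg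
    rcases mul_eq_zero.1 h1 with h1 | h1
    · exact Or.inl (sub_eq_zero.1 h1)
    · exact Or.inr (eq_neg_of_add_eq_zero_left h1)
  let P' : Subgroup G :=
    { carrier := {g | g ∈ G₁ ∧ (ρ g).trace = 2}
      one_mem' := ⟨G₁.one_mem, by rw [map_one, Matrix.trace_one, Fintype.card_fin]; norm_num⟩
      mul_mem' := by
        rintro a b ⟨ha, ha'⟩ ⟨hb, hb'⟩
        refine ⟨G₁.mul_mem ha hb, ?_⟩
        rcases hcase _ (G₁.mul_mem ha hb) with h1 | h1
        · exact h1
        · exfalso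
          have h3 := trace_mul_add (g := a) (hdet b hb)
          rw [h1, ha', hb'] at h3
          rcases hcase _ (G₁.mul_mem ha (G₁.inv_mem hb)) with h4 | h4
          · rw [h4] at h3
            apply h2
            have h5 : (2 : k) * 2 = 0 := by linear_combination -h3
            exact (mul_self_eq_zero.1 h5)
          · rw [h4] at h3
            apply h2
            have h5 : (2 : k) * (2 * 2) = 0 := by linear_combination -h3
            rcases mul_eq_zero.1 h5 with h6 | h6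
            · exact h6
            · exact mul_self_eq_zero.1 h6
      inv_mem' := by
        rintro a ⟨ha, ha'⟩
        refine ⟨G₁.inv_mem ha, ?_⟩
        rw [inv_eq (hdet a ha), Matrix.trace_sub, Matrix.trace_smul, Matrix.trace_one,
          Fintype.card_fin, ha', smul_eq_mul]
        norm_num }
  have hP : ∀ g ∈ P', ρ g = 1 := by
    refine eq_one_of_unip (H := H) h ?_ (fun g hg => hg.2) (fun g hg => hdet g hg.1)
    intro g hg x hx
    exact ⟨hn g hg.1 x hx, by rw [trace_conj]; exact hg.2⟩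
  intro g hg
  have h1 : g * g ∈ P' := ⟨G₁.mul_mem hg hg, by
    rw [sq_trace (hdet g hg), htr g hg]; norm_num⟩
  have h3 := hP _ h1
  rw [map_mul, cayley, hdet g hg, one_smul] at h3
  rcases hcase g hg with h4 | h4
  · left
    rw [h4] at h3
    have h5 : (2 : k) • ρ g = (2 : k) • 1 := by
      rw [sub_eq_iff_eq_add] at h3
      rw [h3, two_smul]
    exact smul_right_injective _ h2 h5
  · right
    rw [h4] at h3
    have h5 : (2 : k) • ρ g = (2 : k) • (-1) := by
      rw [sub_eq_iff_eq_add, neg_smul, neg_eq_iff_eq_neg] at h3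
      rw [h3, two_smul]
      abel
    exact smul_right_injective _ h2 h5

section Main

variable [IsAlgClosed k] {A : Type*} [CommGroup A] (χ : G →* A) {e : A}

/-- **The case of large image of the determinant.** -/
theorem exists_good {p : ℕ} (hp : p.Prime) (hp2 : p ≠ 2) [CharP k p] (h : NoLine ρ ⊤)
    (he : e * e = 1) {g₀ : G} (hg₀ : χ g₀ = e) (hg₀d : (ρ g₀).det = 1) {h₀ : G} (hh₀ : χ h₀ = 1)
    (hh₀d : (ρ h₀).det ^ 2 ≠ 1) :
    ∃ g, χ g = e ∧ (ρ g).trace ^ 2 ≠ (1 + (ρ g).det) ^ 2 := by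
  classical
  have h2 : (2 : k) ≠ 0 := by
    intro h0
    have h1 : ((2 : ℕ) : k) = 0 := by exact_mod_cast h0
    rw [CharP.cast_eq_zero_iff k p] at h1
    exact hp2 ((Nat.prime_dvd_prime_iff_eq hp Nat.prime_two).1 h1)
  have hodd : Odd p := hp.odd_of_ne_two hp2
  by_contra hcon
  push Not at hcon
  have hC : ∀ g, χ g = e → (ρ g).det = 1 → (ρ g).trace ^ 2 = 4 := by
    intro g hg hd
    rw [hcon g hg, hd]
    norm_num
  -- a scalar element
  obtain ⟨ε, hε, g₁, hg₁, hg₁'⟩ : ∃ ε : k, ε * ε = 1 ∧ ∃ g₁ : G, χ g₁ = e ∧ ρ g₁ = ε • 1 := by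
    have h1 := hC g₀ hg₀ hg₀d
    obtain ⟨ε, hε, hε'⟩ : ∃ ε : k, ε * ε = 1 ∧ (ρ g₀).trace = 2 * ε := by
      have h3 : ((ρ g₀).trace - 2) * ((ρ g₀).trace + 2) = 0 := by linear_combination h1
      rcases mul_eq_zero.1 h3 with h3 | h3
      · exact ⟨1, one_mul 1, by linear_combination h3⟩
      · exact ⟨-1, by ring, by linear_combination h3⟩
    refine ⟨ε, hε, g₀ ^ p, ?_, ?_⟩
    · obtain ⟨r, hr⟩ := hodd
      rw [map_pow, hg₀, hr, pow_succ, pow_mul, pow_two, he, one_pow, one_mul]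
    · have : CharP (Matrix (Fin 2) (Fin 2) k) p := inferInstance
      have : Fact p.Prime := ⟨hp⟩
      have h4 : Commute (ρ g₀) (ε • (1 : Matrix (Fin 2) (Fin 2) k)) := by
        rw [Commute, SemiconjBy, mul_smul_comm, smul_mul_assoc, mul_one, one_mul]
      have h5 := sub_pow_char_of_commute (p := p) h4
      have h6 : (ρ g₀ - ε • (1 : Matrix (Fin 2) (Fin 2) k)) ^ 2 = 0 := by
        rw [pow_two, sub_mul, mul_sub, mul_sub, cayley, hg₀d, hε', one_smul, mul_smul_comm,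
          mul_one, smul_mul_assoc, one_mul, smul_mul_assoc, one_mul, smul_smul, hε, one_smul,
          mul_smul, two_smul]
        abel
      have h7 : (ρ g₀ - ε • (1 : Matrix (Fin 2) (Fin 2) k)) ^ p = 0 := by
        obtain ⟨r, hr⟩ := Nat.exists_eq_add_of_le hp.two_le
        rw [hr, pow_add, h6, zero_mul]
      have h8 : (ε • (1 : Matrix (Fin 2) (Fin 2) k)) ^ p = ε • 1 := by
        obtain ⟨r, hr⟩ := hodd
        rw [smul_pow, one_pow, hr, pow_succ, pow_mul, pow_two, hε, one_pow, one_mul]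
      rw [h7, h8] at h5
      rw [map_pow]
      exact (sub_eq_zero.1 h5.symm)
  have hg₁d : (ρ g₁).det = 1 := by
    rw [hg₁', Matrix.det_smul, Matrix.det_one, mul_one, Fintype.card_fin, pow_two, hε]
  -- the normal subgroup
  let G₁ : Subgroup G :=
    { carrier := {g | (χ g = 1 ∨ χ g = e) ∧ (ρ g).det = 1}
      one_mem' := ⟨Or.inl (map_one _), by rw [map_one, Matrix.det_one]⟩
      mul_mem' := by
        rintro a b ⟨ha, ha'⟩ ⟨hb, hb'⟩
        refine ⟨?_, by rw [map_mul, Matrix.det_mul, ha', hb', one_mul]⟩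
        rw [map_mul]
        rcases ha with ha | ha <;> rcases hb with hb | hb <;> rw [ha, hb]
        · exact Or.inl (one_mul 1)
        · exact Or.inr (one_mul e)
        · exact Or.inr (mul_one e)
        · exact Or.inl he
      inv_mem' := by
        rintro a ⟨ha, ha'⟩
        refine ⟨?_, ?_⟩
        · rw [map_inv]
          rcases ha with ha | ha <;> rw [ha]
          · exact Or.inl inv_one
          · exact Or.inr (inv_eq_of_mul_eq_one_left he)
        · have h1 : ρ a * ρ a⁻¹ = 1 := by rw [← map_mul, mul_inv_cancel, map_one]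
          have h3 := congrArg Matrix.det h1
          rwa [Matrix.det_mul, ha', one_mul, Matrix.det_one] at h3 }
  have hG₁tr : ∀ g ∈ G₁, (ρ g).trace ^ 2 = 4 := by
    rintro g ⟨hg, hgd⟩
    rcases hg with hg | hg
    · have h1 := hC (g₁ * g) (by rw [map_mul, hg₁, hg, mul_one])
        (by rw [map_mul, Matrix.det_mul, hg₁d, hgd, one_mul])
      rw [map_mul, hg₁', smul_mul_assoc, one_mul, Matrix.trace_smul, smul_eq_mul, mul_pow,
        pow_two ε, hε, one_mul] at h1
      exact h1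
    · exact hC g hg hgd
  have hG₁ : ∀ g ∈ G₁, ρ g = 1 ∨ ρ g = -1 := by
    refine eq_one_or_neg_one (H := ⊤) h2 h ?_ hG₁tr (fun g hg => hg.2)
    rintro g ⟨hg, hgd⟩ x -
    refine ⟨?_, by rw [det_conj]; exact hgd⟩
    rw [map_mul, map_mul, map_inv, mul_right_comm, mul_inv_cancel, one_mul]
    exact hg
  -- commutators
  have hcomm : ∀ a b : G, ρ (a * a) * ρ b = ρ b * ρ (a * a) := by
    intro a b
    have hmem : a * b * a⁻¹ * b⁻¹ ∈ G₁ := by
      refine ⟨Or.inl ?_, ?_⟩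
      · rw [map_mul, map_mul, map_mul, map_inv, map_inv]
        rw [mul_right_comm (χ a), mul_inv_cancel, one_mul, mul_inv_cancel]
      · rw [map_mul, Matrix.det_mul, det_conj, ← Matrix.det_mul, ← map_mul, mul_inv_cancel,
          map_one, Matrix.det_one]
    have h3 : ρ a * ρ b = ρ b * ρ a ∨ ρ a * ρ b = -(ρ b * ρ a) := by
      have h4 : ρ a * ρ b = ρ (a * b * a⁻¹ * b⁻¹) * (ρ b * ρ a) := by
        rw [← map_mul, ← map_mul, ← map_mul]
        congr 1
        group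
      rcases hG₁ _ hmem with h5 | h5
      · left; rw [h4, h5, one_mul]
      · right; rw [h4, h5, neg_one_mul]
    rw [map_mul]
    rcases h3 with h3 | h3
    · rw [mul_assoc, h3, ← mul_assoc, h3, mul_assoc]
    · rw [mul_assoc, h3, mul_neg, ← mul_assoc, h3, neg_mul, neg_neg, mul_assoc]
  obtain ⟨c, hc⟩ := schur h (z := ρ (h₀ * h₀)) (fun g _ => hcomm h₀ g)
  have hc2 : c ^ 2 = (ρ h₀).det ^ 2 := by
    have h1 := congrArg Matrix.det hc
    rw [map_mul, Matrix.det_mul, Matrix.det_smul, Matrix.det_one, mul_one, Fintype.card_fin] at h1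
    rw [← h1, pow_two]
  have hg₀' := hG₁ g₀ ⟨Or.inr hg₀, hg₀d⟩
  have h1 := hcon (g₀ * (h₀ * h₀)) (by rw [map_mul, map_mul, hg₀, hh₀, mul_one, mul_one])
  have h3 : (ρ (g₀ * (h₀ * h₀))).trace ^ 2 = 4 * c ^ 2 := by
    rw [map_mul, hc]
    rcases hg₀' with h4 | h4 <;> rw [h4, mul_smul_comm, mul_one, Matrix.trace_smul, smul_eq_mul]
    · rw [Matrix.trace_one, Fintype.card_fin]; push_cast; ring
    · rw [Matrix.trace_neg, Matrix.trace_one, Fintype.card_fin]; push_cast; ring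
  have h4 : (ρ (g₀ * (h₀ * h₀))).det = c ^ 2 := by
    rw [map_mul, Matrix.det_mul, hg₀d, one_mul, hc, Matrix.det_smul, Matrix.det_one, mul_one,
      Fintype.card_fin]
  rw [h3, h4] at h1
  have h5 : (1 - c ^ 2) ^ 2 = 0 := by linear_combination -h1
  have h6 := (pow_eq_zero_iff two_ne_zero).1 h5
  apply hh₀d
  rw [← hc2]
  linear_combination -h6

end Main

section Three

variable [IsAlgClosed k]

/-- common eigenvector of an abelian group -/
theorem exists_eigenvector {N : Subgroup G} (hN : ∀ x ∈ N, ∀ y ∈ N, ρ x * ρ y = ρ y * ρ x) :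
    ∃ v : Fin 2 → k, v ≠ 0 ∧ ∀ x ∈ N, ∃ c : k, (ρ x).mulVec v = c • v := by
  by_cases hsc : ∀ x ∈ N, ∃ c : k, ρ x = c • 1
  · refine ⟨fun _ => 1, fun h => one_ne_zero (congrFun h 0), fun x hx => ?_⟩
    obtain ⟨c, hc⟩ := hsc x hx
    exact ⟨c, by rw [hc, Matrix.smul_mulVec, Matrix.one_mulVec]⟩
  · push Not at hsc
    obtain ⟨x, hx, hxc⟩ := hsc
    obtain ⟨c, hc⟩ := IsAlgClosed.exists_root ((ρ x).charpoly) (by
      rw [Matrix.charpoly_degree_eq_dim]; simp)
    have hm : ρ x - c • 1 ≠ 0 := sub_ne_zero.2 (hxc c)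
    have hdet : (ρ x - c • 1).det = 0 := by
      rw [Polynomial.IsRoot, Matrix.eval_charpoly] at hc
      have h1 : ρ x - c • 1 = -(Matrix.scalar (Fin 2) c - ρ x) := by
        rw [neg_sub]
        congr 1
        ext i j
        simp [Matrix.scalar_apply, Matrix.diagonal_apply, Matrix.one_apply]
      rw [h1, Matrix.det_neg, hc, mul_zero]
    obtain ⟨v, hv0, hv⟩ := Matrix.exists_mulVec_eq_zero_iff.2 hdet
    refine ⟨v, hv0, fun y hy => ker_line hm hv0 hv ?_⟩
    rw [Matrix.mulVec_mulVec]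
    have h1 : (ρ x - c • 1) * ρ y = ρ y * (ρ x - c • 1) := by
      rw [sub_mul, mul_sub, hN x hx y hy, smul_mul_assoc, mul_smul_comm, one_mul, mul_one]
    rw [h1, ← Matrix.mulVec_mulVec, hv, Matrix.mulVec_zero]

/-- **The case `p = 3`.** -/
theorem trace_eq_zero_of {H N : Subgroup G} (h : NoLine ρ H) {g₀ : G}
    (hC : ∀ x ∈ N, (ρ (g₀ * x)).trace = 0 ∧ (ρ (g₀ * x)).det = -1)
    {τ : G} (hτ : τ * τ ∈ N) (hH : ∀ g ∈ H, g ∈ N ∨ τ⁻¹ * g ∈ N) : (ρ τ).trace = 0 := by
  have hinv : ∀ x ∈ N, ρ g₀ * ρ x * (ρ g₀ * ρ x) = 1 := by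
    intro x hx
    obtain ⟨h1, h2⟩ := hC x hx
    rw [← map_mul, cayley, h1, h2, zero_smul, neg_one_smul, zero_sub, neg_neg]
  have hg : ρ g₀ * ρ g₀ = 1 := by
    have := hinv 1 N.one_mem
    rwa [map_one, mul_one] at this
  have hN : ∀ x ∈ N, ∀ y ∈ N, ρ x * ρ y = ρ y * ρ x := by
    intro x hx y hy
    have e : ∀ x ∈ N, ρ x⁻¹ = ρ g₀ * ρ x * ρ g₀ := by
      intro x hx
      have h1 := hinv x hx
      have h2 : ρ x * ρ x⁻¹ = 1 := by rw [← map_mul, mul_inv_cancel, map_one]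
      calc ρ x⁻¹ = ρ g₀ * ρ x * (ρ g₀ * ρ x) * ρ x⁻¹ := by rw [h1, one_mul]
        _ = ρ g₀ * ρ x * ρ g₀ := by
          rw [mul_assoc, mul_assoc (ρ g₀) (ρ x) (ρ x⁻¹), h2, mul_one]
    have h3 : ρ (x * y)⁻¹ = ρ x⁻¹ * ρ y⁻¹ := by
      rw [e _ (N.mul_mem hx hy), e x hx, e y hy, map_mul]
      calc ρ g₀ * (ρ x * ρ y) * ρ g₀ = ρ g₀ * ρ x * 1 * ρ y * ρ g₀ := by noncomm_ring
        _ = ρ g₀ * ρ x * (ρ g₀ * ρ g₀) * ρ y * ρ g₀ := by rw [hg]
        _ = _ := by noncomm_ring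
    rw [mul_inv_rev, map_mul] at h3
    -- `ρ y⁻¹ ρ x⁻¹ = ρ x⁻¹ ρ y⁻¹`
    have h4 : ρ y * ρ y⁻¹ = 1 := by rw [← map_mul, mul_inv_cancel, map_one]
    have h5 : ρ x * ρ x⁻¹ = 1 := by rw [← map_mul, mul_inv_cancel, map_one]
    have h6 : ρ x⁻¹ * ρ x = 1 := by rw [← map_mul, inv_mul_cancel, map_one]
    have h7 : ρ y⁻¹ * ρ y = 1 := by rw [← map_mul, inv_mul_cancel, map_one]
    calc ρ x * ρ y = ρ x * ρ y * (ρ y⁻¹ * ρ x⁻¹) * (ρ x * ρ y) := by
          rw [show ρ x * ρ y * (ρ y⁻¹ * ρ x⁻¹) = ρ x * (ρ y * ρ y⁻¹) * ρ x⁻¹ by noncomm_ring,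
            h4, mul_one, h5, one_mul]
      _ = ρ y * ρ x * (ρ x⁻¹ * ρ y⁻¹) * (ρ x * ρ y) := by
          rw [show ρ x * ρ y * (ρ y⁻¹ * ρ x⁻¹) = ρ x * (ρ y * ρ y⁻¹) * ρ x⁻¹ by noncomm_ring,
            show ρ y * ρ x * (ρ x⁻¹ * ρ y⁻¹) = ρ y * (ρ x * ρ x⁻¹) * ρ y⁻¹ by noncomm_ring,
            h4, h5, mul_one, mul_one, h4, h5]
      _ = ρ y * ρ x * (ρ y⁻¹ * ρ x⁻¹) * (ρ x * ρ y) := by rw [h3]
      _ = ρ y * ρ x := by
          rw [show ρ y * ρ x * (ρ y⁻¹ * ρ x⁻¹) * (ρ x * ρ y) =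
            ρ y * ρ x * (ρ y⁻¹ * (ρ x⁻¹ * ρ x) * ρ y) by noncomm_ring, h6, mul_one, h7, mul_one]
  obtain ⟨v, hv0, hv⟩ := exists_eigenvector hN
  -- `τ` moves the line
  have hτv : ∀ c : k, (ρ τ).mulVec v ≠ c • v := by
    intro c hc
    obtain ⟨g, hg, hgc⟩ := h v hv0
    rcases hH g hg with h1 | h1
    · obtain ⟨d, hd⟩ := hv g h1
      exact hgc d hd
    · obtain ⟨d, hd⟩ := hv _ h1
      apply hgc (d * c)
      have h2 : ρ g = ρ τ * ρ (τ⁻¹ * g) := by rw [← map_mul, mul_inv_cancel_left]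
      rw [h2, ← Matrix.mulVec_mulVec, hd, Matrix.mulVec_smul, hc, smul_smul]
  obtain ⟨c, hc⟩ := hv _ hτ
  by_contra ht
  apply hτv ((c + (ρ τ).det) / (ρ τ).trace)
  rw [map_mul, cayley, Matrix.sub_mulVec, Matrix.smul_mulVec, Matrix.smul_mulVec,
    Matrix.one_mulVec] at hc
  have h1 : (ρ τ).trace • (ρ τ).mulVec v = (c + (ρ τ).det) • v := by
    rw [add_smul, ← hc]; abel
  rw [div_eq_inv_mul, mul_smul, ← h1, smul_smul, inv_mul_cancel₀ ht, one_smul]

end Three

end Fermat.Agent.MazurQ.Exist
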