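import Fermat.Agent.MazurQ.HasRed

/-!
# The toric part of `J₀(M q)` at `q`: the identities of Frobenius, inertia and Atkin-Lehner

`wSemi hM` is the Atkin-Lehner involution at `q` of `JZero (M * q)`; on the toric part
(`ToricAt`) inertia is trivial and Frobenius acts as `- q w`; the images of `s - 1` (`s` in
inertia) and of `φ + w` (on the kernel of the two traces) are toric.
-/

set_option autoImplicit false
set_option linter.unusedSectionVars false
set_option linter.style.haveILetI false

noncomputable section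

open AlgebraicCurve ModularCurve IntermediateField Module

namespace Fermat.Agent.MazurQ

open Fermat.Agent.FF Fermat.Agent.Red Fermat.Agent.QComp Fermat.Agent.QVal Fermat.Agent.JZ
  Fermat.Agent.ESh

local notation "Qb" => AlgebraicClosure ℚ
local notation "Γℚ" => (AlgebraicClosure ℚ ≃ₐ[ℚ] AlgebraicClosure ℚ)

variable {M q : ℕ} [NeZero M] [NeZero q] [hqf : Fact q.Prime] {A : ValuationSubring Qb}

/-- `x` is the class of a divisor `D` with `m D = div y` such that the reductions of `y` on the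
two components of `X₀(M q)` mod `q` are `m`-th powers. -/
def ToricAt (hA : A.LiesOverPrime q) (hM : ¬ q ∣ M) (m : ℕ) (x : JZero (M * q)) : Prop :=
  IsToric hA (residue_eq_zero_iff' A) IsLocalRing.residue_surjective hM m x

variable {hA : A.LiesOverPrime q} {hM : ¬ q ∣ M} {m : ℕ} {x x' : JZero (M * q)}

theorem cast_ne_zero_of_not_dvd (hA : A.LiesOverPrime q) (hm : ¬ q ∣ m) :
    (m : IsLocalRing.ResidueField A) ≠ 0 := by
  haveI : CharP (IsLocalRing.ResidueField A) q := charP_of_liesOverPrime hA (residue_eq_zero_iff' A)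
  rwa [Ne, CharP.cast_eq_zero_iff _ q]

namespace ToricAt

theorem w (h : ToricAt hA hM m x) : ToricAt hA hM m (wSemi hM • x) := IsToric.w h

theorem add (h : ToricAt hA hM m x) (h' : ToricAt hA hM m x') : ToricAt hA hM m (x + x') :=
  IsToric.add h h'

theorem neg (h : ToricAt hA hM m x) : ToricAt hA hM m (-x) := IsToric.neg h

theorem zero : ToricAt hA hM m (0 : JZero (M * q)) := IsToric.zero

theorem frob (hm : ¬ q ∣ m) (h : ToricAt hA hM m x) {φ : Γℚ} (hφ : A.IsFrobeniusAt φ q) :
    φ • x + q • wSemi hM • x = 0 := by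
  have hπ := residue_eq_zero_iff' A
  have hsur : Function.Surjective (IsLocalRing.residue A) := IsLocalRing.residue_surjective
  haveI : CharP (IsLocalRing.ResidueField A) q := charP_of_liesOverPrime hA hπ
  haveI : IsAlgClosed (IsLocalRing.ResidueField A) := isAlgClosed_of_surjective hsur
  haveI : PerfectRing (IsLocalRing.ResidueField A) q := PerfectField.toPerfectRing q
  haveI := isFnField_fullC (k := IsLocalRing.ResidueField A) M q hM
  exact IsToric.frob (cast_ne_zero_of_not_dvd hA hm) h hφ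

theorem frob_w (hm : ¬ q ∣ m) (h : ToricAt hA hM m x) {φ : Γℚ} (hφ : A.IsFrobeniusAt φ q) :
    φ • wSemi hM • x + q • x = 0 := by
  have h1 := h.w.frob hm hφ
  rwa [wSemi_wSemi] at h1

theorem inertia (hm : ¬ q ∣ m) (h : ToricAt hA hM m x) {t : Γℚ}
    (ht : t ∈ A.inertiaSubgroupIn ℚ) : t • x = x := by
  have hπ := residue_eq_zero_iff' A
  have hsur : Function.Surjective (IsLocalRing.residue A) := IsLocalRing.residue_surjective
  haveI : CharP (IsLocalRing.ResidueField A) q := charP_of_liesOverPrime hA hπ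
  haveI : IsAlgClosed (IsLocalRing.ResidueField A) := isAlgClosed_of_surjective hsur
  haveI : PerfectRing (IsLocalRing.ResidueField A) q := PerfectField.toPerfectRing q
  haveI := isFnField_fullC (k := IsLocalRing.ResidueField A) M q hM
  exact IsToric.inertia (cast_ne_zero_of_not_dvd hA hm) h ht

end ToricAt

theorem toricAt_inertia_sub (hA : A.LiesOverPrime q) (hM : ¬ q ∣ M)
    (hx : m • x = 0) {s : Γℚ} (hs : s ∈ A.inertiaSubgroupIn ℚ) :
    ToricAt hA hM m (s • x - x) := by
  have hπ := residue_eq_zero_iff' A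
  have hsur : Function.Surjective (IsLocalRing.residue A) := IsLocalRing.residue_surjective
  haveI : CharP (IsLocalRing.ResidueField A) q := charP_of_liesOverPrime hA hπ
  haveI : IsAlgClosed (IsLocalRing.ResidueField A) := isAlgClosed_of_surjective hsur
  haveI : PerfectRing (IsLocalRing.ResidueField A) q := PerfectField.toPerfectRing q
  haveI := isFnField_fullC (k := IsLocalRing.ResidueField A) M q hM
  exact isToric_inertia_sub hx hs

theorem toricAt_frob_add (hA : A.LiesOverPrime q) (hM : ¬ q ∣ M) (hm : ¬ q ∣ m)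
    (hx : m • x = 0) (hα : trA M q x = 0) (hβ : trB M q x = 0) {φ : Γℚ}
    (hφ : A.IsFrobeniusAt φ q) : ToricAt hA hM m (φ • x + wSemi hM • x) := by
  have hπ := residue_eq_zero_iff' A
  have hsur : Function.Surjective (IsLocalRing.residue A) := IsLocalRing.residue_surjective
  haveI : CharP (IsLocalRing.ResidueField A) q := charP_of_liesOverPrime hA hπ
  haveI : IsAlgClosed (IsLocalRing.ResidueField A) := isAlgClosed_of_surjective hsur
  haveI : PerfectRing (IsLocalRing.ResidueField A) q := PerfectField.toPerfectRing q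
  haveI := isFnField_fullC (k := IsLocalRing.ResidueField A) M q hM
  exact isToric_frob_add (by rintro rfl; exact hm (dvd_zero q)) hx hα hβ hφ

/-! ### The four identities -/

section Final

variable {p : ℕ}

theorem not_dvd_pow_of_ne (hp : p.Prime) (hpq : p ≠ q) (n : ℕ) : ¬ q ∣ p ^ n := fun h =>
  hpq ((Nat.prime_dvd_prime_iff_eq hqf.out hp).1 (hqf.out.dvd_of_dvd_pow h)).symm

/-- `(φ + q w)(φ + w) = 0` on the `p`-power torsion of the kernel of the two traces -/
theorem frob_frob_add (hM : ¬ q ∣ M) (hp : p.Prime) (hpq : p ≠ q) (hA : A.LiesOverPrime q)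
    {φ : Γℚ} (hφ : A.IsFrobeniusAt φ q) (hx : ∃ n : ℕ, p ^ n • x = 0) (hα : trA M q x = 0)
    (hβ : trB M q x = 0) :
    φ • (φ • x + wSemi hM • x) + q • wSemi hM • (φ • x + wSemi hM • x) = 0 := by
  obtain ⟨n, hn⟩ := hx
  have hm := not_dvd_pow_of_ne hp hpq n
  exact (toricAt_frob_add hA hM hm hn hα hβ hφ).frob hm hφ

/-- inertia acts trivially on the image of `φ + w` on the kernel of the two traces -/
theorem inertia_frob_add (hM : ¬ q ∣ M) (hp : p.Prime) (hpq : p ≠ q) (hA : A.LiesOverPrime q)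
    {φ : Γℚ} (hφ : A.IsFrobeniusAt φ q) {t : Γℚ} (ht : t ∈ A.inertiaSubgroupIn ℚ)
    (hx : ∃ n : ℕ, p ^ n • x = 0) (hα : trA M q x = 0) (hβ : trB M q x = 0) :
    t • (φ • x + wSemi hM • x) = φ • x + wSemi hM • x := by
  obtain ⟨n, hn⟩ := hx
  have hm := not_dvd_pow_of_ne hp hpq n
  exact (toricAt_frob_add hA hM hm hn hα hβ hφ).inertia hm ht

/-- `(φ + q w)(s - 1) = 0` on the `p`-power torsion -/
theorem frob_inertia_sub (hM : ¬ q ∣ M) (hp : p.Prime) (hpq : p ≠ q) (hA : A.LiesOverPrime q)
    {φ : Γℚ} (hφ : A.IsFrobeniusAt φ q) {s : Γℚ} (hs : s ∈ A.inertiaSubgroupIn ℚ)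
    (hx : ∃ n : ℕ, p ^ n • x = 0) :
    φ • (s • x - x) + q • wSemi hM • (s • x - x) = 0 := by
  obtain ⟨n, hn⟩ := hx
  have hm := not_dvd_pow_of_ne hp hpq n
  exact (toricAt_inertia_sub hA hM hn hs).frob hm hφ

/-- `(t - 1)(s - 1) = 0` on the `p`-power torsion -/
theorem inertia_inertia_sub (hM : ¬ q ∣ M) (hp : p.Prime) (hpq : p ≠ q) (hA : A.LiesOverPrime q)
    {s t : Γℚ} (hs : s ∈ A.inertiaSubgroupIn ℚ) (ht : t ∈ A.inertiaSubgroupIn ℚ)
    (hx : ∃ n : ℕ, p ^ n • x = 0) : t • (s • x - x) = s • x - x := by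
  obtain ⟨n, hn⟩ := hx
  have hm := not_dvd_pow_of_ne hp hpq n
  exact (toricAt_inertia_sub hA hM hn hs).inertia hm ht

end Final

end Fermat.Agent.MazurQ
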