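import Mathlib

/-!
# Two-dimensional absolutely irreducible representations: elementary lemmas
-/

set_option autoImplicit false

open Matrix

namespace Fermat.Agent.MazurQ

variable {G K : Type*} [Group G] [Field K] (m : G →* Matrix (Fin 2) (Fin 2) K)
  (hspan : Submodule.span K (Set.range m) = ⊤)

include hspan in
theorem eq_zero_of_trace_mul {X : Matrix (Fin 2) (Fin 2) K} (h : ∀ g, (X * m g).trace = 0) :
    X = 0 := by
  have h1 : ∀ T : Matrix (Fin 2) (Fin 2) K, (X * T).trace = 0 := by
    intro T
    have hT : T ∈ Submodule.span K (Set.range m) := by rw [hspan]; exact Submodule.mem_top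
    induction hT using Submodule.span_induction with
    | mem x hx =>
      obtain ⟨g, rfl⟩ := hx
      exact h g
    | zero => rw [mul_zero, trace_zero]
    | add x y _ _ hx hy => rw [mul_add, trace_add, hx, hy, add_zero]
    | smul a x _ hx => rw [mul_smul_comm, trace_smul, hx, smul_zero]
  ext i j
  have h2 := h1 (Matrix.single j i 1)
  rw [Matrix.trace_mul_single] at h2
  simpa using h2

include hspan in
/-- the character is not a sum of two characters `1 + det` -/
theorem false_of_trace (h : ∀ g, (m g).trace = 1 + (m g).det) : False := by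
  have h1 : ∀ g h', m g * m h' = m h' * m g := by
    intro g h'
    rw [← sub_eq_zero]
    refine eq_zero_of_trace_mul m hspan fun k => ?_
    rw [sub_mul, trace_sub, ← map_mul, ← map_mul, ← map_mul, ← map_mul, h, h]
    simp only [map_mul, det_mul]
    ring
  have h2 : ∀ (X Y : Matrix (Fin 2) (Fin 2) K), X * Y = Y * X := by
    have h3 : ∀ (g : G) (Y : Matrix (Fin 2) (Fin 2) K), m g * Y = Y * m g := by
      intro g Y
      have hY : Y ∈ Submodule.span K (Set.range m) := by rw [hspan]; exact Submodule.mem_top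
      induction hY using Submodule.span_induction with
      | mem x hx =>
        obtain ⟨k, rfl⟩ := hx
        exact h1 g k
      | zero => rw [mul_zero, zero_mul]
      | add x y _ _ hx hy => rw [mul_add, add_mul, hx, hy]
      | smul a x _ hx => rw [mul_smul_comm, smul_mul_assoc, hx]
    intro X Y
    have hX : X ∈ Submodule.span K (Set.range m) := by rw [hspan]; exact Submodule.mem_top
    induction hX using Submodule.span_induction with
    | mem x hx =>
      obtain ⟨k, rfl⟩ := hx
      exact h3 k Y
    | zero => rw [mul_zero, zero_mul]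
    | add x y _ _ hx hy => rw [mul_add, add_mul, hx, hy]
    | smul a x _ hx => rw [mul_smul_comm, smul_mul_assoc, hx]
  have h3 := congrFun (congrFun (h2 !![0, 1; 0, 0] !![0, 0; 1, 0]) 0) 0
  simp [Matrix.mul_apply, Fin.sum_univ_two] at h3

/-- Cayley-Hamilton for `2 × 2` matrices -/
theorem mul_self_two (X : Matrix (Fin 2) (Fin 2) K) : X * X = X.trace • X - X.det • 1 := by
  ext i j
  fin_cases i <;> fin_cases j <;>
    simp [Matrix.mul_apply, Fin.sum_univ_two, Matrix.trace_fin_two, Matrix.det_fin_two] <;> ring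

theorem trace_key {U T : Matrix (Fin 2) (Fin 2) K} (h1 : U.trace = 0) (h2 : U.det = 0) :
    (U * (T * U * (T.trace • 1 - T))).trace = -((U * T).trace) ^ 2 := by
  have hT : T.trace • (1 : Matrix (Fin 2) (Fin 2) K) - T =
      !![T 1 1, -T 0 1; -T 1 0, T 0 0] := by
    ext i j
    fin_cases i <;> fin_cases j <;> simp [Matrix.trace_fin_two]
  rw [hT]
  rw [Matrix.trace_fin_two] at h1
  rw [Matrix.det_fin_two] at h2
  have e1 : U 1 1 = -U 0 0 := by linear_combination h1
  have e2 : U 0 1 * U 1 0 = -U 0 0 ^ 2 := by rw [e1] at h2; linear_combination -h2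
  simp only [Matrix.trace_fin_two, Matrix.mul_apply, Fin.sum_univ_two, Matrix.of_apply,
    Matrix.cons_val', Matrix.cons_val_zero, Matrix.cons_val_one, Matrix.cons_val_fin_one, e1]
  linear_combination (T 0 0 ^ 2 + T 1 1 ^ 2 + 2 * T 0 1 * T 1 0) * e2

theorem adj_key {T T' : Matrix (Fin 2) (Fin 2) K} (h : T * T' = 1) :
    T.det • T' = T.trace • 1 - T := by
  have h6 : T * T = T.trace • T - T.det • 1 := mul_self_two T
  have h7 : T * T * T' = T := by rw [mul_assoc, h, mul_one]
  have h8 : (T.trace • T - T.det • 1) * T' = T.trace • 1 - T.det • T' := by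
    rw [sub_mul, smul_mul_assoc, smul_mul_assoc, h, one_mul]
  rw [h6, h8] at h7
  rw [← h7]
  have h9 : T.trace • (1 : Matrix (Fin 2) (Fin 2) K) - (T.trace • 1 - T.det • T') =
    T.det • T' := by abel
  rw [h7] at h9 ⊢
  exact h9.symm

include hspan in
/-- normal subgroups of unipotent elements act trivially -/
theorem eq_one_of_unip (N : Subgroup G) [N.Normal]
    (h : ∀ n ∈ N, (m n).trace = 2 ∧ (m n).det = 1) {n : G} (hn : n ∈ N) : m n = 1 := by
  set U := m n - 1 with hU
  have hUtr : U.trace = 0 := by
    rw [hU, trace_sub, (h n hn).1, trace_one]; simp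
  have hUdet : U.det = 0 := by
    have h1 := (h n hn).1
    have h2 := (h n hn).2
    rw [trace_fin_two] at h1
    rw [det_fin_two] at h2 ⊢
    have e1 : U 0 0 = m n 0 0 - 1 := by rw [hU]; simp
    have e2 : U 0 1 = m n 0 1 := by rw [hU]; simp
    have e3 : U 1 0 = m n 1 0 := by rw [hU]; simp
    have e4 : U 1 1 = m n 1 1 - 1 := by rw [hU]; simp
    rw [e1, e2, e3, e4]
    linear_combination h2 - h1
  rw [← sub_eq_zero]
  change U = 0
  refine eq_zero_of_trace_mul m hspan fun g => ?_
  -- `tr (U · g U g⁻¹) = 0`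
  have hconj : g * n * g⁻¹ ∈ N := Subgroup.Normal.conj_mem inferInstance n hn g
  have h1 := (h _ (N.mul_mem hn hconj)).1
  have h2 := (h _ hconj).1
  have h3 := (h n hn).1
  have hgi : m g * m g⁻¹ = 1 := by rw [← map_mul, mul_inv_cancel, map_one]
  have h4 : (U * (m g * U * m g⁻¹)).trace = 0 := by
    have e1 : m g * U * m g⁻¹ = m (g * n * g⁻¹) - 1 := by
      rw [hU, mul_sub, sub_mul, mul_one, hgi, map_mul, map_mul]
    rw [e1, hU, sub_mul, mul_sub, mul_sub, mul_one, one_mul, mul_one, ← map_mul, trace_sub,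
      trace_sub, trace_sub, h1, h2, h3, trace_one]
    simp
  have h8 : (m g).det * (U * (m g * U * m g⁻¹)).trace = 0 := by rw [h4, mul_zero]
  rw [← smul_eq_mul, ← trace_smul, ← mul_smul_comm, ← mul_smul_comm, adj_key hgi,
    trace_key hUtr hUdet] at h8
  exact (pow_eq_zero_iff two_ne_zero).1 (neg_eq_zero.1 h8)

include hspan in
/-- Schur's lemma -/
theorem exists_scalar {φ : G} (h : ∀ g, m g * m φ = m φ * m g) : ∃ c : K, m φ = c • 1 := by
  have h3 : ∀ (Y : Matrix (Fin 2) (Fin 2) K), Y * m φ = m φ * Y := by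
    intro Y
    have hY : Y ∈ Submodule.span K (Set.range m) := by rw [hspan]; exact Submodule.mem_top
    induction hY using Submodule.span_induction with
    | mem x hx =>
      obtain ⟨k, rfl⟩ := hx
      exact h k
    | zero => rw [mul_zero, zero_mul]
    | add x y _ _ hx hy => rw [mul_add, add_mul, hx, hy]
    | smul a x _ hx => rw [mul_smul_comm, smul_mul_assoc, hx]
  have h4 := h3 !![0, 1; 0, 0]
  have h5 := h3 !![0, 0; 1, 0]
  have e1 := congrFun (congrFun h4 0) 0
  have e2 := congrFun (congrFun h4 0) 1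
  have e3 := congrFun (congrFun h5 0) 0
  simp [Matrix.mul_apply, Fin.sum_univ_two] at e1 e2 e3
  refine ⟨m φ 0 0, ?_⟩
  ext i j
  fin_cases i <;> fin_cases j
  · simp
  · simpa using e3.symm
  · simpa using e1
  · simpa using e2

end Fermat.Agent.MazurQ
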