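import Fermat.Agent.MazurQ.Slope

/-!
# Level lowering of inertia invariant torsion classes: the geometric step at rigid level
-/

set_option autoImplicit false
set_option linter.unusedSectionVars false
set_option linter.style.haveILetI false

noncomputable section

open AlgebraicCurve ModularCurve IntermediateField Module

namespace Fermat.Agent.MazurQ

open Fermat.Agent.FF Fermat.Agent.Red Fermat.Agent.QComp Fermat.Agent.QVal Fermat.Agent.JZ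
  Fermat.Agent.ESh

local notation "Qb" => AlgebraicClosure ℚ
local notation "Γℚ" => (AlgebraicClosure ℚ ≃ₐ[ℚ] AlgebraicClosure ℚ)

section Level

variable {k : Type*} [Field k] {A : ValuationSubring Qb} {π : A →+* k} {M q : ℕ} [NeZero M]
  [NeZero q] [hqf : Fact q.Prime]
  {hA : A.LiesOverPrime q} {hπ : ∀ a : A, π a = 0 ↔ ¬ IsUnit a}
  {hs : Function.Surjective π} {hM : ¬ q ∣ M} {n : ℕ} {x : JZero (M * q)} {c c' : ℤ}

theorem HasSlope.congr (h : HasSlope hA hπ hs hM n x c) (hc : (n : ℤ) ∣ c - c') :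
    HasSlope hA hπ hs hM n x c' := by
  refine ⟨h.1, fun b hb Q hQ => ?_⟩
  have h1 := dvd_add (h.2 b hb Q hQ) hc
  have e : Q.ord b - c' = Q.ord b - c + (c - c') := by ring
  rw [e]
  exact h1

theorem HasSlope.of_empty (hx : n • x = 0)
    (h : ∀ Q : Place k (modularFunctionFieldFullC k M), ¬ IsSS q Q) :
    HasSlope hA hπ hs hM n x c :=
  ⟨hx, fun _ _ Q hQ => absurd hQ (h Q)⟩

/-- slopes vanish on non-Eisenstein eigenvectors -/
theorem hasSlope_zero_of_eigen (hr : ∃ r : ℕ, r.Prime ∧ r ∣ M ∧ r % 12 = 11) {p m : ℕ}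
    (hp : p.Prime) (hx : p ^ m • x = 0) (hI : ∀ t ∈ A.inertiaSubgroupIn ℚ, t • x = x)
    {ℓ : ℕ} [NeZero ℓ] [hlf : Fact ℓ.Prime] (hℓ : ¬ ℓ ∣ M * q) {a : ℤ}
    (ha : heckeOperatorAlong Qb (M * q) ℓ x = a • x) (hne : ¬ (p : ℤ) ∣ a - ℓ - 1) :
    HasSlope hA hπ hs hM (p ^ m) x 0 := by
  have hn : p ^ m ≠ 0 := pow_ne_zero _ hp.ne_zero
  obtain ⟨c, hc⟩ := exists_hasSlope (hA := hA) (hπ := hπ) (hs := hs) (hM := hM) hr hn hx hI
  by_cases hQ : ∃ Q : Place k (modularFunctionFieldFullC k M), IsSS q Q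
  · obtain ⟨Q, hQ⟩ := hQ
    have h1 := hc.hecke hr hℓ hn
    rw [ha] at h1
    have h2 := (hc.zsmul hn a).unique hQ h1
    have h3 : a * c - (ℓ + 1) * c = (a - ℓ - 1) * c := by ring
    rw [h3] at h2
    have h4 : IsCoprime ((p ^ m : ℕ) : ℤ) (a - ℓ - 1) := by
      rw [Nat.cast_pow]
      exact IsCoprime.pow_left ((Nat.prime_iff_prime_int.1 hp).coprime_iff_not_dvd.2 hne)
    exact hc.congr (by rw [sub_zero]; exact h4.dvd_of_dvd_mul_left h2)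
  · push Not at hQ
    exact HasSlope.of_empty hx hQ

end Level

section Final

variable {M q : ℕ} [NeZero M] [NeZero q] [hqf : Fact q.Prime] {A : ValuationSubring Qb}

theorem heckeBar_eq (N : ℕ) [NeZero N] (ℓ : Nat.Primes) (x : JZero N) :
    haveI : NeZero (ℓ : ℕ) := ⟨ℓ.2.ne_zero⟩
    heckeOperatorBar N ℓ x = heckeOperatorAlong Qb N ℓ x := rfl

/-- **The geometric step (rigid level).** -/
theorem stepGeo (hM : ¬ q ∣ M) (hr : ∃ r : ℕ, r.Prime ∧ r ∣ M ∧ r % 12 = 11)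
    (hA : A.LiesOverPrime q) {p : ℕ} (hp : p.Prime) (hpq : p ≠ q) (a : ℕ → ℤ) (Q₀ : Finset ℕ)
    {ε : ℤ} {n : ℕ} {x : JZero (M * q)} (hx : p ^ n • x = 0)
    (hI : ∀ s ∈ A.inertiaSubgroupIn ℚ, s • x = x) (hw : wSemi hM • x = ε • x)
    (hT : ∀ l : Nat.Primes, ¬ (l : ℕ) ∣ M * q → (l : ℕ) ∉ Q₀ →
      heckeOperatorBar (M * q) l x = a l • x)
    (hne : ∃ l : Nat.Primes, ¬ (l : ℕ) ∣ M * q ∧ (l : ℕ) ∉ Q₀ ∧ ¬ (p : ℤ) ∣ a l - l - 1) :
    ∃ z : JZero M, p ^ n • z = 0 ∧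
      (∀ l : Nat.Primes, ¬ (l : ℕ) ∣ M * q → (l : ℕ) ∉ Q₀ →
        heckeOperatorBar M l z = a l • z) ∧
      ∀ j : ℕ, p ^ j • z = 0 → ToricAt hA hM (p ^ n) (p ^ j • x) := by
  obtain ⟨l₀, hl₀, hl₀Q, hl₀'⟩ := hne
  have hn : p ^ n ≠ 0 := pow_ne_zero _ hp.ne_zero
  have hqn : ¬ q ∣ p ^ n := not_dvd_pow_of_ne hp hpq n
  have hs0 : HasSlope hA (residue_eq_zero_iff' A) IsLocalRing.residue_surjective hM (p ^ n) x 0 := by
    haveI : NeZero (l₀ : ℕ) := ⟨l₀.2.ne_zero⟩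
    haveI : Fact (l₀ : ℕ).Prime := ⟨l₀.2⟩
    exact hasSlope_zero_of_eigen hr hp hx hI hl₀ (hT l₀ hl₀ hl₀Q) hl₀'
  obtain ⟨z, hz⟩ := hs0.exists_relZ hp hpq
  refine ⟨z, hz.1, fun l hl hlQ => ?_, fun j hj => ?_⟩
  · haveI : NeZero (l : ℕ) := ⟨l.2.ne_zero⟩
    haveI : Fact (l : ℕ).Prime := ⟨l.2⟩
    have h1 := hz.hecke (ℓ := l) (by rintro h0; exact hl (h0 ▸ dvd_mul_left _ _))
    have h2 : heckeOperatorAlong Qb (M * q) l x = a l • x := hT l hl hlQ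
    rw [h2] at h1
    exact h1.unique hqn (hz.zsmul (a l))
  · have h1 := hz.nsmul (p ^ j)
    rw [hj] at h1
    refine RelZ.isToric hn h1 ?_
    have h2 : wSemi hM • (p ^ j • x) = ε • (p ^ j • x) := by
      have h3 : wSemi hM • (p ^ j • x) = p ^ j • (wSemi hM • x) :=
        map_nsmul (DistribSMul.toAddMonoidHom (JZero (M * q)) (wSemi hM)) (p ^ j) x
      rw [h3, hw, smul_comm]
    rw [h2]
    have h4 := h1.zsmul ε
    rwa [smul_zero] at h4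

end Final

end Fermat.Agent.MazurQ
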