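import Fermat.Agent.MazurQ.Sys
import Fermat.Agent.MazurQ.Grp
import Fermat.Agent.MazurQ.StepGeo
import Fermat.Agent.TwoAdic.MazCH
import Fermat.Agent.RepTwo.ESData
import Fermat.Agent.Top.SupportFinal

/-!
# Mazur's principle: algebraic lemmas
-/

set_option autoImplicit false
set_option linter.unusedSectionVars false
set_option linter.style.haveILetI false

noncomputable section

open AlgebraicCurve ModularCurve

namespace Fermat.Agent.MazurQ

local notation "Qb" => AlgebraicClosure ℚ
local notation "Γℚ" => (AlgebraicClosure ℚ ≃ₐ[ℚ] AlgebraicClosure ℚ)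

section Fixed

variable {G J : Type*} [Group G] [AddCommGroup J] [DistribMulAction G J]

theorem pow_smul_of_sq {h : G} {x : J} (hx : h • h • x - 2 • (h • x) + x = 0) (n : ℕ) :
    h ^ n • x = x + n • (h • x - x) := by
  have h1 : h • (h • x - x) = h • x - x := by
    rw [smul_sub, ← sub_eq_zero]
    rw [← hx, two_nsmul]
    abel
  induction n with
  | zero => simp
  | succ n ih =>
    rw [pow_succ', mul_smul, ih, smul_add]
    have h2 : h • (n • (h • x - x)) = n • (h • (h • x - x)) :=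
      map_nsmul (DistribSMul.toAddMonoidHom J h) n _
    rw [h2, h1, succ_nsmul]
    abel

/-- unipotent groups have fixed points -/
theorem exists_fixed {p : ℕ} (hp : p.Prime) (X : AddSubgroup J) [Finite X] (H : Subgroup G)
    (hX0 : ∃ x ∈ X, x ≠ 0) (hpX : ∀ x ∈ X, p • x = 0) (hHX : ∀ h ∈ H, ∀ x ∈ X, h • x ∈ X)
    (hq : ∀ h ∈ H, ∀ x ∈ X, h • h • x - 2 • (h • x) + x = 0) :
    ∃ x ∈ X, x ≠ 0 ∧ ∀ h ∈ H, h • x = x := by
  haveI : Fact p.Prime := ⟨hp⟩
  letI : MulAction H X :=
    { smul := fun h x => ⟨h.1 • x.1, hHX h.1 h.2 x.1 x.2⟩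
      one_smul := fun x => Subtype.ext (one_smul G x.1)
      mul_smul := fun a b x => Subtype.ext (mul_smul a.1 b.1 x.1) }
  have hsm : ∀ (h : H) (x : X), ((h • x : X) : J) = h.1 • x.1 := fun _ _ => rfl
  let R := (MulAction.toPermHom H X).range
  have hR : IsPGroup p R := by
    rintro ⟨r, h, rfl⟩
    refine ⟨1, ?_⟩
    apply Subtype.ext
    rw [pow_one]
    change (MulAction.toPermHom H X h) ^ p = 1
    rw [← map_pow]
    ext x
    change ((h ^ p : H).1 • x.1 : J) = x.1
    rw [Subgroup.coe_pow, pow_smul_of_sq (hq h.1 h.2 x.1 x.2)]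
    rw [nsmul_sub, hpX _ (hHX h.1 h.2 x.1 x.2), hpX _ x.2, sub_self, add_zero]
  obtain ⟨x0, hx0, hx0'⟩ := hX0
  have hcard : p ∣ Nat.card X := by
    have h1 : addOrderOf (⟨x0, hx0⟩ : X) = p := by
      refine addOrderOf_eq_prime ?_ ?_
      · exact Subtype.ext (by rw [AddSubgroup.coe_nsmul]; exact hpX x0 hx0)
      · intro h
        exact hx0' (congrArg Subtype.val h)
    rw [← h1]
    exact addOrderOf_dvd_natCard _
  have h0 : (0 : X) ∈ MulAction.fixedPoints R X := by
    rintro ⟨r, h, rfl⟩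
    apply Subtype.ext
    change h.1 • (0 : J) = 0
    exact smul_zero _
  obtain ⟨b, hb, hb'⟩ := hR.exists_fixed_point_of_prime_dvd_card_of_fixed_point X hcard h0
  refine ⟨b.1, b.2, fun h => hb' (Subtype.ext h.symm), fun h hh => ?_⟩
  have h1 := hb ⟨MulAction.toPermHom H X ⟨h, hh⟩, ⟨⟨h, hh⟩, rfl⟩⟩
  exact congrArg Subtype.val h1

end Fixed

section MinPoly

variable {K : Type*} [Field K] {p : ℕ} [CharP K p]

open Polynomial

/-- a separable trick: if every integral polynomial killing `α` is divisible by `p` at `a`, then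
`α = a` -/
theorem eq_intCast_of_eval (hp : p.Prime) {α : K} (hα : IsIntegral ℤ α) {a : ℤ}
    (h : ∀ F : ℤ[X], aeval α F = 0 → (p : ℤ) ∣ F.eval a) : α = a := by
  haveI : Fact p.Prime := ⟨hp⟩
  letI : Algebra (ZMod p) K := ZMod.algebra K p
  haveI : IsScalarTower ℤ (ZMod p) K := IsScalarTower.of_algebraMap_eq' (RingHom.ext_int _ _)
  have hα' : IsIntegral (ZMod p) α := hα.tower_top
  obtain ⟨F, hF⟩ := Polynomial.map_surjective (Int.castRingHom (ZMod p))
    (ZMod.ringHom_surjective _) (minpoly (ZMod p) α)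
  have h1 : aeval α F = 0 := by
    have h2 : aeval α (F.map (algebraMap ℤ (ZMod p))) = aeval α F :=
      Polynomial.aeval_map_algebraMap _ _ _
    rw [← h2]
    have h3 : F.map (algebraMap ℤ (ZMod p)) = minpoly (ZMod p) α := hF
    rw [h3, minpoly.aeval]
  have h4 := h F h1
  have h5 : (minpoly (ZMod p) α).eval (a : ZMod p) = 0 := by
    rw [← hF, ← eq_intCast (Int.castRingHom (ZMod p)) a, Polynomial.eval_map_apply, eq_intCast,
      ZMod.intCast_zmod_eq_zero_iff_dvd]
    exact h4
  have h6 : (X - C (a : ZMod p)) ∣ minpoly (ZMod p) α := Polynomial.dvd_iff_isRoot.2 h5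
  have h7 : X - C (a : ZMod p) = minpoly (ZMod p) α :=
    Polynomial.eq_of_monic_of_associated (monic_X_sub_C _) (minpoly.monic hα')
      (((irreducible_X_sub_C _).dvd_irreducible_iff_associated (minpoly.irreducible hα')).1 h6)
  have h8 := minpoly.aeval (ZMod p) α
  rw [← h7, map_sub, aeval_X, aeval_C, map_intCast, sub_eq_zero] at h8
  exact h8

end MinPoly

end Fermat.Agent.MazurQ
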