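import Fermat.Agent.MazurQ.MPNew
import Fermat.Agent.LL.Blocks
import Fermat.Agent.Newform.MultOne

/-!
# Mazur's principle: removal of the rigidity condition
-/

set_option autoImplicit false

noncomputable section

open IsLocalRing Polynomial ModularFormClass CongruenceSubgroup

namespace Fermat.Agent.MazurQ

local notation "ℤbar" => integralClosure ℤ ℂ
local notation "Γℚ" => (AlgebraicClosure ℚ ≃ₐ[ℚ] AlgebraicClosure ℚ)
local notation "Qb" => AlgebraicClosure ℚ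

/-- the data of Mazur's principle -/
structure MPData (N q p : ℕ) [NeZero N] {K : Type} [Field K] (ψ : ℤbar →+* K)
    (f : CuspForm (Gamma0 N) 2) (ρbar : ResidualGaloisRep K) : Prop where
  hf : f.IsNormalizedEigenform
  irr : ρbar.IsAbsolutelyIrreducible
  frob : ∀ ℓ : ℕ, ℓ.Prime → ¬ ℓ ∣ N → ℓ ≠ p → ∀ P : ValuationSubring (AlgebraicClosure ℚ),
    P.LiesOverPrime ℓ → ∀ σ : Γℚ, P.IsFrobeniusAt σ ℓ → ∀ a : ℤbar,
    (a : ℂ) = qCoeff f ℓ →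
    LinearMap.charpoly (ρbar.ρ σ) = X ^ 2 - C (ψ a) * X + C (ℓ : K)
  unr : ρbar.IsUnramifiedAt q
  hno : ∀ (L : Type) [Field L] [Algebra K L] (ψ' : ℤbar →+* L)
    (g : CuspForm (Gamma0 (N / q)) 2), g.IsNormalizedEigenform →
    ∃ ℓ : ℕ, ℓ.Prime ∧ ¬ ℓ ∣ N ∧ ℓ ≠ p ∧ ∃ a b : ℤbar,
      (a : ℂ) = qCoeff f ℓ ∧ (b : ℂ) = qCoeff g ℓ ∧ ψ' b ≠ algebraMap K L (ψ a)

/-- the conclusion of Mazur's principle -/
def MPConcl (q : ℕ) {K : Type} [Field K] (ρbar : ResidualGaloisRep K) : Prop :=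
  (q : K) = 1 ∧ ∀ P : ValuationSubring (AlgebraicClosure ℚ), P.LiesOverPrime q →
    ∀ σ : Γℚ, P.IsFrobeniusAt σ q → ρbar.ρ σ = 1 ∨ ρbar.ρ σ = -1

/-- Mazur's principle at rigid level -/
def MPRigid (p : ℕ) : Prop :=
  ∀ (N q : ℕ) [NeZero N], q.Prime → q ≠ p → q ∣ N → ¬ q ^ 2 ∣ N →
    (∃ r, r.Prime ∧ r % 12 = 11 ∧ r ∣ N / q) →
  ∀ (K : Type) [Field K] [CharP K p] (ψ : ℤbar →+* K) (f : CuspForm (Gamma0 N) 2)
    (ρbar : ResidualGaloisRep K), MPData N q p ψ f ρbar → MPConcl q ρbar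

/-- the auxiliary prime -/
theorem exists_aux {K : Type} [Field K] (ρbar : ResidualGaloisRep K) (g : Γℚ)
    (hg : ∀ ζ : Qb, ζ ^ 12 = 1 → g ζ = ζ⁻¹) {B : ℕ} (hB : B ≠ 0) :
    ∃ r : ℕ, r.Prime ∧ ¬ r ∣ B ∧ r % 12 = 11 ∧ ∃ P : ValuationSubring Qb, P.LiesOverPrime r ∧
      ∃ φ : Γℚ, P.IsFrobeniusAt φ r ∧ ρbar.ρ φ = ρbar.ρ g := by
  classical
  obtain ⟨F₁, hF₁, h1⟩ := ρbar.factorsThroughFiniteLevel
  have : NeZero ((4 : ℕ) : Qb) := ⟨by norm_num⟩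
  have : NeZero ((3 : ℕ) : Qb) := ⟨by norm_num⟩
  obtain ⟨i, hi⟩ := HasEnoughRootsOfUnity.exists_primitiveRoot Qb 4
  obtain ⟨w, hw⟩ := HasEnoughRootsOfUnity.exists_primitiveRoot Qb 3
  let F₂ : IntermediateField ℚ Qb := IntermediateField.adjoin ℚ {i, w}
  have hF₂ : FiniteDimensional ℚ F₂ := by
    have : Finite ({i, w} : Set Qb) := Set.Finite.to_subtype (by simp)
    exact IntermediateField.finiteDimensional_adjoin
      (fun x _ ↦ (Algebra.IsAlgebraic.isAlgebraic (R := ℚ) x).isIntegral)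
  have hfin : FiniteDimensional ℚ (F₁ ⊔ F₂ : IntermediateField ℚ Qb) :=
    IntermediateField.finiteDimensional_sup F₁ F₂
  obtain ⟨r, hr, hrS, -, P, hP, φ, hφ, hφg⟩ :=
    Fermat.Agent.ChebFull.exists_frobenius_eq (F₁ ⊔ F₂) g (B * 6).primeFactors
  have hr6 : ¬ r ∣ B * 6 := fun h => hrS (Nat.mem_primeFactors.mpr ⟨hr, h, by positivity⟩)
  have hrB : ¬ r ∣ B := fun h => hr6 (h.mul_right 6)
  have hr2 : r ≠ 2 := by
    rintro rfl; exact hr6 ((show 2 ∣ 6 by norm_num).mul_left B)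
  have hr3 : r ≠ 3 := by
    rintro rfl; exact hr6 ((show 3 ∣ 6 by norm_num).mul_left B)
  have hiF : i ∈ (F₁ ⊔ F₂ : IntermediateField ℚ Qb) :=
    (le_sup_right : F₂ ≤ F₁ ⊔ F₂) (IntermediateField.subset_adjoin ℚ _ (by simp))
  have hwF : w ∈ (F₁ ⊔ F₂ : IntermediateField ℚ Qb) :=
    (le_sup_right : F₂ ≤ F₁ ⊔ F₂) (IntermediateField.subset_adjoin ℚ _ (by simp))
  have hi0 : i ≠ 0 := hi.ne_zero (by norm_num)
  have hw0 : w ≠ 0 := hw.ne_zero (by norm_num)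
  have e1 : φ i = i ^ r := RepTwo.frobenius_apply_root (p := 2) (m := 2) hr Nat.prime_two hr2 hP hφ
    (by rw [show 2 ^ 2 = 4 by norm_num]; exact hi.pow_eq_one)
  have e2 : φ w = w ^ r := RepTwo.frobenius_apply_root (p := 3) (m := 1) hr Nat.prime_three hr3 hP
    hφ (by rw [pow_one]; exact hw.pow_eq_one)
  have e3 : φ i = i⁻¹ := by
    rw [hφg i hiF, hg i (by rw [show 12 = 4 * 3 by norm_num, pow_mul, hi.pow_eq_one, one_pow])]
  have e4 : φ w = w⁻¹ := by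
    rw [hφg w hwF, hg w (by rw [show 12 = 3 * 4 by norm_num, pow_mul, hw.pow_eq_one, one_pow])]
  have d1 : 4 ∣ r + 1 := by
    apply hi.dvd_of_pow_eq_one
    rw [pow_succ, ← e1, e3, inv_mul_cancel₀ hi0]
  have d2 : 3 ∣ r + 1 := by
    apply hw.dvd_of_pow_eq_one
    rw [pow_succ, ← e2, e4, inv_mul_cancel₀ hw0]
  refine ⟨r, hr, hrB, by omega, P, hP, φ, hφ, ?_⟩
  have e : φ = g * (g⁻¹ * φ) := by group
  rw [e, map_mul, h1 (g⁻¹ * φ) fun x hx => by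
    change g⁻¹ (φ x) = x
    rw [hφg x ((le_sup_left : F₁ ≤ F₁ ⊔ F₂) hx)]
    exact inv_smul_smul g x, mul_one]

/-- **Mazur's principle, removal of the rigidity condition.** -/
theorem mp_of_good {p : ℕ} (hp : p.Prime) (hrigid : MPRigid p) {N q : ℕ} [NeZero N]
    (hq : q.Prime) (hqp : q ≠ p) (hqN : q ∣ N) (hqN2 : ¬ q ^ 2 ∣ N)
    {K : Type} [Field K] [CharP K p] {ψ : ℤbar →+* K} {f : CuspForm (Gamma0 N) 2}
    {ρbar : ResidualGaloisRep K} (D : MPData N q p ψ f ρbar)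
    (hgood : ∃ g : Γℚ, (∀ ζ : Qb, ζ ^ 12 = 1 → g ζ = ζ⁻¹) ∧
      (LinearMap.trace K ρbar.V (ρbar.ρ g)) ^ 2 ≠ (1 + LinearMap.det (ρbar.ρ g)) ^ 2) :
    MPConcl q ρbar := by
  classical
  obtain ⟨g₀, hg₀, hne⟩ := hgood
  have hN0 : N ≠ 0 := NeZero.ne N
  obtain ⟨r, hr, hrB, hr12, P₀, hP₀, φ, hφ, hφg⟩ :=
    exists_aux ρbar g₀ hg₀ (B := N * p) (mul_ne_zero hN0 hp.ne_zero)
  have hrN : ¬ r ∣ N := fun h => hrB (h.mul_right p)
  have hrp : r ≠ p := fun h => hrB (h ▸ dvd_mul_left _ _)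
  have hrq : r ≠ q := fun h => hrN (h ▸ hqN)
  -- the Frobenius at `r`
  have ha : IsIntegral ℤ (qCoeff f r) := Eigenform.isIntegral_qCoeff_prime D.hf hr
  set a : ℤbar := ⟨qCoeff f r, ha⟩ with hadef
  have htd := Cheb.trace_det_of_charpoly_eq ρbar.finrank_eq _
    (D.frob r hr hrN hrp P₀ hP₀ φ hφ a rfl)
  have hner : ψ a ^ 2 ≠ ((r : K) + 1) ^ 2 := by
    intro h
    apply hne
    rw [← hφg, htd.1, htd.2, h, add_comm]
  -- the form of level `N r`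
  have : NeZero (N * r) := ⟨mul_ne_zero hN0 hr.ne_zero⟩
  obtain ⟨f₁, hf₁, hff₁⟩ := Newform.raise (N := N * r) (dvd_mul_right N r) D.hf
  have hlvl : ∀ {ℓ : ℕ}, ¬ ℓ ∣ N * r → ¬ ℓ ∣ N := fun h h' => h (h'.mul_right r)
  have hdiv : N * r / q = N / q * r := by
    rw [mul_comm N r, Nat.mul_div_assoc r hqN, mul_comm]
  have hq2 : ¬ q ^ 2 ∣ N * r := by
    intro h
    apply hqN2
    have hc : Nat.Coprime (q ^ 2) r := ((Nat.coprime_primes hq hr).mpr hrq.symm).pow_left 2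
    exact hc.dvd_of_dvd_mul_right h
  refine hrigid (N * r) q hq hqp (hqN.mul_right r) hq2 ⟨r, hr, hr12, by
    rw [hdiv]; exact dvd_mul_left _ _⟩ K ψ f₁ ρbar ⟨hf₁, D.irr, ?_, D.unr, ?_⟩
  · intro ℓ hℓ hℓN hℓp P hP σ hσ b hb
    refine D.frob ℓ hℓ (hlvl hℓN) hℓp P hP σ hσ b ?_
    rw [hb, hff₁ ℓ hℓ (Or.inr hℓN)]
  · intro L _ _ ψ' g hg
    by_contra hcon
    push Not at hcon
    have hcharL : CharP L p := charP_of_injective_algebraMap (algebraMap K L).injective p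
    have hNq0 : N / q ≠ 0 := (Nat.div_pos (Nat.le_of_dvd (Nat.pos_of_ne_zero hN0) hqN) hq.pos).ne'
    have hM0 : NeZero (N * r / q) := ⟨by rw [hdiv]; exact mul_ne_zero hNq0 hr.ne_zero⟩
    have hMdvd : N * r / q ∣ N * r := Nat.div_dvd_of_dvd (hqN.mul_right r)
    obtain ⟨M', hM', g₀', hg₀', hgg⟩ := Newform.exists_newform hg
    have hM'0 : NeZero M' := ⟨by rintro rfl; exact hM0.out (Nat.eq_zero_of_zero_dvd hM')⟩
    -- congruence of the newform with `f`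
    have hcong : ∀ ℓ : ℕ, ℓ.Prime → ¬ ℓ ∣ N * r → ℓ ≠ p → ∀ a b : ℤbar,
        (a : ℂ) = qCoeff f ℓ → (b : ℂ) = qCoeff g₀' ℓ → ψ' b = algebraMap K L (ψ a) := by
      intro ℓ hℓ hℓN hℓp a b ha hb
      exact hcon ℓ hℓ hℓN hℓp a b (by rw [ha, hff₁ ℓ hℓ (Or.inr hℓN)])
        (by rw [hb, hgg ℓ hℓ (fun h => hℓN (h.trans hMdvd))])
    have hS : ∀ ℓ : ℕ, ℓ.Prime → ℓ ∉ (N * r * p).primeFactors → ¬ ℓ ∣ N * r ∧ ℓ ≠ p := by
      intro ℓ hℓ hℓS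
      have h1 : ¬ ℓ ∣ N * r * p := fun h => hℓS (Nat.mem_primeFactors.mpr
        ⟨hℓ, h, mul_ne_zero (mul_ne_zero hN0 hr.ne_zero) hp.ne_zero⟩)
      exact ⟨fun h => h1 (h.mul_right p), fun h => h1 (h ▸ dvd_mul_left _ _)⟩
    by_cases hrM : r ∣ M'
    · -- `r`-new: impossible
      have hr2 : ¬ r ^ 2 ∣ M' := by
        intro h
        have h1 := h.trans hM'
        rw [hdiv, pow_two] at h1
        have h2 : r ∣ N / q := Nat.dvd_of_mul_dvd_mul_right hr.pos h1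
        exact hrN (h2.trans (Nat.div_dvd_of_dvd hqN))
      obtain ⟨Ω, _, c, k, _, e, ρ, hρ1, hρ2⟩ := exists_new_residual hg₀' hp hr hrp hrM hr2 ψ'
      have key := trace_eq_of_frob ρbar ρ (c.comp (algebraMap K L)) e (N * r * p).primeFactors
        (fun ℓ hℓ hℓS P hP σ hσ => by
          obtain ⟨h1, h2⟩ := hS ℓ hℓ hℓS
          have hai : IsIntegral ℤ (qCoeff f ℓ) := Eigenform.isIntegral_qCoeff_prime D.hf hℓ
          have hbi : IsIntegral ℤ (qCoeff g₀' ℓ) :=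
            Eigenform.isIntegral_qCoeff_prime hg₀'.isNormalizedEigenform hℓ
          rw [(Cheb.trace_det_of_charpoly_eq ρbar.finrank_eq _
            (D.frob ℓ hℓ (hlvl h1) h2 P hP σ hσ ⟨_, hai⟩ rfl)).1,
            hρ1 ℓ hℓ (fun h => h1 (h.trans (hM'.trans hMdvd))) h2 P hP σ hσ ⟨_, hbi⟩ rfl,
            RingHom.comp_apply, hcong ℓ hℓ h1 h2 ⟨_, hai⟩ ⟨_, hbi⟩ rfl rfl]) φ
      have h1 := hρ2 P₀ hP₀ φ hφ
      rw [← key, htd.1, ← map_pow] at h1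
      apply hner
      apply (c.comp (algebraMap K L)).injective
      rw [h1]
      simp
    · -- `r`-old
      have hM'N : M' ∣ N / q := by
        have hc : Nat.Coprime M' r := ((Nat.Prime.coprime_iff_not_dvd hr).mpr hrM).symm
        rw [hdiv] at hM'
        exact hc.dvd_of_dvd_mul_right hM'
      have : NeZero (N / q) := ⟨hNq0⟩
      obtain ⟨g₁, hg₁, hgg₁⟩ := Newform.raise (N := N / q) hM'N hg₀'.isNormalizedEigenform
      obtain ⟨ℓ, hℓ, hℓN, hℓp, a', b, ha', hb, hab⟩ := D.hno L ψ' g₁ hg₁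
      have hb' : (b : ℂ) = qCoeff g₀' ℓ := by
        rw [hb, hgg₁ ℓ hℓ (Or.inr fun h => hℓN (h.trans (Nat.div_dvd_of_dvd hqN)))]
      by_cases hℓr : ℓ = r
      · subst hℓr
        obtain ⟨ρ', hρ', -⟩ := S29.result hg₀'.isNormalizedEigenform hp ψ'
        have hfr : ∀ ℓ' : ℕ, ℓ'.Prime → ¬ ℓ' ∣ M' → ℓ' ≠ p → ∀ P : ValuationSubring Qb,
            P.LiesOverPrime ℓ' → ∀ σ : Γℚ, P.IsFrobeniusAt σ ℓ' → ∀ b : ℤbar,
            (b : ℂ) = qCoeff g₀' ℓ' → LinearMap.trace L ρ'.V (ρ'.ρ σ) = ψ' b := by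
          intro ℓ' hℓ' hℓM hℓp' P hP σ hσ b hb
          obtain ⟨b', hb', hch⟩ := hρ' ℓ' hℓ' hℓM (by
            rw [Ne, CharP.cast_eq_zero_iff L p]
            exact fun h => hℓp' ((Nat.prime_dvd_prime_iff_eq hp hℓ').mp h).symm) P hP σ hσ
          rw [(Cheb.trace_det_of_charpoly_eq ρ'.finrank_eq _ hch).1,
            show b' = b from Subtype.ext (hb'.trans hb.symm)]
        have key := trace_eq_of_frob ρbar ρ' (algebraMap K L) (RingHom.id L)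
          (N * ℓ * p).primeFactors
          (fun ℓ' hℓ' hℓS P hP σ hσ => by
            obtain ⟨h1, h2⟩ := hS ℓ' hℓ' hℓS
            have hai : IsIntegral ℤ (qCoeff f ℓ') := Eigenform.isIntegral_qCoeff_prime D.hf hℓ'
            have hbi : IsIntegral ℤ (qCoeff g₀' ℓ') :=
              Eigenform.isIntegral_qCoeff_prime hg₀'.isNormalizedEigenform hℓ'
            rw [(Cheb.trace_det_of_charpoly_eq ρbar.finrank_eq _
              (D.frob ℓ' hℓ' (hlvl h1) h2 P hP σ hσ ⟨_, hai⟩ rfl)).1, RingHom.id_apply,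
              hfr ℓ' hℓ' (fun h => h1 (h.trans (hM'.trans hMdvd))) h2 P hP σ hσ ⟨_, hbi⟩ rfl,
              hcong ℓ' hℓ' h1 h2 ⟨_, hai⟩ ⟨_, hbi⟩ rfl rfl]) φ
        rw [htd.1, RingHom.id_apply, hfr ℓ hℓ hrM hrp P₀ hP₀ φ hφ b hb'] at key
        apply hab
        rw [← key, show a' = a from Subtype.ext ha']
      · refine hab (hcong ℓ hℓ ?_ hℓp a' b ha' hb')
        intro h
        rcases hℓ.dvd_mul.mp h with h | h
        · exact hℓN h
        · exact hℓr ((Nat.prime_dvd_prime_iff_eq hℓ hr).mp h)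

end Fermat.Agent.MazurQ
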