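import Fermat.Agent.MazurQ.MPAlg

/-!
# Mazur's principle: systems of eigenvalues, slopes and reductions
-/

set_option autoImplicit false
set_option linter.unusedSectionVars false
set_option linter.style.haveILetI false

noncomputable section

open AlgebraicCurve ModularCurve

namespace Fermat.Agent.MazurQ

open Fermat.Agent.FF Fermat.Agent.Red Fermat.Agent.QComp Fermat.Agent.QVal Fermat.Agent.JZ
  Fermat.Agent.ESh

local notation "Qb" => AlgebraicClosure ℚ
local notation "Γℚ" => (AlgebraicClosure ℚ ≃ₐ[ℚ] AlgebraicClosure ℚ)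

section EvJ

variable {B N : ℕ} [NeZero N]

theorem evJ_mul_X (P : GPoly B) (ℓ : {ℓ : Nat.Primes // ¬ (ℓ : ℕ) ∣ B}) (x : JZero N) :
    evJ B N (P * MvPolynomial.X ℓ) x = evJ B N P (heckeOperatorBar N ℓ x) := by
  rw [map_mul, evJ_X, Module.End.mul_apply]

theorem evJ_add_apply (P Q : GPoly B) (x : JZero N) :
    evJ B N (P + Q) x = evJ B N P x + evJ B N Q x := by
  rw [map_add, LinearMap.add_apply]

/-- equivariant maps commute with the action of polynomials -/
theorem evJ_comm {N' : ℕ} [NeZero N'] (f : JZero N →+ JZero N') {p : ℕ}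
    (hf : ∀ (ℓ : {ℓ : Nat.Primes // ¬ (ℓ : ℕ) ∣ B}) (x : JZero N), p • x = 0 →
      heckeOperatorBar N' ℓ (f x) = f (heckeOperatorBar N ℓ x)) (P : GPoly B) :
    ∀ x : JZero N, p • x = 0 → evJ B N' P (f x) = f (evJ B N P x) := by
  induction P using MvPolynomial.induction_on with
  | C a => intro x _; rw [evJ_C, evJ_C, map_zsmul]
  | add P Q hP hQ =>
    intro x hx
    rw [evJ_add_apply, evJ_add_apply, hP x hx, hQ x hx, map_add]
  | mul_X P ℓ hP =>
    intro x hx
    rw [evJ_mul_X, evJ_mul_X, hf ℓ x hx, hP]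
    rw [← map_nsmul, hx, map_zero]

theorem evJ_smul (g : Γℚ) (P : GPoly B) (x : JZero N) :
    evJ B N P (g • x) = g • evJ B N P x := by
  induction P using MvPolynomial.induction_on generalizing x with
  | C a =>
    rw [evJ_C, evJ_C]
    exact (map_zsmul (DistribSMul.toAddMonoidHom (JZero N) g) a x).symm
  | add P Q hP hQ => rw [evJ_add_apply, evJ_add_apply, hP x, hQ x, smul_add]
  | mul_X P ℓ hP => rw [evJ_mul_X, evJ_mul_X, heckeOperatorBar_smul, hP]

theorem evJ_aeval_X (F : Polynomial ℤ) (ℓ : {ℓ : Nat.Primes // ¬ (ℓ : ℕ) ∣ B}) :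
    evJ B N (Polynomial.aeval (MvPolynomial.X ℓ) F) =
      Polynomial.aeval (heckeOperatorBar N ℓ : Module.End ℤ (JZero N)) F := by
  rw [← evJ_X B N ℓ]
  exact (Polynomial.aeval_algHom_apply (evJ B N).toIntAlgHom (MvPolynomial.X ℓ) F).symm

theorem aeval_apply_of_eigen {J : Type*} [AddCommGroup J] {T : Module.End ℤ J} {a : ℤ} {x : J}
    (h : T x = a • x) (F : Polynomial ℤ) : Polynomial.aeval T F x = F.eval a • x := by
  induction F using Polynomial.induction_on' with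
  | add P Q hP hQ => rw [map_add, LinearMap.add_apply, hP, hQ, Polynomial.eval_add, add_smul]
  | monomial n b =>
    have h1 : ∀ n : ℕ, (T ^ n) x = a ^ n • x := by
      intro n
      induction n with
      | zero => simp
      | succ n ih =>
        rw [pow_succ, Module.End.mul_apply, h, map_zsmul, ih, smul_smul, pow_succ, mul_comm]
    rw [Polynomial.aeval_monomial, Polynomial.eval_monomial, Module.End.mul_apply, h1,
      mul_smul, eq_intCast, Module.End.intCast_apply]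

theorem evJ_aeval_eigen {ℓ : {ℓ : Nat.Primes // ¬ (ℓ : ℕ) ∣ B}} {a : ℤ} {x : JZero N}
    (h : heckeOperatorBar N ℓ x = a • x) (F : Polynomial ℤ) :
    evJ B N (Polynomial.aeval (MvPolynomial.X ℓ) F) x = F.eval a • x := by
  rw [evJ_aeval_X]
  exact aeval_apply_of_eigen h F

end EvJ

section System

variable {B N : ℕ} [NeZero N] {K : Type*} [Field K] {p : ℕ} [CharP K p] {θ : GPoly B →+* K}

theorem theta_aeval (F : Polynomial ℤ) (P : GPoly B) :
    θ (Polynomial.aeval P F) = Polynomial.aeval (θ P) F :=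
  (Polynomial.aeval_algHom_apply θ.toIntAlgHom P F).symm

theorem nsmul_eq_zero_of_mem_XJ {x : JZero N} (hx : x ∈ XJ N θ) : p • x = 0 := by
  have h := hx (MvPolynomial.C (p : ℤ)) (by
    rw [← MvPolynomial.algebraMap_eq, eq_intCast, map_intCast, Int.cast_natCast,
      CharP.cast_eq_zero])
  rwa [evJ_C, natCast_zsmul] at h

theorem smul_mem_XJ (g : Γℚ) {x : JZero N} (hx : x ∈ XJ N θ) : g • x ∈ XJ N θ := fun P hP => by
  rw [evJ_smul, hx P hP]
  exact map_zero (DistribSMul.toAddMonoidHom (JZero N) g)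

theorem hecke_of_theta {ℓ : {ℓ : Nat.Primes // ¬ (ℓ : ℕ) ∣ B}} {a : ℤ}
    (h : θ (MvPolynomial.X ℓ) = a) {x : JZero N} (hx : x ∈ XJ N θ) :
    heckeOperatorBar N ℓ x = a • x := by
  have h1 := hx (MvPolynomial.X ℓ - MvPolynomial.C a) (by
    rw [map_sub, h, ← MvPolynomial.algebraMap_eq, eq_intCast, map_intCast, sub_self])
  rw [map_sub, LinearMap.sub_apply, evJ_C, evJ_X, sub_eq_zero] at h1
  exact h1

theorem theta_of_hecke (hp : p.Prime) {ℓ : {ℓ : Nat.Primes // ¬ (ℓ : ℕ) ∣ B}} {a : ℤ}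
    (hint : IsIntegral ℤ (θ (MvPolynomial.X ℓ))) {x : JZero N} (hx : x ∈ XJ N θ) (hx0 : x ≠ 0)
    (h : heckeOperatorBar N ℓ x = a • x) : θ (MvPolynomial.X ℓ) = a := by
  refine eq_intCast_of_eval hp hint fun F hF => ?_
  have h1 := hx (Polynomial.aeval (MvPolynomial.X ℓ) F) (by rw [theta_aeval, hF])
  rw [evJ_aeval_eigen h] at h1
  by_contra hd
  have h2 : IsCoprime (p : ℤ) (F.eval a) :=
    ((Nat.prime_iff_prime_int.1 hp).coprime_iff_not_dvd.2 hd)
  obtain ⟨u, v, huv⟩ := h2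
  apply hx0
  rw [← one_zsmul x, ← huv, add_zsmul, mul_zsmul, mul_zsmul, h1, natCast_zsmul,
    nsmul_eq_zero_of_mem_XJ hx, zsmul_zero, zsmul_zero, add_zero]

end System

/-! ### slopes and reductions under the action of polynomials -/

section Geo

variable {k : Type*} [Field k] {A : ValuationSubring Qb} {π : A →+* k} {M q : ℕ} [NeZero M]
  [NeZero q] [hqf : Fact q.Prime]
  {hA : A.LiesOverPrime q} {hπ : ∀ a : A, π a = 0 ↔ ¬ IsUnit a}
  {hs : Function.Surjective π} {hM : ¬ q ∣ M} {n : ℕ} {c : ℤ} {B : ℕ}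

/-- the eigenvalues `ℓ + 1` -/
def lamE (B : ℕ) : GPoly B →+* ℤ :=
  MvPolynomial.eval₂Hom (RingHom.id ℤ) fun ℓ => (((ℓ : Nat.Primes) : ℕ) : ℤ) + 1

theorem lamE_aeval (F : Polynomial ℤ) (ℓ : {ℓ : Nat.Primes // ¬ (ℓ : ℕ) ∣ B}) :
    lamE B (Polynomial.aeval (MvPolynomial.X ℓ) F) =
      F.eval ((((ℓ : Nat.Primes) : ℕ) : ℤ) + 1) := by
  have h1 := (Polynomial.aeval_algHom_apply (lamE B).toIntAlgHom (MvPolynomial.X ℓ) F).symm
  have h2 : (lamE B).toIntAlgHom (MvPolynomial.X ℓ) = (((ℓ : Nat.Primes) : ℕ) : ℤ) + 1 :=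
    MvPolynomial.eval₂Hom_X' _ _ _
  rw [h2, Polynomial.coe_aeval_eq_eval] at h1
  exact h1

theorem HasSlope.evJ (hr : ∃ r : ℕ, r.Prime ∧ r ∣ M ∧ r % 12 = 11) (hB : M * q ∣ B) (hn : n ≠ 0)
    (P : GPoly B) : ∀ (x : JZero (M * q)) (c : ℤ), HasSlope hA hπ hs hM n x c →
    HasSlope hA hπ hs hM n (MazurQ.evJ B (M * q) P x) (lamE B P * c) := by
  induction P using MvPolynomial.induction_on with
  | C a =>
    intro x c h
    have h1 : lamE B (MvPolynomial.C a) = a := MvPolynomial.eval₂Hom_C _ _ _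
    rw [evJ_C, h1]
    exact h.zsmul hn a
  | add P Q hP hQ =>
    intro x c h
    rw [evJ_add_apply, map_add, add_mul]
    exact (hP x c h).add hn (hQ x c h)
  | mul_X P ℓ hP =>
    intro x c h
    haveI : NeZero ((ℓ : Nat.Primes) : ℕ) := ⟨ℓ.1.2.ne_zero⟩
    haveI : Fact ((ℓ : Nat.Primes) : ℕ).Prime := ⟨ℓ.1.2⟩
    have h1 := h.hecke hr (fun hd => ℓ.2 (hd.trans hB)) hn
    have h2 : lamE B (P * MvPolynomial.X ℓ) = lamE B P * ((((ℓ : Nat.Primes) : ℕ) : ℤ) + 1) := by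
      rw [map_mul]
      congr 1
      exact MvPolynomial.eval₂Hom_X' _ _ _
    rw [evJ_mul_X, h2, mul_assoc]
    exact hP _ _ h1

theorem RelZ.evJ (hB : M * q ∣ B) (P : GPoly B) : ∀ (x : JZero (M * q)) (z : JZero M),
    RelZ hA hπ hs hM n x z →
    RelZ hA hπ hs hM n (MazurQ.evJ B (M * q) P x) (MazurQ.evJ B M P z) := by
  induction P using MvPolynomial.induction_on with
  | C a =>
    intro x z h
    rw [evJ_C, evJ_C]
    exact h.zsmul a
  | add P Q hP hQ =>
    intro x z h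
    rw [evJ_add_apply, evJ_add_apply]
    exact (hP x z h).add (hQ x z h)
  | mul_X P ℓ hP =>
    intro x z h
    haveI : NeZero ((ℓ : Nat.Primes) : ℕ) := ⟨ℓ.1.2.ne_zero⟩
    haveI : Fact ((ℓ : Nat.Primes) : ℕ).Prime := ⟨ℓ.1.2⟩
    have h1 := h.hecke (ℓ := ((ℓ : Nat.Primes) : ℕ))
      (by intro h0; exact ℓ.2 (h0 ▸ (dvd_mul_left _ _).trans hB))
    rw [evJ_mul_X, evJ_mul_X]
    exact hP _ _ h1

end Geo

end Fermat.Agent.MazurQ
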