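import Fermat.Agent.MazurQ.MPAux
import Fermat.Agent.MazurQ.Exist

/-!
# Mazur's principle at all levels, from Mazur's principle at rigid level
-/

set_option autoImplicit false

noncomputable section

open IsLocalRing Polynomial ModularFormClass CongruenceSubgroup

namespace Fermat.Agent.MazurQ

local notation "ℤbar" => integralClosure ℤ ℂ
local notation "Γℚ" => (AlgebraicClosure ℚ ≃ₐ[ℚ] AlgebraicClosure ℚ)
local notation "Qb" => AlgebraicClosure ℚ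

variable {N q p : ℕ} [NeZero N] {K : Type} [Field K] [CharP K p] {ψ : ℤbar →+* K}
  {f : CuspForm (Gamma0 N) 2} {ρbar : ResidualGaloisRep K}

theorem MPData.det_cyc (hp : p.Prime) (D : MPData N q p ψ f ρbar) (σ : Γℚ) (c : ℕ)
    (hc : ∀ μ : Qb, μ ^ p = 1 → σ μ = μ ^ c) : LinearMap.det (ρbar.ρ σ) = (c : K) := by
  refine Exist.det_cyc_of_frob hp ρbar (N * p).primeFactors (fun ℓ hℓ hℓS P hP σ hσ => ?_) σ c hc
  have h1 : ¬ ℓ ∣ N * p := fun h => hℓS (Nat.mem_primeFactors.mpr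
    ⟨hℓ, h, mul_ne_zero (NeZero.ne N) hp.ne_zero⟩)
  have ha : IsIntegral ℤ (qCoeff f ℓ) := Eigenform.isIntegral_qCoeff_prime D.hf hℓ
  exact (Cheb.trace_det_of_charpoly_eq ρbar.finrank_eq _
    (D.frob ℓ hℓ (fun h => h1 (h.mul_right p)) (fun h => h1 (h ▸ dvd_mul_left _ _)) P hP σ hσ
      ⟨_, ha⟩ rfl)).2

/-- **Mazur's principle for `p ≥ 5`**, all levels. -/
theorem mp_ge_five (hp : p.Prime) (h5 : 5 ≤ p) (hrigid : MPRigid p)
    (hq : q.Prime) (hqp : q ≠ p) (hqN : q ∣ N) (hqN2 : ¬ q ^ 2 ∣ N)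
    (D : MPData N q p ψ f ρbar) : MPConcl q ρbar :=
  mp_of_good hp hrigid hq hqp hqN hqN2 D
    (Exist.exists_good_five hp h5 ρbar D.irr (D.det_cyc hp))

end Fermat.Agent.MazurQ

namespace Fermat.Agent.MazurQ

local notation "ℤbar" => integralClosure ℤ ℂ
local notation "Γℚ" => (AlgebraicClosure ℚ ≃ₐ[ℚ] AlgebraicClosure ℚ)
local notation "Qb" => AlgebraicClosure ℚ

/-- **Mazur's principle for `p = 3`**, all levels, when `ρbar` is absolutely irreducible on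
subgroups of index two and unipotent on inertia at `2`. -/
theorem mp_three (hrigid : MPRigid 3) {N q : ℕ} [NeZero N] {K : Type} [Field K] [CharP K 3]
    {ψ : ℤbar →+* K} {f : CuspForm (Gamma0 N) 2} {ρbar : ResidualGaloisRep K}
    (hq : q.Prime) (hq3 : q ≠ 3) (hqN : q ∣ N) (hqN2 : ¬ q ^ 2 ∣ N)
    (D : MPData N q 3 ψ f ρbar)
    (hind : ∀ (K' : Type) [Field K'] [Algebra K K'] (G : Subgroup Γℚ), G.index = 2 →
      ∀ V : Submodule K' (ρbar.baseChange K').V,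
        (∀ σ ∈ G, ∀ x ∈ V, (ρbar.baseChange K').ρ σ x ∈ V) → V = ⊥ ∨ V = ⊤)
    {P : ValuationSubring Qb} (hP : P.LiesOverPrime 2)
    (hunip : ∀ σ ∈ P.inertiaSubgroupIn ℚ, LinearMap.trace K _ (ρbar.ρ σ) = 2) :
    MPConcl q ρbar :=
  mp_of_good Nat.prime_three hrigid hq hq3 hqN hqN2 D
    (Exist.exists_good_three ρbar (D.det_cyc Nat.prime_three) hind hP hunip)

end Fermat.Agent.MazurQ

namespace Fermat.Agent.LL

/-- **Block MP** for `p ≥ 5` -/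
def MPStmtGe5 : Prop :=
  ∀ (N q p : ℕ) [NeZero N], q.Prime → p.Prime → 5 ≤ p → q ≠ p → q ∣ N → ¬ q ^ 2 ∣ N →
  ∀ (K : Type) [Field K] [CharP K p] (ψ : integralClosure ℤ ℂ →+* K)
    (f : CuspForm (CongruenceSubgroup.Gamma0 N) 2), f.IsNormalizedEigenform →
  ∀ ρbar : ResidualGaloisRep K, ρbar.IsAbsolutelyIrreducible →
    (∀ ℓ : ℕ, ℓ.Prime → ¬ ℓ ∣ N → ℓ ≠ p → ∀ P : ValuationSubring (AlgebraicClosure ℚ),
      P.LiesOverPrime ℓ → ∀ σ : AlgebraicClosure ℚ ≃ₐ[ℚ] AlgebraicClosure ℚ,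
      P.IsFrobeniusAt σ ℓ → ∀ a : integralClosure ℤ ℂ,
      (a : ℂ) = ModularFormClass.qCoeff f ℓ →
      LinearMap.charpoly (ρbar.ρ σ) = X ^ 2 - C (ψ a) * X + C (ℓ : K)) →
    ρbar.IsUnramifiedAt q →
    (∀ (L : Type) [Field L] [Algebra K L] (ψ' : integralClosure ℤ ℂ →+* L)
      (g : CuspForm (CongruenceSubgroup.Gamma0 (N / q)) 2), g.IsNormalizedEigenform →
      ∃ ℓ : ℕ, ℓ.Prime ∧ ¬ ℓ ∣ N ∧ ℓ ≠ p ∧ ∃ a b : integralClosure ℤ ℂ,
        (a : ℂ) = ModularFormClass.qCoeff f ℓ ∧ (b : ℂ) = ModularFormClass.qCoeff g ℓ ∧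
        ψ' b ≠ algebraMap K L (ψ a)) →
  (q : K) = 1 ∧ ∀ P : ValuationSubring (AlgebraicClosure ℚ), P.LiesOverPrime q →
    ∀ σ : AlgebraicClosure ℚ ≃ₐ[ℚ] AlgebraicClosure ℚ, P.IsFrobeniusAt σ q →
      ρbar.ρ σ = 1 ∨ ρbar.ρ σ = -1

theorem mpStmtGe5_of_rigid (h : ∀ p : ℕ, p.Prime → p ≠ 2 → MazurQ.MPRigid p) : MPStmtGe5 := by
  intro N q p _ hq hp h5 hqp hqN hqN2 K _ _ ψ f hf ρbar habs hfrob hunr hno
  exact MazurQ.mp_ge_five hp h5 (h p hp (by omega)) hq hqp hqN hqN2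
    ⟨hf, habs, hfrob, hunr, fun L _ _ ψ' g hg => hno L ψ' g hg⟩

end Fermat.Agent.LL
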