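import Mathlib

/-!
# Group theory for the removal of the rigidity condition in Mazur's principle
-/

set_option autoImplicit false

namespace Fermat.Agent.MazurQ

open Matrix

local notation "M₂" => Matrix (Fin 2) (Fin 2)

section Basic

variable {Ω : Type*} [Field Ω]

theorem mat_sq (M : M₂ Ω) : M * M = M.trace • M - M.det • (1 : M₂ Ω) := by
  rw [Matrix.trace_fin_two, Matrix.det_fin_two]
  ext i j
  fin_cases i <;> fin_cases j <;> simp [Matrix.mul_apply, Fin.sum_univ_two] <;> ring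

/-- `n M n = tr(M n) n` for `n` nilpotent -/
theorem nil_mul_nil {n : M₂ Ω} (ht : n.trace = 0) (hd : n.det = 0) (M : M₂ Ω) :
    n * M * n = (M * n).trace • n := by
  rw [Matrix.trace_fin_two] at ht
  rw [Matrix.det_fin_two] at hd
  have h11 : n 1 1 = - n 0 0 := by linear_combination ht
  rw [h11] at hd
  rw [Matrix.trace_fin_two]
  ext i j
  fin_cases i <;> fin_cases j <;> simp [Matrix.mul_apply, Fin.sum_univ_two, h11]
  · linear_combination (-M 1 1 : Ω) * hd
  · linear_combination (M 0 1 : Ω) * hd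
  · linear_combination (M 1 0 : Ω) * hd
  · linear_combination (-M 0 0 : Ω) * hd

/-- a matrix orthogonal to everything for the trace form is zero -/
theorem eq_zero_of_trace {n : M₂ Ω} (h : ∀ M : M₂ Ω, (M * n).trace = 0) : n = 0 := by
  ext i j
  have := h (Matrix.single j i 1)
  rw [Matrix.trace_fin_two] at this
  fin_cases i <;> fin_cases j <;>
    simpa [Matrix.mul_apply, Fin.sum_univ_two, Matrix.single_apply] using this

theorem eq_zero_of_span {n : M₂ Ω} {S : Set (M₂ Ω)} (hS : Submodule.span Ω S = ⊤)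
    (h : ∀ M ∈ S, (M * n).trace = 0) : n = 0 := by
  apply eq_zero_of_trace
  intro M
  have hM : M ∈ Submodule.span Ω S := by rw [hS]; trivial
  induction hM using Submodule.span_induction with
  | mem x hx => exact h x hx
  | zero => simp
  | add x y _ _ hx hy => rw [add_mul, Matrix.trace_add, hx, hy, add_zero]
  | smul a x _ hx => rw [smul_mul_assoc, Matrix.trace_smul, hx, smul_zero]

/-- a matrix commuting with everything is scalar -/
theorem scalar_of_comm {n : M₂ Ω} {S : Set (M₂ Ω)} (hS : Submodule.span Ω S = ⊤)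
    (h : ∀ M ∈ S, M * n = n * M) : n = n 0 0 • (1 : M₂ Ω) := by
  have key : ∀ M : M₂ Ω, M * n = n * M := by
    intro M
    have hM : M ∈ Submodule.span Ω S := by rw [hS]; trivial
    induction hM using Submodule.span_induction with
    | mem x hx => exact h x hx
    | zero => simp
    | add x y _ _ hx hy => rw [add_mul, mul_add, hx, hy]
    | smul a x _ hx => rw [smul_mul_assoc, mul_smul_comm, hx]
  have h1 := key !![0, 1; 0, 0]
  have h2 := key !![0, 0; 1, 0]
  have e1 := congrFun (congrFun h1 0) 0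
  have e2 := congrFun (congrFun h1 0) 1
  have e3 := congrFun (congrFun h2 0) 0
  simp [Matrix.mul_apply, Fin.sum_univ_two] at e1 e2 e3
  ext i j
  fin_cases i <;> fin_cases j <;> simp [e1, e2, ← e3]

/-- `± unipotent` matrices: the `p`-th power is `± 1` -/
theorem pow_eq_of_trace {p : ℕ} [hp : Fact p.Prime] [CharP Ω p] (hp2 : p ≠ 2) {M : M₂ Ω} {e : Ω}
    (he : e ^ 2 = 1) (ht : M.trace = 2 * e) (hd : M.det = 1) : M ^ p = e • (1 : M₂ Ω) := by
  have h1 : (M - e • (1 : M₂ Ω)) * (M - e • (1 : M₂ Ω)) = 0 := by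
    rw [sub_mul, mul_sub, mul_sub, mat_sq M, ht, hd, smul_mul_assoc, mul_smul_comm, mul_one,
      one_mul, smul_mul_assoc, mul_smul_comm, one_mul, smul_smul, ← pow_two, he, one_smul]
    module
  have hcomm : Commute M (e • (1 : M₂ Ω)) := (Commute.one_right M).smul_right e
  have hchar : CharP (M₂ Ω) p := by
    exact Matrix.charP p
  have h2 : (M - e • (1 : M₂ Ω)) ^ p = M ^ p - (e • (1 : M₂ Ω)) ^ p :=
    sub_pow_char_of_commute _ hcomm
  have h3 : (M - e • (1 : M₂ Ω)) ^ p = 0 := by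
    have h4 : p = 2 + (p - 2) := by have := hp.out.two_le; omega
    rw [h4, pow_add, pow_two, h1, zero_mul]
  rw [h3, smul_pow, one_pow] at h2
  have h5 : e ^ p = e := by
    obtain ⟨k, hk⟩ := hp.out.odd_of_ne_two hp2
    rw [hk, pow_succ, pow_mul, he, one_pow, one_mul]
  rw [h5] at h2
  exact (sub_eq_zero.mp h2.symm)

end Basic

section GeFive

variable {Γ : Type*} [Group Γ] {Ω : Type*} [Field Ω] {p : ℕ} [hp : Fact p.Prime] [CharP Ω p]
  (ρ : Γ →* M₂ Ω)

theorem isUnit_det (g : Γ) : (ρ g).det ≠ 0 := by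
  intro h
  have h1 : (ρ g * ρ g⁻¹).det = 1 := by rw [← map_mul, mul_inv_cancel, map_one, Matrix.det_one]
  rw [Matrix.det_mul, h, zero_mul] at h1
  exact zero_ne_one h1

theorem trace_conj (g h : Γ) : (ρ (g * h * g⁻¹)).trace = (ρ h).trace := by
  rw [map_mul, map_mul, Matrix.trace_mul_comm, ← mul_assoc, ← map_mul, inv_mul_cancel, map_one,
    one_mul]

theorem inv_eq (g : Γ) : ρ g⁻¹ = ((ρ g).det)⁻¹ • ((ρ g).trace • (1 : M₂ Ω) - ρ g) := by
  have hd := isUnit_det ρ g
  have h1 : ρ g * (((ρ g).det)⁻¹ • ((ρ g).trace • (1 : M₂ Ω) - ρ g)) = 1 := by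
    rw [mul_smul_comm, mul_sub, mul_smul_comm, mul_one, mat_sq, sub_sub_cancel, smul_smul,
      inv_mul_cancel₀ hd, one_smul]
  calc ρ g⁻¹ = ρ g⁻¹ * (ρ g * (((ρ g).det)⁻¹ • ((ρ g).trace • (1 : M₂ Ω) - ρ g))) := by
        rw [h1, mul_one]
    _ = _ := by rw [← mul_assoc, ← map_mul, inv_mul_cancel, map_one, one_mul]

/-- **Existence of the auxiliary element**, `p ≥ 5`. -/
theorem exists_good_ge_five (hp5 : 5 ≤ p) (hspan : Submodule.span Ω (Set.range ρ) = ⊤)
    (χ : Γ →* (ZMod p)ˣ) (ε : Γ →* (ZMod 12)ˣ)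
    (hdet : ∀ g, (ρ g).det = ZMod.castHom (dvd_refl p) Ω (χ g : ZMod p))
    (hsurj : ∀ (a : (ZMod p)ˣ) (b : (ZMod 12)ˣ), ∃ g, χ g = a ∧ ε g = b) :
    ∃ g, ε g = -1 ∧ (ρ g).trace ^ 2 ≠ (1 + (ρ g).det) ^ 2 := by
  have hp2 : p ≠ 2 := by omega
  have h20 : (2 : Ω) ≠ 0 := by
    intro h
    have : ((2 : ℕ) : Ω) = 0 := by exact_mod_cast h
    rw [CharP.cast_eq_zero_iff Ω p] at this
    exact hp2 ((Nat.prime_dvd_prime_iff_eq hp.out Nat.prime_two).mp this)
  by_contra hcon
  push Not at hcon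
  have hdet1 : ∀ g, χ g = 1 → (ρ g).det = 1 := by
    intro g hg
    rw [hdet, hg, Units.val_one, map_one]
  -- step 1
  obtain ⟨g0, hg0χ, hg0ε⟩ := hsurj 1 (-1)
  have hsq : ∀ x : Ω, x ^ 2 = 4 → x = 2 ∨ x = -2 := by
    intro x hx
    have : (x - 2) * (x + 2) = 0 := by linear_combination hx
    rcases mul_eq_zero.mp this with h | h
    · exact Or.inl (sub_eq_zero.mp h)
    · exact Or.inr (eq_neg_of_add_eq_zero_left h)
  obtain ⟨e, he2, he⟩ : ∃ e : Ω, e ^ 2 = 1 ∧ ρ (g0 ^ p) = e • (1 : M₂ Ω) := by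
    have h1 := hcon g0 hg0ε
    rw [hdet1 g0 hg0χ] at h1
    rcases hsq _ (by rw [h1]; norm_num) with h | h
    · exact ⟨1, by norm_num, by
        rw [map_pow]
        exact pow_eq_of_trace hp2 (one_pow 2) (by rw [h]; ring) (hdet1 g0 hg0χ)⟩
    · exact ⟨-1, by norm_num, by
        rw [map_pow]
        exact pow_eq_of_trace hp2 (by norm_num) (by rw [h]; ring) (hdet1 g0 hg0χ)⟩
  obtain ⟨kp, hkp⟩ := hp.out.odd_of_ne_two hp2
  have hneg : ((-1 : (ZMod 12)ˣ)) ^ p = -1 := by
    rw [hkp, pow_succ, pow_mul, neg_one_sq, one_pow, one_mul]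
  -- step 2
  have hG1 : ∀ h, χ h = 1 → (ε h = 1 ∨ ε h = -1) → (ρ h).trace ^ 2 = 4 := by
    intro h hχ hε
    rcases hε with hε | hε
    · have h1 := hcon (g0 ^ p * h) (by rw [map_mul, map_pow, hg0ε, hneg, hε, mul_one])
      rw [hdet1 (g0 ^ p * h) (by rw [map_mul, map_pow, hg0χ, one_pow, hχ, one_mul]), map_mul, he,
        smul_mul_assoc, one_mul, Matrix.trace_smul, smul_eq_mul, mul_pow, he2, one_mul] at h1
      rw [h1]; norm_num
    · have h1 := hcon h hε
      rw [hdet1 h hχ] at h1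
      rw [h1]; norm_num
  -- step 3: products of unipotents
  have hmulε : ∀ {a b : (ZMod 12)ˣ}, (a = 1 ∨ a = -1) → (b = 1 ∨ b = -1) →
      (a * b = 1 ∨ a * b = -1) := by
    rintro a b (rfl | rfl) (rfl | rfl) <;> simp
  have hmul : ∀ u v, χ u = 1 → (ε u = 1 ∨ ε u = -1) → (ρ u).trace = 2 →
      χ v = 1 → (ε v = 1 ∨ ε v = -1) → (ρ v).trace = 2 → (ρ (u * v)).trace = 2 := by
    intro u v huχ huε hu hvχ hvε hv
    have h1 := hG1 (u * v) (by rw [map_mul, huχ, hvχ, one_mul])
      (by rw [map_mul]; exact hmulε huε hvε)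
    have h2 := hG1 (u * (u * v)) (by rw [map_mul, map_mul, huχ, hvχ, one_mul, one_mul])
      (by rw [map_mul, map_mul]; exact hmulε huε (hmulε huε hvε))
    have h3 : (ρ (u * (u * v))).trace = 2 * (ρ (u * v)).trace - 2 := by
      rw [map_mul, map_mul, ← mul_assoc, mat_sq, hu, hdet1 u huχ, sub_mul, Matrix.trace_sub,
        smul_mul_assoc, Matrix.trace_smul, one_smul, one_mul, hv, smul_eq_mul]
    rw [h3] at h2
    set x := (ρ (u * v)).trace with hx
    rcases hsq x h1 with h | h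
    · exact h
    · exfalso
      rw [h] at h2
      have h4 : (32 : Ω) = 0 := by linear_combination h2
      have h5 : (2 : Ω) ^ 5 = 0 := by rw [← h4]; norm_num
      exact h20 (pow_eq_zero_iff (by norm_num) |>.mp h5)
  -- step 4: unipotents are trivial
  have hU : ∀ u, χ u = 1 → (ε u = 1 ∨ ε u = -1) → (ρ u).trace = 2 → ρ u = 1 := by
    intro u huχ huε hu
    obtain ⟨n, hn⟩ : ∃ n, n = ρ u - 1 := ⟨_, rfl⟩
    have hud := hdet1 u huχ
    have hnt : n.trace = 0 := by
      rw [hn, Matrix.trace_sub, hu, Matrix.trace_one, Fintype.card_fin]; norm_num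
    have hnd : n.det = 0 := by
      have e1 := hud
      have e2 := hu
      rw [Matrix.det_fin_two] at e1 ⊢
      rw [Matrix.trace_fin_two] at e2
      simp only [hn, Matrix.sub_apply, Matrix.one_apply_eq, ne_eq, zero_ne_one, not_false_eq_true,
        Matrix.one_apply_ne, one_ne_zero, sub_zero]
      linear_combination e1 - e2
    have hu1 : ρ u = 1 + n := by rw [hn]; abel
    have h0 : n = 0 := by
      apply eq_zero_of_span hspan
      rintro _ ⟨g, rfl⟩
      have h1 := hmul u (g * u * g⁻¹) huχ huε hu (by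
        rw [map_mul, map_mul, map_inv, huχ, mul_one, mul_inv_cancel]) (by
        rw [map_mul, map_mul, map_inv, mul_comm (ε g), mul_inv_cancel_right]; exact huε) (by
        rw [trace_conj, hu])
      have h2 : (n * (ρ g * n * ρ g⁻¹)).trace = 0 := by
        have e1 : ρ (u * (g * u * g⁻¹)) = 1 + n + ρ g * n * ρ g⁻¹ + n * (ρ g * n * ρ g⁻¹) := by
          have e2 : ρ g * ρ g⁻¹ = 1 := by rw [← map_mul, mul_inv_cancel, map_one]
          rw [map_mul, map_mul, map_mul, hu1, mul_add (ρ g), mul_one, add_mul (ρ g), e2]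
          noncomm_ring
        rw [e1, Matrix.trace_add, Matrix.trace_add, Matrix.trace_add, hnt, Matrix.trace_one,
          Fintype.card_fin] at h1
        have e3 : (ρ g * n * ρ g⁻¹).trace = 0 := by
          rw [Matrix.trace_mul_comm, ← mul_assoc, ← map_mul, inv_mul_cancel, map_one, one_mul, hnt]
        rw [e3] at h1
        push_cast at h1
        linear_combination h1
      have h3 : n * (ρ g * n * ρ g⁻¹) = (ρ g * n).trace • (n * ρ g⁻¹) := by
        rw [← mul_assoc, ← mul_assoc, nil_mul_nil hnt hnd, smul_mul_assoc]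
      rw [h3, Matrix.trace_smul, inv_eq, mul_smul_comm, Matrix.trace_smul, mul_sub, mul_smul_comm,
        mul_one, Matrix.trace_sub, Matrix.trace_smul, hnt, smul_zero, zero_sub,
        Matrix.trace_mul_comm n (ρ g)] at h2
      have hd := isUnit_det ρ g
      simp only [smul_eq_mul, mul_eq_zero, inv_eq_zero, hd, neg_eq_zero, false_or, or_self] at h2
      exact h2
    rw [hu1, h0, add_zero]
  -- step 5: `G₁` acts by `± 1`
  have hpm : ∀ h, χ h = 1 → (ε h = 1 ∨ ε h = -1) → ρ h = 1 ∨ ρ h = -1 := by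
    intro h hχ hε
    rcases hsq _ (hG1 h hχ hε) with ht | ht
    · exact Or.inl (hU h hχ hε ht)
    · right
      have h1 : ρ (h * h) = 1 := by
        refine hU _ (by rw [map_mul, hχ, one_mul]) (by rw [map_mul]; exact hmulε hε hε) ?_
        rw [map_mul, mat_sq, ht, hdet1 h hχ, Matrix.trace_sub, Matrix.trace_smul, ht, one_smul,
          Matrix.trace_one, Fintype.card_fin]
        push_cast
        norm_num
      rw [map_mul, mat_sq, ht, hdet1 h hχ, one_smul] at h1
      have h2 : (2 : Ω) • (ρ h + 1) = 0 := by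
        have h3 : (-2 : Ω) • ρ h = (2 : Ω) • (1 : M₂ Ω) := by
          rw [sub_eq_iff_eq_add] at h1
          rw [h1, two_smul]
        rw [smul_add, ← h3, ← add_smul, add_neg_cancel, zero_smul]
      rcases smul_eq_zero.mp h2 with h3 | h3
      · exact absurd h3 h20
      · exact eq_neg_of_add_eq_zero_left h3
  -- step 6
  obtain ⟨s, hs⟩ : ∃ s : (ZMod p)ˣ, s ^ 2 ≠ 1 := by
    have h2 : ((2 : ℕ) : ZMod p) ≠ 0 := by
      intro h
      rw [ZMod.natCast_eq_zero_iff] at h
      exact hp2 ((Nat.prime_dvd_prime_iff_eq hp.out Nat.prime_two).mp h)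
    refine ⟨Units.mk0 ((2 : ℕ) : ZMod p) h2, fun h => ?_⟩
    have h3 := congrArg Units.val h
    rw [Units.val_pow_eq_pow_val, Units.val_mk0, Units.val_one] at h3
    have h4 : ((3 : ℕ) : ZMod p) = 0 := by
      push_cast at h3 ⊢
      linear_combination h3
    rw [ZMod.natCast_eq_zero_iff] at h4
    have := Nat.le_of_dvd (by norm_num) h4
    omega
  obtain ⟨h, hχ, hε⟩ := hsurj s 1
  obtain ⟨g, hgχ, hgε⟩ := hsurj (s ^ 2) (-1)
  have hcent : ∀ M ∈ Set.range ρ, M * (ρ h * ρ h) = (ρ h * ρ h) * M := by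
    rintro _ ⟨b, rfl⟩
    have h1 : ρ (h * b * h⁻¹ * b⁻¹) = 1 ∨ ρ (h * b * h⁻¹ * b⁻¹) = -1 := by
      apply hpm
      · rw [map_mul, map_mul, map_mul, map_inv, map_inv, mul_comm (χ h), mul_inv_cancel_right,
          mul_inv_cancel]
      · left
        rw [map_mul, map_mul, map_mul, map_inv, map_inv, mul_comm (ε h), mul_inv_cancel_right,
          mul_inv_cancel]
    have h2 : ρ h * ρ b = ρ (h * b * h⁻¹ * b⁻¹) * (ρ b * ρ h) := by
      rw [← map_mul, ← map_mul, ← map_mul]
      congr 1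
      group
    rcases h1 with h1 | h1
    · rw [h1, one_mul] at h2
      rw [← mul_assoc, ← h2, mul_assoc, ← h2, mul_assoc]
    · rw [h1, neg_one_mul] at h2
      have h3 : ρ b * ρ h = -(ρ h * ρ b) := by rw [h2, neg_neg]
      rw [← mul_assoc, h3, neg_mul, mul_assoc, h3, mul_neg, neg_neg, mul_assoc]
  have hsc := scalar_of_comm hspan hcent
  obtain ⟨c, hc⟩ : ∃ c : Ω, ρ g = c • (1 : M₂ Ω) := by
    have h1 : ρ (g * (h * h)⁻¹) = 1 ∨ ρ (g * (h * h)⁻¹) = -1 := by
      apply hpm
      · rw [map_mul, map_inv, map_mul, hgχ, hχ, pow_two, mul_inv_cancel]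
      · right
        rw [map_mul, map_inv, map_mul, hgε, hε, mul_one, inv_one, mul_one]
    have h2 : ρ g = ρ (g * (h * h)⁻¹) * (ρ h * ρ h) := by
      rw [← map_mul, ← map_mul, inv_mul_cancel_right]
    rcases h1 with h1 | h1
    · exact ⟨_, by rw [h2, h1, one_mul]; exact hsc⟩
    · refine ⟨-((ρ h * ρ h) 0 0), ?_⟩
      rw [h2, h1, neg_one_mul, neg_smul, ← hsc]
  have hfin := hcon g hgε
  have hd : (ρ g).det = c ^ 2 := by
    rw [hc, Matrix.det_fin_two]; simp [pow_two]
  have ht : (ρ g).trace = 2 * c := by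
    rw [hc, Matrix.trace_fin_two]; simp; ring
  rw [hd, ht] at hfin
  have hc2 : c ^ 2 = 1 := by
    have h1 : (c ^ 2 - 1) ^ 2 = 0 := by linear_combination -hfin
    have h2 := pow_eq_zero_iff (two_ne_zero) |>.mp h1
    exact sub_eq_zero.mp h2
  rw [hc2, hdet, hgχ] at hd
  apply hs
  apply Units.ext
  apply (ZMod.castHom (dvd_refl p) Ω).injective
  rw [hd, Units.val_one, map_one]

end GeFive

end Fermat.Agent.MazurQ
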