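import Fermat.Agent.MazurQ.MPCore

/-!
# Mazur's principle at rigid level: the main argument
-/

set_option autoImplicit false
set_option linter.unusedSectionVars false
set_option linter.style.haveILetI false

noncomputable section

open AlgebraicCurve ModularCurve

namespace Fermat.Agent.MazurQ

open Fermat.Agent.FF Fermat.Agent.Red Fermat.Agent.QComp Fermat.Agent.QVal Fermat.Agent.JZ
  Fermat.Agent.ESh

local notation "Qb" => AlgebraicClosure ℚ
local notation "Γℚ" => (AlgebraicClosure ℚ ≃ₐ[ℚ] AlgebraicClosure ℚ)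

/-- Chebotarev and Eichler-Shimura for a system of eigenvalues and a representation -/
def ChebES (B N p : ℕ) [NeZero N] {K : Type*} [Field K] (θ : GPoly B →+* K)
    (m : Γℚ →* Matrix (Fin 2) (Fin 2) K) : Prop :=
  ∀ g : Γℚ, ∃ ℓ : {ℓ : Nat.Primes // ¬ (ℓ : ℕ) ∣ B}, θ (MvPolynomial.X ℓ) = (m g).trace ∧
    (((ℓ : Nat.Primes) : ℕ) : K) = (m g).det ∧
    (∀ ζ : Qb, ζ ^ p = 1 → g ζ = ζ ^ ((ℓ : Nat.Primes) : ℕ)) ∧
    ∀ x : JZero N, p • x = 0 →
      g • g • x - heckeOperatorBar N ℓ (g • x) + ((ℓ : Nat.Primes) : ℕ) • x = 0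

theorem nsmul_smul_zero {N : ℕ} {n : ℕ} (g : Γℚ) {x : JZero N} (hx : n • x = 0) :
    n • g • x = 0 := by
  have h1 : n • g • x = g • (n • x) :=
    (map_nsmul (DistribSMul.toAddMonoidHom (JZero N) g) n x).symm
  rw [h1, hx]
  exact map_zero (DistribSMul.toAddMonoidHom (JZero N) g)

/-- the Hecke operator is `φ + ℓ φ⁻¹` on the `p`-torsion -/
theorem hecke_eq_frob {N p B : ℕ} [NeZero N] (hB : N * p ∣ B)
    (ℓ : {ℓ : Nat.Primes // ¬ (ℓ : ℕ) ∣ B}) {A : ValuationSubring Qb}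
    (hA : A.LiesOverPrime ((ℓ : Nat.Primes) : ℕ)) {φ : Γℚ}
    (hφ : A.IsFrobeniusAt φ ((ℓ : Nat.Primes) : ℕ)) {x : JZero N} (hx : p • x = 0) :
    heckeOperatorBar N ℓ x = φ • x + ((ℓ : Nat.Primes) : ℕ) • φ⁻¹ • x := by
  have h1 := (Fermat.Agent.TwoAdic.MazH.jzeroES N p).frob ((ℓ : Nat.Primes) : ℕ) ℓ.1.2
    (fun h => ℓ.2 (h.trans hB)) A hA φ hφ (φ⁻¹ • x)
    ⟨1, by rw [pow_one]; exact nsmul_smul_zero _ hx⟩
  rw [smul_inv_smul] at h1
  rw [← sub_eq_zero, ← neg_eq_zero, ← h1]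
  have e : (⟨((ℓ : Nat.Primes) : ℕ), ℓ.1.2⟩ : Nat.Primes) = ℓ.1 := rfl
  rw [e]
  abel

/-- Galois equivariant maps commute with the Hecke operators on the `p`-torsion -/
theorem hecke_map {N N' p B : ℕ} [NeZero N] [NeZero N'] (hB : N * p ∣ B) (hB' : N' * p ∣ B)
    (f : JZero N →+ JZero N') (hf : ∀ (σ : Γℚ) x, f (σ • x) = σ • f x)
    (ℓ : {ℓ : Nat.Primes // ¬ (ℓ : ℕ) ∣ B}) (x : JZero N) (hx : p • x = 0) :
    heckeOperatorBar N' ℓ (f x) = f (heckeOperatorBar N ℓ x) := by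
  haveI := Fact.mk ℓ.1.2
  obtain ⟨A, hA⟩ := Frob.exists_liesOverPrime Qb ℓ.1.2
  obtain ⟨φ, hφ⟩ := Frob.exists_isFrobeniusAt A ℓ.1.2 hA
  have hfx : p • f x = 0 := by rw [← map_nsmul, hx, map_zero]
  rw [hecke_eq_frob hB' ℓ hA hφ hfx, hecke_eq_frob hB ℓ hA hφ hx, map_add, map_nsmul, hf, hf]

section Main

variable {M q p B : ℕ} [NeZero M] [NeZero q] [hqf : Fact q.Prime] {K : Type*} [Field K]
  [CharP K p] {θ : GPoly B →+* K} {m : Γℚ →* Matrix (Fin 2) (Fin 2) K}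

/-- `w` preserves the classes killed by the kernel of `θ` -/
theorem w_mem_XJ (hM : ¬ q ∣ M) (hB : M * q * p ∣ B) {x : JZero (M * q)}
    (hx : x ∈ XJ (M * q) θ) : wSemi hM • x ∈ XJ (M * q) θ := fun P hP => by
  have h1 := evJ_comm (B := B) (DistribSMul.toAddMonoidHom (JZero (M * q)) (wSemi hM))
    (hecke_map hB hB (DistribSMul.toAddMonoidHom (JZero (M * q)) (wSemi hM))
      fun σ y => wSemi_galois_smul hM σ y) P x (nsmul_eq_zero_of_mem_XJ hx)
  have h2 : evJ B (M * q) P (wSemi hM • x) = wSemi hM • evJ B (M * q) P x := h1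
  rw [h2, hx P hP]
  exact map_zero (DistribSMul.toAddMonoidHom (JZero (M * q)) (wSemi hM))

theorem trace_of_fixed {N : ℕ} [NeZero N] (hp : p.Prime) (hcheb : ChebES B N p θ m)
    (hint : ∀ ℓ, IsIntegral ℤ (θ (MvPolynomial.X ℓ))) {x : JZero N} (hx : x ∈ XJ N θ)
    (hx0 : x ≠ 0) {g : Γℚ} (hg : g • x = x) : (m g).trace = 1 + (m g).det := by
  obtain ⟨ℓ, h1, h2, -, h4⟩ := hcheb g
  have h5 := h4 x (nsmul_eq_zero_of_mem_XJ hx)
  rw [hg, hg] at h5
  have h6 : heckeOperatorBar N ℓ x = ((1 + ((ℓ : Nat.Primes) : ℕ) : ℤ)) • x := by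
    rw [add_zsmul, one_zsmul, natCast_zsmul, ← sub_eq_zero, ← neg_eq_zero, ← h5]
    abel
  have h7 := theta_of_hecke hp (hint ℓ) hx hx0 h6
  rw [← h1, ← h2, h7]
  push_cast
  rfl

theorem exists_fixed_XJ {N : ℕ} [NeZero N] (hp : p.Prime) (hcheb : ChebES B N p θ m)
    (hX : ∃ x ∈ XJ N θ, x ≠ 0) :
    ∃ x ∈ XJ N θ, x ≠ 0 ∧ ∀ h : Γℚ, m h = 1 → h • x = x := by
  haveI : NeZero p := ⟨hp.ne_zero⟩
  haveI : Finite (XJ N θ) := by
    haveI := Top.finite_pTor (N := N) (m := p)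
    exact Finite.of_injective (fun x : XJ N θ => (⟨x.1, nsmul_eq_zero_of_mem_XJ x.2⟩ :
      RepTwo.pTor (JZero N) p)) fun x y h => Subtype.ext (congrArg
        (fun t : RepTwo.pTor (JZero N) p => (t : JZero N)) h)
  obtain ⟨x, hx, hx0, h⟩ := exists_fixed hp (XJ N θ) m.ker hX
    (fun x hx => nsmul_eq_zero_of_mem_XJ hx) (fun h _ x hx => smul_mem_XJ h hx) (by
      intro h hh x hx
      rw [MonoidHom.mem_ker] at hh
      obtain ⟨ℓ, h1, h2, -, h4⟩ := hcheb h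
      have h5 := h4 x (nsmul_eq_zero_of_mem_XJ hx)
      rw [hh] at h1 h2
      rw [Matrix.det_one] at h2
      have h6 : θ (MvPolynomial.X ℓ) = ((2 : ℤ) : K) := by rw [h1]; simp
      rw [hecke_of_theta h6 (smul_mem_XJ h hx)] at h5
      have h7 : ((ℓ : Nat.Primes) : ℕ) • x = x := by
        have h8 : (p : ℤ) ∣ (((ℓ : Nat.Primes) : ℕ) : ℤ) - 1 := by
          rw [← CharP.intCast_eq_zero_iff K p]
          push_cast
          rw [h2, sub_self]
        obtain ⟨d, hd⟩ := h8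
        have h9 : (((ℓ : Nat.Primes) : ℕ) : ℤ) = d * p + 1 := by linear_combination hd
        rw [← natCast_zsmul, h9, add_zsmul, mul_zsmul, natCast_zsmul,
          nsmul_eq_zero_of_mem_XJ hx, zsmul_zero, zero_add, one_zsmul]
      rw [h7] at h5
      have h8 : (2 : ℤ) • h • x = 2 • (h • x) := by rw [← natCast_zsmul]; rfl
      rw [h8] at h5
      exact h5)
  exact ⟨x, hx, hx0, fun g hg => h g (MonoidHom.mem_ker.2 hg)⟩

/-- slopes vanish -/
theorem hasSlope_zero_of_system {k : Type*} [Field k] {A : ValuationSubring Qb} {π : A →+* k}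
    {hA : A.LiesOverPrime q} {hπ : ∀ a : A, π a = 0 ↔ ¬ IsUnit a}
    {hs : Function.Surjective π} {hM : ¬ q ∣ M}
    (hr : ∃ r : ℕ, r.Prime ∧ r ∣ M ∧ r % 12 = 11) (hp : p.Prime)
    (hB : M * q * p ∣ B) (hspan : Submodule.span K (Set.range m) = ⊤)
    (hcheb : ChebES B (M * q) p θ m) (hint : ∀ ℓ, IsIntegral ℤ (θ (MvPolynomial.X ℓ)))
    {x : JZero (M * q)} (hx : x ∈ XJ (M * q) θ)
    (hI : ∀ t ∈ A.inertiaSubgroupIn ℚ, t • x = x) : HasSlope hA hπ hs hM (p ^ 1) x 0 := by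
  have hn : p ^ 1 ≠ 0 := pow_ne_zero _ hp.ne_zero
  have hx1 : p ^ 1 • x = 0 := by rw [pow_one]; exact nsmul_eq_zero_of_mem_XJ hx
  obtain ⟨c, hc⟩ := exists_hasSlope (hA := hA) (hπ := hπ) (hs := hs) (hM := hM) hr hn hx1 hI
  by_cases hQ : ∃ Q : Place k (modularFunctionFieldFullC k M), IsSS q Q
  · obtain ⟨Q, hQ⟩ := hQ
    by_cases hpc : (p : ℤ) ∣ c
    · exact hc.congr (by rw [sub_zero, pow_one]; exact hpc)
    · exfalso
      refine false_of_trace m hspan fun g => ?_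
      obtain ⟨ℓ, h1, h2, -, -⟩ := hcheb g
      rw [← h1, ← h2]
      have h3 := eq_intCast_of_eval (a := (((ℓ : Nat.Primes) : ℕ) : ℤ) + 1) hp (hint ℓ)
        fun F hF => ?_
      · rw [h3]
        push_cast
        ring
      · have h4 := hc.evJ hr ((dvd_mul_right _ _).trans hB) hn
          (Polynomial.aeval (MvPolynomial.X ℓ) F)
        rw [lamE_aeval, hx _ (by rw [theta_aeval, hF])] at h4
        have h5 := h4.unique hQ (HasSlope.zero hn)
        rw [sub_zero, pow_one] at h5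
        exact ((Nat.prime_iff_prime_int.1 hp).dvd_or_dvd h5).resolve_right hpc
  · push Not at hQ
    exact HasSlope.of_empty hx1 hQ

/-- the reductions vanish -/
theorem relZ_zero_of_system {k : Type*} [Field k] {A : ValuationSubring Qb} {π : A →+* k}
    {hA : A.LiesOverPrime q} {hπ : ∀ a : A, π a = 0 ↔ ¬ IsUnit a}
    {hs : Function.Surjective π} {hM : ¬ q ∣ M}
    (hp : p.Prime) (hpq : p ≠ q) (hB : M * q * p ∣ B) (hZ : ∀ z ∈ XJ M θ, z = 0)
    {x : JZero (M * q)} (hx : x ∈ XJ (M * q) θ)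
    (h0 : HasSlope hA hπ hs hM (p ^ 1) x 0) : RelZ hA hπ hs hM (p ^ 1) x 0 := by
  obtain ⟨z, hz⟩ := h0.exists_relZ hp hpq
  have h1 : z ∈ XJ M θ := fun P hP => by
    have h2 := RelZ.evJ ((dvd_mul_right _ _).trans hB) P x z hz
    rw [hx P hP] at h2
    exact h2.unique (not_dvd_pow_of_ne hp hpq 1) RelZ.zero
  rwa [hZ z h1] at hz

theorem toricAt_of_system {A : ValuationSubring Qb} {hA : A.LiesOverPrime q} {hM : ¬ q ∣ M}
    (hr : ∃ r : ℕ, r.Prime ∧ r ∣ M ∧ r % 12 = 11) (hp : p.Prime) (hpq : p ≠ q)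
    (hB : M * q * p ∣ B) (hspan : Submodule.span K (Set.range m) = ⊤)
    (hcheb : ChebES B (M * q) p θ m) (hint : ∀ ℓ, IsIntegral ℤ (θ (MvPolynomial.X ℓ)))
    (hZ : ∀ z ∈ XJ M θ, z = 0) (hur : ∀ t ∈ A.inertiaSubgroupIn ℚ, m t = 1)
    {x : JZero (M * q)} (hx : x ∈ XJ (M * q) θ) (hfix : ∀ h : Γℚ, m h = 1 → h • x = x) :
    ToricAt hA hM p x := by
  have hn : p ^ 1 ≠ 0 := pow_ne_zero _ hp.ne_zero
  have h1 : HasSlope hA (residue_eq_zero_iff' A) IsLocalRing.residue_surjective hM (p ^ 1) x 0 :=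
    hasSlope_zero_of_system hr hp hB hspan hcheb hint hx fun t ht => hfix t (hur t ht)
  have h2 := relZ_zero_of_system hp hpq hB hZ hx h1
  have hwx := w_mem_XJ hM hB hx
  have h3 : HasSlope hA (residue_eq_zero_iff' A) IsLocalRing.residue_surjective hM (p ^ 1)
      (wSemi hM • x) 0 :=
    hasSlope_zero_of_system hr hp hB hspan hcheb hint hwx fun t ht => by
      rw [← wSemi_galois_smul, hfix t (hur t ht)]
  have h4 := relZ_zero_of_system hp hpq hB hZ hwx h3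
  have h5 := RelZ.isToric hn h2 h4
  rw [pow_one] at h5
  exact h5

end Main

section Final

variable {M q p B : ℕ} [NeZero M] [NeZero q] [hqf : Fact q.Prime] {K : Type*} [Field K]
  [CharP K p] {θ : GPoly B →+* K} {m : Γℚ →* Matrix (Fin 2) (Fin 2) K}

/-- classes fixed by the kernel of `m` -/
def WJ (N : ℕ) [NeZero N] (θ : GPoly B →+* K) (m : Γℚ →* Matrix (Fin 2) (Fin 2) K)
    (x : JZero N) : Prop :=
  x ∈ XJ N θ ∧ ∀ h : Γℚ, m h = 1 → h • x = x

theorem WJ.smul {N : ℕ} [NeZero N] {x : JZero N} (hx : WJ N θ m x) (g : Γℚ) :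
    WJ N θ m (g • x) := by
  refine ⟨smul_mem_XJ g hx.1, fun h hh => ?_⟩
  have h1 : m (g⁻¹ * h * g) = 1 := by
    rw [map_mul, map_mul, hh, mul_one, ← map_mul, inv_mul_cancel, map_one]
  have h2 := hx.2 _ h1
  rw [mul_assoc, mul_smul, mul_smul, inv_smul_eq_iff] at h2
  exact h2

theorem dvd_of_zsmul_eq_zero {J : Type*} [AddCommGroup J] {x : J} (hp : p.Prime)
    (hx : p • x = 0) (hx0 : x ≠ 0) {a : ℤ} (h : a • x = 0) : (p : ℤ) ∣ a := by
  by_contra hd
  obtain ⟨u, v, huv⟩ := (Nat.prime_iff_prime_int.1 hp).coprime_iff_not_dvd.2 hd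
  apply hx0
  rw [← one_zsmul x, ← huv, add_zsmul, mul_zsmul, mul_zsmul, h, natCast_zsmul, hx, zsmul_zero,
    zsmul_zero, add_zero]

theorem det_mul_inv (m : Γℚ →* Matrix (Fin 2) (Fin 2) K) (g : Γℚ) :
    (m g).det * (m g⁻¹).det = 1 := by
  rw [← Matrix.det_mul, ← map_mul, mul_inv_cancel, map_one, Matrix.det_one]

theorem main_frob {A : ValuationSubring Qb} (hA : A.LiesOverPrime q) (hM : ¬ q ∣ M)
    (hr : ∃ r : ℕ, r.Prime ∧ r ∣ M ∧ r % 12 = 11) (hp : p.Prime) (hpq : p ≠ q)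
    (hB : M * q * p ∣ B) (hspan : Submodule.span K (Set.range m) = ⊤)
    (hcheb : ChebES B (M * q) p θ m) (hint : ∀ ℓ, IsIntegral ℤ (θ (MvPolynomial.X ℓ)))
    (hX : ∃ x ∈ XJ (M * q) θ, x ≠ 0)
    (hZ : ∀ z ∈ XJ M θ, z = 0) (hur : ∀ t ∈ A.inertiaSubgroupIn ℚ, m t = 1)
    {φ : Γℚ} (hφ : A.IsFrobeniusAt φ q) : (q : K) = 1 ∧ (m φ = 1 ∨ m φ = -1) := by
  have hqp : ¬ q ∣ p := by
    have := not_dvd_pow_of_ne hp hpq 1
    rwa [pow_one] at this
  have htor : ∀ x, WJ (M * q) θ m x → ToricAt hA hM p x := fun x hx =>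
    toricAt_of_system hr hp hpq hB hspan hcheb hint hZ hur hx.1 hx.2
  -- Frobenius is central on `W`
  have hcen : ∀ x, WJ (M * q) θ m x → ∀ g : Γℚ, g • φ • x = φ • g • x := by
    intro x hx g
    have h1 := (htor x hx).frob hqp hφ
    have h2 := (htor _ (hx.smul g)).frob hqp hφ
    rw [← sub_eq_zero]
    have h3 : g • φ • x + q • wSemi hM • g • x = 0 := by
      have h4 : g • (φ • x + q • wSemi hM • x) = 0 := by
        rw [h1]
        exact map_zero (DistribSMul.toAddMonoidHom (JZero (M * q)) g)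
      rw [smul_add] at h4
      have h5 : g • (q • wSemi hM • x) = q • (g • wSemi hM • x) :=
        map_nsmul (DistribSMul.toAddMonoidHom (JZero (M * q)) g) q _
      rw [h5, ← wSemi_galois_smul] at h4
      exact h4
    have h6 : g • φ • x - φ • g • x = (g • φ • x + q • wSemi hM • g • x) -
      (φ • g • x + q • wSemi hM • g • x) := by abel
    rw [h6, h3, h2, sub_zero]
  -- the square of Frobenius
  have hsq : ∀ x, WJ (M * q) θ m x → φ • φ • x = (q * q) • x := by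
    intro x hx
    have h1 := (htor x hx).frob hqp hφ
    have h2 := (htor x hx).frob_w hqp hφ
    have h4 : φ • (φ • x + q • wSemi hM • x) = 0 := by
      rw [h1]
      exact map_zero (DistribSMul.toAddMonoidHom (JZero (M * q)) φ)
    rw [smul_add] at h4
    have h5 : φ • (q • wSemi hM • x) = q • (φ • wSemi hM • x) :=
      map_nsmul (DistribSMul.toAddMonoidHom (JZero (M * q)) φ) q _
    rw [h5] at h4
    have h6 : q • (φ • wSemi hM • x + q • x) = 0 := by rw [h2, nsmul_zero]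
    rw [nsmul_add] at h6
    rw [mul_nsmul, ← sub_eq_zero]
    have e : φ • φ • x - q • q • x = (φ • φ • x + q • φ • wSemi hM • x) -
      (q • φ • wSemi hM • x + q • q • x) := by abel
    rw [e, h4, h6, sub_zero]
  -- the normal subgroup of elements acting trivially on `W` with determinant one
  obtain ⟨x0, hx0, hx0', hx0''⟩ := exists_fixed_XJ hp hcheb hX
  have hW0 : WJ (M * q) θ m x0 := ⟨hx0, hx0''⟩
  let N' : Subgroup Γℚ :=
    { carrier := {h | (∀ x, WJ (M * q) θ m x → h • x = x) ∧ (m h).det = 1}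
      one_mem' := ⟨fun x _ => one_smul _ x, by rw [map_one, Matrix.det_one]⟩
      mul_mem' := fun {a b} ha hb => ⟨fun x hx => by rw [mul_smul, hb.1 x hx, ha.1 x hx], by
        rw [map_mul, Matrix.det_mul, ha.2, hb.2, one_mul]⟩
      inv_mem' := fun {a} ha => ⟨fun x hx => by rw [inv_smul_eq_iff, ha.1 x hx], by
        have h1 := det_mul_inv m a
        rwa [ha.2, one_mul] at h1⟩ }
  haveI : N'.Normal := ⟨fun h hh g => ⟨fun x hx => by
      have h1 := hh.1 _ (hx.smul g⁻¹)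
      rw [mul_smul, mul_smul, h1, smul_inv_smul], by
      rw [map_mul, map_mul, Matrix.det_mul, Matrix.det_mul, hh.2, mul_one]
      exact det_mul_inv m g⟩⟩
  have hN' : ∀ h ∈ N', m h = 1 := fun h hh => eq_one_of_unip m hspan N' (fun n hn => ⟨by
    rw [trace_of_fixed hp hcheb hint hx0 hx0' (hn.1 x0 hW0), hn.2]; norm_num, hn.2⟩) hh
  have hcomm : ∀ g, m g * m φ = m φ * m g := by
    intro g
    have h1 : g * φ * g⁻¹ * φ⁻¹ ∈ N' := by
      refine ⟨fun x hx => ?_, ?_⟩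
      · have h2 := hcen _ ((hx.smul φ⁻¹).smul g⁻¹) g
        rw [mul_smul, mul_smul, mul_smul, h2, smul_inv_smul, smul_inv_smul]
      · rw [map_mul, map_mul, map_mul, Matrix.det_mul, Matrix.det_mul, Matrix.det_mul]
        have h2 := det_mul_inv m g
        have h3 := det_mul_inv m φ
        linear_combination h2 * ((m φ).det * (m φ⁻¹).det) + h3
    have h2 := hN' _ h1
    have h3 : g * φ = (g * φ * g⁻¹ * φ⁻¹) * (φ * g) := by group
    rw [← map_mul, ← map_mul, h3, map_mul, h2, one_mul]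
  obtain ⟨c, hc⟩ := exists_scalar m hspan hcomm
  -- the eigenvalue at `φ`
  obtain ⟨ℓ, h1, h2, h3, h4⟩ := hcheb φ
  have htr : θ (MvPolynomial.X ℓ) = 2 * c := by
    rw [h1, hc, Matrix.trace_smul, Matrix.trace_one]
    simp [mul_comm]
  have hdet : (((ℓ : Nat.Primes) : ℕ) : K) = c ^ 2 := by
    rw [h2, hc, Matrix.det_smul, Matrix.det_one]
    simp
  have hℓq : (((ℓ : Nat.Primes) : ℕ) : K) = (q : K) := by
    haveI : NeZero p := ⟨hp.ne_zero⟩
    obtain ⟨ζ, hζ⟩ := HasEnoughRootsOfUnity.exists_primitiveRoot Qb p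
    have h5 := h3 ζ hζ.pow_eq_one
    rw [RepTwo.frobenius_apply_root (m := 1) hqf.out hp (Ne.symm hpq) hA hφ
      (by rw [pow_one]; exact hζ.pow_eq_one)] at h5
    have h6 : q ≡ ((ℓ : Nat.Primes) : ℕ) [MOD p] := by
      have h7 : ζ ^ ((q : ℤ) - (((ℓ : Nat.Primes) : ℕ) : ℤ)) = 1 := by
        rw [zpow_sub₀ (hζ.ne_zero (NeZero.ne p)), zpow_natCast, zpow_natCast, h5,
          div_self (pow_ne_zero _ (hζ.ne_zero (NeZero.ne p)))]
      have h8 := (hζ.zpow_eq_one_iff_dvd _).1 h7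
      exact ((Nat.modEq_iff_dvd).2 (by rw [← neg_sub]; exact (dvd_neg).2 h8))
    exact ((CharP.natCast_eq_natCast K p).2 h6).symm
  have hc2 : c ^ 2 = (q : K) := by rw [← hdet, hℓq]
  have hTW : ∀ y, WJ (M * q) θ m y → WJ (M * q) θ m (heckeOperatorBar (M * q) ℓ y) := by
    intro y hy
    refine ⟨?_, fun h hh => ?_⟩
    · have h5 := evJ_mem_XJ hy.1 (MvPolynomial.X ℓ)
      rwa [evJ_X] at h5
    · rw [← heckeOperatorBar_smul, hy.2 h hh]
  have hTφ : ∀ y, WJ (M * q) θ m y →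
      heckeOperatorBar (M * q) ℓ (φ • y) = ((q : ℤ) * q + q) • y := by
    intro y hy
    have h5 := h4 y (nsmul_eq_zero_of_mem_XJ hy.1)
    have h6 : ((ℓ : Nat.Primes) : ℕ) • y = q • y := by
      have h7 : (p : ℤ) ∣ (((ℓ : Nat.Primes) : ℕ) : ℤ) - q := by
        rw [← CharP.intCast_eq_zero_iff K p]
        push_cast
        rw [hℓq, sub_self]
      obtain ⟨d, hd⟩ := h7
      have h9 : (((ℓ : Nat.Primes) : ℕ) : ℤ) = d * p + q := by linear_combination hd
      rw [← natCast_zsmul, h9, add_zsmul, mul_zsmul, natCast_zsmul,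
        nsmul_eq_zero_of_mem_XJ hy.1, zsmul_zero, zero_add, natCast_zsmul]
    rw [h6, hsq y hy] at h5
    have h7 : ((q : ℤ) * q + q) • y = (q * q) • y + q • y := by
      rw [add_zsmul, ← Nat.cast_mul, natCast_zsmul, natCast_zsmul]
    rw [h7, ← sub_eq_zero, ← neg_eq_zero, ← h5]
    abel
  have hTT : ∀ y, WJ (M * q) θ m y → heckeOperatorBar (M * q) ℓ (heckeOperatorBar (M * q) ℓ y) =
      (4 * (q : ℤ)) • y := by
    intro y hy
    have h5 : θ (MvPolynomial.X ℓ * MvPolynomial.X ℓ - MvPolynomial.C (4 * (q : ℤ))) = 0 := by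
      rw [map_sub, map_mul, htr, ← MvPolynomial.algebraMap_eq, eq_intCast, map_intCast]
      push_cast
      linear_combination 4 * hc2
    have h6 := hy.1 _ h5
    rw [map_sub, LinearMap.sub_apply, evJ_C, evJ_mul_X, evJ_X, sub_eq_zero] at h6
    exact h6
  have hpz : (p : ℤ) ∣ (q : ℤ) * q * ((q : ℤ) - 1) ^ 2 := by
    have h5 : heckeOperatorBar (M * q) ℓ (φ • heckeOperatorBar (M * q) ℓ (φ • x0)) =
        (((q : ℤ) * q + q) * ((q : ℤ) * q + q)) • x0 := by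
      rw [hTφ _ (hTW _ (hW0.smul φ)), hTφ _ hW0, mul_zsmul]
    rw [← heckeOperatorBar_smul, hsq _ hW0, map_nsmul, map_nsmul, hTT _ hW0, ← natCast_zsmul,
      ← mul_zsmul] at h5
    have h6 : ((q : ℤ) * q * ((q : ℤ) - 1) ^ 2) • x0 = 0 := by
      have h7 : (q : ℤ) * q * ((q : ℤ) - 1) ^ 2 = (((q : ℤ) * q + q) * ((q : ℤ) * q + q)) -
        (((q * q : ℕ) : ℤ) * (4 * (q : ℤ))) := by push_cast; ring
      rw [h7, sub_zsmul, h5, add_neg_cancel]
    exact dvd_of_zsmul_eq_zero hp (nsmul_eq_zero_of_mem_XJ hx0) hx0' h6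
  have hq1 : (q : K) = 1 := by
    have h5 : (p : ℤ) ∣ (q : ℤ) - 1 := by
      have hpp := Nat.prime_iff_prime_int.1 hp
      rcases hpp.dvd_or_dvd hpz with h6 | h6
      · exfalso
        have h7 : (p : ℤ) ∣ q := by
          rcases hpp.dvd_or_dvd h6 with h7 | h7 <;> exact h7
        exact hpq ((Nat.prime_dvd_prime_iff_eq hp hqf.out).1 (Int.natCast_dvd_natCast.1 h7))
      · exact hpp.dvd_of_dvd_pow h6
    rw [← CharP.intCast_eq_zero_iff K p] at h5
    push_cast at h5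
    exact sub_eq_zero.1 h5
  refine ⟨hq1, ?_⟩
  rw [hq1] at hc2
  rw [sq] at hc2
  rcases mul_self_eq_one_iff.1 hc2 with h | h
  · left; rw [hc, h, one_smul]
  · right; rw [hc, h, neg_smul, one_smul]

end Final

end Fermat.Agent.MazurQ
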