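import Fermat.Agent.MazurQ.SysForm
import Fermat.Agent.TwoAdic.NewRep
import Fermat.Agent.LL.PtExists
import Fermat.Agent.S29
import Fermat.Agent.S35

/-!
# Frobenius at a prime exactly dividing the level, modulo `p`
-/

set_option autoImplicit false

noncomputable section

open IsLocalRing Polynomial ModularFormClass CongruenceSubgroup

namespace Fermat.Agent.MazurQ

local notation "ℤbar" => integralClosure ℤ ℂ
local notation "Γℚ" => (AlgebraicClosure ℚ ≃ₐ[ℚ] AlgebraicClosure ℚ)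

/-- comparison of traces by Chebotarev's theorem -/
theorem trace_eq_of_frob {K₁ K₂ : Type} {Ω : Type*} [Field K₁] [Field K₂] [Field Ω]
    (ρ₁ : ResidualGaloisRep K₁) (ρ₂ : ResidualGaloisRep K₂) (e₁ : K₁ →+* Ω) (e₂ : K₂ →+* Ω)
    (S : Finset ℕ)
    (h : ∀ ℓ : ℕ, ℓ.Prime → ℓ ∉ S → ∀ P : ValuationSubring (AlgebraicClosure ℚ),
      P.LiesOverPrime ℓ → ∀ σ : Γℚ, P.IsFrobeniusAt σ ℓ →
        e₁ (LinearMap.trace K₁ ρ₁.V (ρ₁.ρ σ)) = e₂ (LinearMap.trace K₂ ρ₂.V (ρ₂.ρ σ)))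
    (σ : Γℚ) : e₁ (LinearMap.trace K₁ ρ₁.V (ρ₁.ρ σ)) = e₂ (LinearMap.trace K₂ ρ₂.V (ρ₂.ρ σ)) := by
  obtain ⟨F₁, hF₁, h1⟩ := ρ₁.factorsThroughFiniteLevel
  obtain ⟨F₂, hF₂, h2⟩ := ρ₂.factorsThroughFiniteLevel
  have hfin : FiniteDimensional ℚ (F₁ ⊔ F₂ : IntermediateField ℚ (AlgebraicClosure ℚ)) :=
    IntermediateField.finiteDimensional_sup F₁ F₂
  obtain ⟨l, hl, hlS, -, P, hP, φ, hφ, hφσ⟩ :=
    Fermat.Agent.ChebFull.exists_frobenius_eq (F₁ ⊔ F₂) σ S
  have hinv : ∀ x ∈ (F₁ ⊔ F₂ : IntermediateField ℚ (AlgebraicClosure ℚ)), (σ⁻¹ * φ) x = x := by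
    intro x hx
    change σ⁻¹ (φ x) = x
    rw [hφσ x hx]
    exact inv_smul_smul σ x
  have e : φ = σ * (σ⁻¹ * φ) := by group
  have e1 : ρ₁.ρ φ = ρ₁.ρ σ := by
    rw [e, map_mul, h1 (σ⁻¹ * φ) fun x hx => hinv x ((le_sup_left : F₁ ≤ F₁ ⊔ F₂) hx), mul_one]
  have e2 : ρ₂.ρ φ = ρ₂.ρ σ := by
    rw [e, map_mul, h2 (σ⁻¹ * φ) fun x hx => hinv x ((le_sup_right : F₂ ≤ F₁ ⊔ F₂) hx), mul_one]
  rw [← e1, ← e2]
  exact h l hl hlS P hP φ hφ

/-- **Frobenius at `r ∥ M`** in the residual representation of a newform. -/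
theorem exists_new_residual {M r p : ℕ} [NeZero M] {g : CuspForm (Gamma0 M) 2}
    (hg : g.IsNewform) (hp : p.Prime) (hr : r.Prime) (hrp : r ≠ p) (hrM : r ∣ M)
    (hr2 : ¬ r ^ 2 ∣ M) {L : Type} [Field L] [CharP L p] (ψ : ℤbar →+* L) :
    ∃ (Ω : Type) (_ : Field Ω) (c : L →+* Ω) (k : Type) (_ : Field k) (e : k →+* Ω)
      (ρ : ResidualGaloisRep k),
      (∀ ℓ : ℕ, ℓ.Prime → ¬ ℓ ∣ M → ℓ ≠ p → ∀ P : ValuationSubring (AlgebraicClosure ℚ),
        P.LiesOverPrime ℓ → ∀ σ : Γℚ, P.IsFrobeniusAt σ ℓ → ∀ b : ℤbar, (b : ℂ) = qCoeff g ℓ →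
          e (LinearMap.trace k ρ.V (ρ.ρ σ)) = c (ψ b)) ∧
      ∀ P : ValuationSubring (AlgebraicClosure ℚ), P.LiesOverPrime r → ∀ σ : Γℚ,
        P.IsFrobeniusAt σ r → e (LinearMap.trace k ρ.V (ρ.ρ σ)) ^ 2 = ((r : Ω) + 1) ^ 2 := by
  classical
  have : Fact p.Prime := ⟨hp⟩
  have hM0 : M ≠ 0 := NeZero.ne M
  let 𝔪 : Ideal ℤbar := RingHom.ker ψ
  have h𝔪 : 𝔪.IsMaximal := RepTwo.isMaximal_ker hp ψ
  have hp𝔪 : (p : ℤbar) ∈ 𝔪 := by
    rw [RingHom.mem_ker, map_natCast, CharP.cast_eq_zero]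
  obtain ⟨F, hF⟩ := TwoAdic.exists_coeff_gen hg.isNormalizedEigenform
  obtain ⟨O, _, _, _, _, _, _, hpO, j, ι, hj, hjF, hι⟩ := LL.oj p hp 𝔪 h𝔪 hp𝔪 F
  have hspan : ∀ a ∈ Submodule.span ℤ (F : Set ℤbar), (a : ℂ) ∈ j.range := by
    intro a ha
    induction ha using Submodule.span_induction with
    | mem x hx =>
      obtain ⟨y, hy⟩ := hjF x hx
      exact ⟨y, hy⟩
    | zero => exact j.range.zero_mem
    | add x y _ _ hx hy => exact j.range.add_mem hx hy
    | smul n x _ hx => exact j.range.zsmul_mem hx n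
  have hcoef : ∀ ℓ : ℕ, ℓ.Prime → qCoeff g ℓ ∈ j.range := by
    intro ℓ hℓ
    obtain ⟨a, ha, ha'⟩ := hF ℓ hℓ
    rw [← ha']
    exact hspan a ha
  let S : Finset ℕ := insert p M.primeFactors
  have hMS : ∀ q : ℕ, q.Prime → q ∣ M → q ∈ S := fun q hq hqM =>
    Finset.mem_insert_of_mem (Nat.mem_primeFactors.mpr ⟨hq, hqM, hM0⟩)
  obtain ⟨chig, hchig, hrange⟩ := LL.exists_chig hg.isNormalizedEigenform S hMS j.range
    (fun ℓ hℓ _ => hcoef ℓ hℓ)
  let jr : O ≃+* j.range := RingEquiv.ofBijective j.rangeRestrict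
    ⟨fun x y h => hj (congrArg Subtype.val h), j.rangeRestrict_surjective⟩
  have hjr : ∀ z : j.range, j (jr.symm z) = z := fun z => congrArg Subtype.val (jr.apply_symm_apply z)
  let iota : chig.range →+* O := (jr.symm : j.range →+* O).comp (Subring.inclusion hrange)
  have hiota : ∀ z : chig.range, j (iota z) = z := fun z => hjr _
  obtain ⟨O', _, _, _, _, _, _, _, _, _, hinj, ρ, hρ1, hρ2⟩ :=
    S35.result hg p S O hpO chig hchig iota (Finset.mem_insert_self p _) hMS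
  -- the common field
  let ψbar : (ℤbar ⧸ 𝔪) →+* L := RingHom.kerLift ψ
  have hψbar : ∀ b, ψbar (Ideal.Quotient.mk 𝔪 b) = ψ b := fun b => RingHom.kerLift_mk ψ b
  obtain ⟨Ω, _, _, e, he⟩ := exists_lift_residue (ψbar.comp ι)
    (ResidueField.map (algebraMap O O')) (fun y => by
      have : Module.Finite ℤ (ResidueField O') := inferInstance
      exact Algebra.IsIntegral.isIntegral y)
  refine ⟨Ω, inferInstance, algebraMap L Ω, ResidueField O', inferInstance, e, ρ.residual, ?_, ?_⟩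
  · intro ℓ hℓ hℓM hℓp P hP σ hσ b hb
    have hℓS : ℓ ∉ (↑S : Set ℕ) := by
      simp only [S, Finset.coe_insert, Set.mem_insert_iff, Finset.mem_coe, Nat.mem_primeFactors,
        not_or]
      exact ⟨hℓp, fun h => hℓM h.2.1⟩
    have h1 := hρ1 ℓ hℓ hℓM hℓS P hP σ hσ
    have h2 := LL.charpoly_residual ρ σ
    rw [h1] at h2
    simp only [Polynomial.map_add, Polynomial.map_sub, Polynomial.map_pow, Polynomial.map_X,
      Polynomial.map_mul, Polynomial.map_C] at h2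
    rw [(Cheb.trace_det_of_charpoly_eq ρ.residual.finrank_eq _ h2).1]
    set y : O := (iota.comp chig.rangeRestrict) (CuspForm.heckeAlgebra.T hℓ hℓM hℓS) with hy
    have hjy : j y = b := by
      rw [hy, RingHom.comp_apply, hiota, hb]
      exact hchig ℓ hℓ hℓM hℓS
    have h3 : residue O' (algebraMap O O' y) =
        ResidueField.map (algebraMap O O') (residue O y) := rfl
    rw [h3, he, RingHom.comp_apply, hι y b hjy, hψbar]
  · intro P hP σ hσ
    have h2 := LL.charpoly_residual ρ σ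
    rcases hρ2 r hr hrp hrM hr2 P hP σ hσ with h1 | h1
    · rw [h1] at h2
      simp only [Polynomial.map_add, Polynomial.map_sub, Polynomial.map_pow, Polynomial.map_X,
        Polynomial.map_mul, Polynomial.map_C] at h2
      rw [(Cheb.trace_det_of_charpoly_eq ρ.residual.finrank_eq _ h2).1]
      simp
    · rw [h1] at h2
      have h3 : LinearMap.charpoly (ρ.residual.ρ σ) =
          X ^ 2 - C (-(residue O' ((r : O') + 1))) * X + C (residue O' (r : O')) := by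
        rw [h2]
        simp only [Polynomial.map_add, Polynomial.map_pow, Polynomial.map_X,
          Polynomial.map_mul, Polynomial.map_C, C_neg, neg_mul, sub_neg_eq_add]
      rw [(Cheb.trace_det_of_charpoly_eq ρ.residual.finrank_eq _ h3).1]
      simp only [map_neg, map_add, map_natCast, map_one]
      ring

end Fermat.Agent.MazurQ
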