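import Fermat.Agent.MazurQ.Kum
import Fermat.Agent.MazurQ.Four
import Fermat.Agent.MazurP.HeckeSlope

/-!
# The reduction of classes of `J₀(M q)` modulo `q` to the component `X₀(M)`
-/

set_option autoImplicit false
set_option linter.unusedSectionVars false
set_option linter.style.haveILetI false

noncomputable section

open AlgebraicCurve ModularCurve IntermediateField Module

namespace Fermat.Agent.MazurQ

open Fermat.Agent.FF Fermat.Agent.Red Fermat.Agent.QComp Fermat.Agent.QVal Fermat.Agent.JZ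

local notation "Qb" => AlgebraicClosure ℚ
local notation "Γℚ" => (AlgebraicClosure ℚ ≃ₐ[ℚ] AlgebraicClosure ℚ)

variable {k : Type*} [Field k] {A : ValuationSubring Qb} {π : A →+* k} {M q : ℕ} [NeZero M]
  [NeZero q] [hqf : Fact q.Prime]

section Defs

variable (hA : A.LiesOverPrime q) (hπ : ∀ a : A, π a = 0 ↔ ¬ IsUnit a)
  (hs : Function.Surjective π) (hM : ¬ q ∣ M)

/-- the first reduction of `x ∈ J₀(M q)[n]` is the reduction of `z ∈ J₀(M)[n]` -/
def RelZ (n : ℕ) (x : JZero (M * q)) (z : JZero M) : Prop :=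
  n • z = 0 ∧ Rel (rInf1 M q hA hπ hs hM) n x (redJ hA hπ hs hM z)

end Defs

variable {hA : A.LiesOverPrime q} {hπ : ∀ a : A, π a = 0 ↔ ¬ IsUnit a}
  {hs : Function.Surjective π} {hM : ¬ q ∣ M} {n : ℕ} {x x' : JZero (M * q)}
  {b b₁ b₂ b₁' b₂' : modularFunctionFieldFullC k M} {z z' : JZero M}

/-! ### the two components -/

theorem kred_rZero1 : KRed (rZero1 M q hA hπ hs hM) n x b ↔
    KRed (rInf1 M q hA hπ hs hM) n (wSemi hM • x) b := by
  constructor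
  · rintro ⟨y, hy, hb, hr⟩
    refine ⟨_, hy.smul (wSemi hM), hb, ?_⟩
    rw [wSemi_smul]
    exact isRed_rZero1.1 hr
  · rintro ⟨y, hy, hb, hr⟩
    have h1 := hy.smul (wSemi hM)
    rw [wSemi_wSemi] at h1
    refine ⟨_, h1, hb, ?_⟩
    rw [wSemi_smul, isRed_rZero1, w1_w1]
    exact hr

theorem HasRed.kred (h : HasRed hA hπ hs hM n x b₁ b₂) :
    KRed (rInf1 M q hA hπ hs hM) n x b₁ := by
  obtain ⟨D, y, γ₁, γ₂, rfl, hy, hdiv, hγ₁, hγ₂, hb₁, hb₂, h1, h2⟩ := h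
  have hc : Cls n (Pic0.mk D) y := ⟨D, rfl, hy, hdiv⟩
  exact ⟨_, hc.const_mul hγ₁, hb₁, h1⟩

theorem HasRed.kred' (h : HasRed hA hπ hs hM n x b₁ b₂) :
    KRed (rZero1 M q hA hπ hs hM) n x b₂ := by
  obtain ⟨D, y, γ₁, γ₂, rfl, hy, hdiv, hγ₁, hγ₂, hb₁, hb₂, h1, h2⟩ := h
  have hc : Cls n (Pic0.mk D) y := ⟨D, rfl, hy, hdiv⟩
  exact ⟨_, hc.const_mul hγ₂, hb₂, h2⟩

section AlgCl

variable [IsAlgClosed k]

theorem isToric_of_kred (hn : n ≠ 0) (h1 : KRed (rInf1 M q hA hπ hs hM) n x (b₁ ^ n))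
    (h2 : KRed (rInf1 M q hA hπ hs hM) n (wSemi hM • x) (b₂ ^ n)) :
    IsToric hA hπ hs hM n x := by
  haveI := isFnField_bar (M * q)
  rw [← kred_rZero1] at h2
  obtain ⟨b₁', b₂', h⟩ := exists_hasRed (hA := hA) (hπ := hπ) (hs := hs) (hM := hM)
    h1.nsmul_eq_zero
  obtain ⟨e₁, he₁, h3⟩ := h1.unique hn h.kred
  obtain ⟨e₂, he₂, h4⟩ := h2.unique hn h.kred'
  refine ⟨b₁ * e₁, b₂ * e₂, ?_⟩
  rw [_root_.mul_pow, _root_.mul_pow, ← h3, ← h4]
  exact h

end AlgCl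

namespace RelZ

theorem add (h : RelZ hA hπ hs hM n x z) (h' : RelZ hA hπ hs hM n x' z') :
    RelZ hA hπ hs hM n (x + x') (z + z') :=
  ⟨by rw [nsmul_add, h.1, h'.1, add_zero], by rw [map_add]; exact h.2.add h'.2⟩

theorem neg (h : RelZ hA hπ hs hM n x z) : RelZ hA hπ hs hM n (-x) (-z) :=
  ⟨by rw [neg_nsmul, h.1, neg_zero], by rw [map_neg]; exact h.2.neg⟩

theorem sub (h : RelZ hA hπ hs hM n x z) (h' : RelZ hA hπ hs hM n x' z') :
    RelZ hA hπ hs hM n (x - x') (z - z') :=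
  ⟨by rw [nsmul_sub, h.1, h'.1, sub_zero], by rw [map_sub]; exact h.2.sub h'.2⟩

theorem zero : RelZ hA hπ hs hM n 0 0 := ⟨nsmul_zero _, by rw [map_zero]; exact Rel.zero⟩

theorem nsmul (h : RelZ hA hπ hs hM n x z) (m : ℕ) : RelZ hA hπ hs hM n (m • x) (m • z) :=
  ⟨by rw [nsmul_left_comm, h.1, nsmul_zero], by rw [map_nsmul]; exact h.2.nsmul m⟩

theorem zsmul (h : RelZ hA hπ hs hM n x z) (m : ℤ) : RelZ hA hπ hs hM n (m • x) (m • z) := by
  cases m with
  | ofNat m => rw [Int.ofNat_eq_natCast, natCast_zsmul, natCast_zsmul]; exact h.nsmul m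
  | negSucc m => rw [negSucc_zsmul, negSucc_zsmul]; exact (h.nsmul (m + 1)).neg

theorem pow (h : RelZ hA hπ hs hM n x z) (m : ℕ) : RelZ hA hπ hs hM (n * m) x z :=
  ⟨by rw [mul_nsmul, h.1, nsmul_zero], h.2.pow m⟩

/-- the Hecke operators `T_ℓ` (`U_ℓ` for `ℓ ∣ M`), `ℓ ≠ q` -/
theorem hecke {ℓ : ℕ} [NeZero ℓ] [hlf : Fact ℓ.Prime] (hℓ : ℓ ≠ q)
    (h : RelZ hA hπ hs hM n x z) :
    RelZ hA hπ hs hM n (heckeOperatorAlong Qb (M * q) ℓ x) (heckeOperatorAlong Qb M ℓ z) := by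
  haveI := charP_of_liesOverPrime (k := k) hA hπ
  haveI : IsAlgClosed k := isAlgClosed_of_surjective hs
  have hMℓ : ¬ q ∣ M * ℓ := by
    intro hd
    rcases hqf.out.dvd_mul.1 hd with h1 | h1
    · exact hM h1
    · rw [Nat.prime_dvd_prime_iff_eq hqf.out hlf.out] at h1
      exact hℓ h1.symm
  haveI := isFnField_bar M
  haveI := isFnField_bar (M * ℓ)
  haveI := isFnField_bar (M * q)
  haveI := isFnField_bar (M * q * ℓ)
  haveI := isFnField_fullC (k := k) M q hM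
  haveI := isFnField_fullC (k := k) (M * ℓ) q hMℓ
  haveI : HasPrincipalDivisors k (modularFunctionFieldFullC k (M * ℓ)) :=
    RR.hasPrincipalDivisors k _
  obtain ⟨hα, hβ, hP, hfin, hFI, hNf⟩ :=
    JZ.heckeInputsAlong JZ.modularFieldInputsBar (FF.normInputs _) (M * q) ℓ
  refine ⟨by rw [← map_nsmul, h.1, map_zero], ?_⟩
  rw [redJ_hecke hA hπ hs hM ℓ hMℓ, heckeOperatorAlong_eq hα hβ hFI hfin hNf]
  obtain ⟨b, hb, hc⟩ := h.2
  obtain ⟨y, hy, hb0, hr⟩ := hb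
  refine ⟨_, ⟨_, hy.correspondence _ _ hβ hα hFI hfin hNf,
    normAlong_ne_zero (alphaC k M ℓ) (JZ.finiteAlong _) ((map_ne_zero _).2 hb0),
    MazurP.isRed_norm_beta hA hπ hs hM hMℓ hr⟩, ?_⟩
  exact hc.correspondence _ _ _ _ _ _ _

/-- uniqueness of the reduction -/
theorem unique (hn : ¬ q ∣ n) (h : RelZ hA hπ hs hM n x z) (h' : RelZ hA hπ hs hM n x z') :
    z = z' := by
  haveI := charP_of_liesOverPrime (k := k) hA hπ
  haveI : IsAlgClosed k := isAlgClosed_of_surjective hs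
  haveI := isFnField_bar (M * q)
  haveI := isFnField_fullC (k := k) M q hM
  have hn0 : n ≠ 0 := by rintro rfl; exact hn (dvd_zero q)
  have h1 := h.2.unique hn0 h'.2
  rw [← sub_eq_zero]
  refine redJ_injective hA hπ hs hM (m := n) hn _ ?_ ?_
  · rw [nsmul_sub, h.1, h'.1, sub_zero]
  · rw [map_sub, h1, sub_self]

theorem zero_iff (hn : n ≠ 0) : RelZ hA hπ hs hM n x 0 ↔
    ∃ e, e ≠ 0 ∧ KRed (rInf1 M q hA hπ hs hM) n x (e ^ n) := by
  haveI := charP_of_liesOverPrime (k := k) hA hπ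
  haveI : IsAlgClosed k := isAlgClosed_of_surjective hs
  haveI := isFnField_bar (M * q)
  haveI := isFnField_fullC (k := k) M q hM
  rw [← Rel.zero_iff (R := rInf1 M q hA hπ hs hM) (x := x) hn, RelZ, map_zero]
  exact ⟨fun h => h.2, fun h => ⟨nsmul_zero _, h⟩⟩

/-- classes with trivial reductions are toric -/
theorem isToric (hn : n ≠ 0) (h : RelZ hA hπ hs hM n x 0)
    (h' : RelZ hA hπ hs hM n (wSemi hM • x) 0) : IsToric hA hπ hs hM n x := by
  haveI := charP_of_liesOverPrime (k := k) hA hπ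
  haveI : IsAlgClosed k := isAlgClosed_of_surjective hs
  obtain ⟨e, he, h1⟩ := (zero_iff hn).1 h
  obtain ⟨e', he', h1'⟩ := (zero_iff hn).1 h'
  exact isToric_of_kred hn h1 h1'

/-- the action of Frobenius -/
theorem frob [CharP k q] [PerfectRing k q] (h : RelZ hA hπ hs hM n x z) {φ : Γℚ}
    (hφ : A.IsFrobeniusAt φ q) : RelZ hA hπ hs hM n (φ • x) (φ • z) := by
  haveI : IsAlgClosed k := isAlgClosed_of_surjective hs
  haveI := isFnField_bar (M * q)
  haveI := isFnField_fullC (k := k) M q hM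
  have e1 : n • φ • z = 0 := by
    have h1 := map_nsmul (DistribSMul.toAddMonoidHom (JZero M) φ) n z
    rw [h.1, map_zero] at h1
    exact h1.symm
  refine ⟨e1, ?_⟩
  rw [redJ_frob_smul hA hπ hs hM hφ]
  obtain ⟨⟨sA, h1, h2⟩, -⟩ := exists_act (k := k) hπ hφ
  have H := semiRed_galois (M := M) (hA := hA) (hπ := hπ) (hs := hs) (hM := hM) sA h1 _ h2
  exact h.2.smul (arithmeticGalois (modularFunctionFieldFull (M * q)) φ) (ESh.coeffSemi M
    (frobeniusEquiv k q)) (fun f z hf => H.red1 f z hf)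

end RelZ

/-- existence of the reduction for classes with vanishing slopes -/
theorem exists_relZ {p m : ℕ} (hp : p.Prime) (hpq : p ≠ q) {b : modularFunctionFieldFullC k M}
    (h : KRed (rInf1 M q hA hπ hs hM) (p ^ m) x b)
    (hd : ∀ P : Place k (modularFunctionFieldFullC k M), ((p ^ m : ℕ) : ℤ) ∣ P.ord b) :
    ∃ z, RelZ hA hπ hs hM (p ^ m) x z := by
  haveI := charP_of_liesOverPrime (k := k) hA hπ
  haveI : IsAlgClosed k := isAlgClosed_of_surjective hs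
  haveI := isFnField_bar (M * q)
  haveI := isFnField_fullC (k := k) M q hM
  obtain ⟨c, hc⟩ := exists_rel_of_dvd (pow_ne_zero m hp.ne_zero) h hd
  obtain ⟨z, hz, rfl⟩ := exists_redJ_eq hA hπ hs hM hp hpq m hc.nsmul_eq_zero'
  exact ⟨z, hz, hc⟩

end Fermat.Agent.MazurQ
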