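import Fermat.Agent.QComp.TwoMain

/-!
# Semilinear maps exchanging the two components
-/

set_option autoImplicit false
set_option linter.unusedSectionVars false
set_option linter.style.haveILetI false

open AlgebraicCurve IntermediateField Module

namespace Fermat.Agent.MazurQ

open Fermat.Agent.FF Fermat.Agent.Red Fermat.Agent.QComp

variable {K k : Type*} [Field K] [Field k] {A : ValuationSubring K} {π : A →+* k}
  {F κ : Type*} [Field F] [Algebra K F] [Field κ] [Algebra k κ]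
  {R₁ R₂ : ConstRed A π F κ} {x : F} {x₁ : κ}

variable [IsAlgClosed K] [CharZero K] [IsAlgClosed k] [IsFnField K F] [IsFnField k κ]
  {S : Type*} [Fintype S] {n : ℕ} {y : F} {D : Divisor K F} {c₁ c₂ : K}
  {a₁ a₂ : κ} {hπ : Function.Surjective π}

/-- a semilinear endomorphism of `F` exchanging the two reductions -/
structure SwapEnd (N : Nodes R₁ R₂ x x₁ x₁ S) (Q : ℕ) (τ : F →+* F) (σ : K →+* K)
    (φ : κ →+* κ) : Prop where
  comm : ∀ c, τ (algebraMap K F c) = algebraMap K F (σ c)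
  fix : τ x = x
  red1 : ∀ f b, R₁.IsRed f b → R₂.IsRed (τ f) (φ b)
  red2 : ∀ f b, R₂.IsRed f b → R₁.IsRed (τ f) (φ b)
  reg : ∀ b ∈ regAlg k x₁, φ b ∈ regAlg k x₁
  e : ∀ s (b b' : regAlg k x₁), (b' : κ) = φ b → N.e₁ s b' = N.e₂ s b ^ Q

/-- **Maps exchanging the two components act on classes of type `W1` by multiplication by
`-Q`.** -/
theorem _root_.Fermat.Agent.QComp.W1.swap (w : W1 R₁ R₂ n y D c₁ c₂ a₁ a₂)
    (T : TwoRed R₁ R₂ x x₁ x₁) (hA : IsArch A)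
    (hA' : ∃ c : A, ¬ IsUnit c ∧ c ≠ 0) (hn : (n : k) ≠ 0) (hπ : Function.Surjective π)
    (N : Nodes R₁ R₂ x x₁ x₁ S) {Q : ℕ} {τ : F →+* F} {σ : K →+* K}
    {φ : κ →+* κ} (H : SwapEnd N Q τ σ φ) {D₁ : Divisor K F}
    (hD₁ : Divisor.degree D₁ = 0) (hdiv : ∀ P, (n : ℤ) * D₁ P = P.ord (τ y * y ^ Q)) :
    ∃ f : F, f ^ n = τ y * y ^ Q := by
  classical
  have ea1 := w.a1
  have ea2 := w.a2
  have hy := w.ne
  have hw : W1 R₁ R₂ n (τ y * y ^ Q) D₁ (σ c₂ * c₁ ^ Q) (σ c₁ * c₂ ^ Q) (φ a₂ * a₁ ^ Q)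
      (φ a₁ * a₂ ^ Q) := by
    refine ⟨w.n0, hD₁, ?_, hdiv, ?_, ?_, ?_, ?_, ?_, ?_⟩
    · exact mul_ne_zero (by simpa using w.ne) (pow_ne_zero _ w.ne)
    · exact mul_ne_zero (by simpa using w.c2) (pow_ne_zero _ w.c1)
    · exact mul_ne_zero (by simpa using w.c1) (pow_ne_zero _ w.c2)
    · exact mul_ne_zero (by simpa using w.a2) (pow_ne_zero _ w.a1)
    · exact mul_ne_zero (by simpa using w.a1) (pow_ne_zero _ w.a2)
    · have h1 := (H.red2 _ _ w.red2).mul (w.red1.pow Q)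
      rw [map_mul, map_pow, H.comm, map_pow] at h1
      convert h1 using 1
      · rw [map_mul, map_pow]; ring
      · ring
    · have h1 := (H.red1 _ _ w.red1).mul (w.red2.pow Q)
      rw [map_mul, map_pow, H.comm, map_pow] at h1
      convert h1 using 1
      · rw [map_mul, map_pow]; ring
      · ring
  obtain ⟨m₁, hm₁⟩ := w.exists_tw T hA N hπ
  obtain ⟨m₃, hm₃⟩ := N.exists_surj
  set m := m₁ + m₃ with hm
  obtain ⟨t, ht0, ht⟩ := hm₁ m (by omega)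
  obtain ⟨b, hb⟩ := hm₃ m (by omega) (fun s => (t s)⁻¹)
  have e1 : inclReg k x₁ m ⟨1, one_mem_Lm x₁ m⟩ = 1 := rfl
  have hq : ((⟨1, one_mem_Lm x₁ m⟩, b) : PairL k x₁ x₁ m) ∈
      esp R₁ R₂ hπ x x₁ x₁ D c₁ c₂ a₁ a₂ m := by
    rw [ht, LinearMap.mem_ker]
    funext s
    rw [N.tw_apply]
    change N.e₁ s (inclReg k x₁ m ⟨1, one_mem_Lm x₁ m⟩) - t s * N.e₂ s (inclReg k x₁ m b) = 0
    rw [e1, map_one, hb, mul_inv_cancel₀ (ht0 s), sub_self]
  obtain ⟨u, hu, hu1, hu2⟩ := hq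
  have gu := w.mem_iff.1 hu
  change R₁.IsRed (algebraMap K F c₁⁻¹ * u) (1 / a₁) at hu1
  change R₂.IsRed (algebraMap K F c₂⁻¹ * u) ((b : κ) / a₂) at hu2
  have ec1 : algebraMap K F c₁ ≠ 0 := by simpa using w.c1
  have ec2 : algebraMap K F c₂ ≠ 0 := by simpa using w.c2
  -- the function `U`
  set U : F := τ u * u ^ Q with hU
  have hb2 : φ b ∈ regAlg k x₁ := H.reg _ (mem_regAlg_of_mem_Lm b.2)
  set M := m + Q * m with hM
  haveI := T.fd
  have hUM : U ^ n * (τ y * y ^ Q) ∈ riemannRochSpace ((n * M) • RR.poleDiv (K := K) x) := by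
    have h1 := mul_mem_Lm (mem_Lm_semi H.comm T.ne H.fix gu) (pow_mem_Lm gu Q)
    have h2 : n * m + Q * (n * m) = n * M := by rw [hM]; ring
    rw [h2] at h1
    convert h1 using 1
    rw [hU, map_mul, map_pow, mul_pow (u ^ n) _ Q]
    ring
  have hcU1 : R₁.IsRed (algebraMap K F (σ c₂ * c₁ ^ Q)⁻¹ * U)
      (φ b / (φ a₂ * a₁ ^ Q)) := by
    have h1 := (H.red2 _ _ hu2).mul (hu1.pow Q)
    rw [map_mul, H.comm] at h1
    convert h1 using 1
    · simp only [hU, map_mul, map_inv₀, map_pow, mul_inv, mul_pow, inv_pow]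
      ring
    · rw [map_div₀, div_pow, one_pow]
      field_simp
  have hcU2 : R₂.IsRed (algebraMap K F (σ c₁ * c₂ ^ Q)⁻¹ * U)
      ((b : κ) ^ Q / (φ a₁ * a₂ ^ Q)) := by
    have h1 := (H.red1 _ _ hu1).mul (hu2.pow Q)
    rw [map_mul, H.comm] at h1
    convert h1 using 1
    · simp only [hU, map_mul, map_inv₀, map_pow, mul_inv, mul_pow, inv_pow]
      ring
    · rw [map_div₀, map_one, div_pow]
      field_simp
  have hUm : U ∈ riemannRochSpace (D₁ + M • RR.poleDiv (K := K) x) := hw.mem_iff.2 hUM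
  have hbM1 : φ b ∈ riemannRochSpace (M • RR.poleDiv (K := k) x₁) :=
    hw.mem_Lm1 T hUm hcU1 hcU2
  have hbM2 : (b : κ) ^ Q ∈ riemannRochSpace (M • RR.poleDiv (K := k) x₁) :=
    hw.mem_Lm2 T hUm hcU1 hcU2
  have e3 : inclReg k x₁ M ⟨_, hbM1⟩ = (⟨φ b, hb2⟩ : regAlg k x₁) := rfl
  have e4 : inclReg k x₁ M ⟨_, hbM2⟩ = inclReg k x₁ m b ^ Q := rfl
  refine hw.isPow (hπ := hπ) T hA hA' hn N (m' := M)
    (p := (⟨_, hbM1⟩, ⟨_, hbM2⟩)) ⟨U, hUm, hcU1, hcU2⟩ ?_ ?_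
  · intro s
    change N.e₁ s (inclReg k x₁ M ⟨_, hbM1⟩) = N.e₂ s (inclReg k x₁ M ⟨_, hbM2⟩)
    rw [e3, e4, map_pow, H.e s (inclReg k x₁ m b) ⟨φ b, hb2⟩ rfl]
  · intro s
    change N.e₂ s (inclReg k x₁ M ⟨_, hbM2⟩) ≠ 0
    rw [e4, map_pow, hb]
    exact pow_ne_zero _ (inv_ne_zero (ht0 s))

end Fermat.Agent.MazurQ
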