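import Fermat.Agent.RepTwo.Geometry

/-!
# Systems of Hecke eigenvalues on `J₀(N)`
-/

set_option autoImplicit false

noncomputable section

open AlgebraicCurve ModularCurve

namespace Fermat.Agent.MazurQ

/-- polynomials in the Hecke operators `T_ℓ`, `ℓ ∤ B` -/
abbrev GPoly (B : ℕ) : Type := MvPolynomial {ℓ : Nat.Primes // ¬ (ℓ : ℕ) ∣ B} ℤ

/-- the action on `J₀(N)` -/
def evJ (B N : ℕ) [NeZero N] : GPoly B →+* Module.End ℤ (JZero N) :=
  (heckeEvalBar (RepTwo.heckeOperatorsCommuteBar N)).comp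
    (MvPolynomial.rename (R := ℤ) (Subtype.val : {ℓ : Nat.Primes // ¬ (ℓ : ℕ) ∣ B} → Nat.Primes) :
      GPoly B →+* HeckeAlg)

theorem evJ_X (B N : ℕ) [NeZero N] (ℓ : {ℓ : Nat.Primes // ¬ (ℓ : ℕ) ∣ B}) :
    evJ B N (MvPolynomial.X ℓ) = heckeOperatorBar N ℓ := by
  have h : (MvPolynomial.rename (R := ℤ) (Subtype.val :
      {ℓ : Nat.Primes // ¬ (ℓ : ℕ) ∣ B} → Nat.Primes)) (MvPolynomial.X ℓ) =
      heckeGen ℓ.1 := MvPolynomial.rename_X _ _
  change heckeEvalBar _ ((MvPolynomial.rename (R := ℤ) (Subtype.val :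
      {ℓ : Nat.Primes // ¬ (ℓ : ℕ) ∣ B} → Nat.Primes)) (MvPolynomial.X ℓ)) = _
  rw [h, heckeEvalBar_heckeGen]

theorem evJ_C (B N : ℕ) [NeZero N] (a : ℤ) (x : JZero N) :
    evJ B N (MvPolynomial.C a) x = a • x := by
  have h : evJ B N (MvPolynomial.C a) = (a : Module.End ℤ (JZero N)) := by
    rw [← MvPolynomial.algebraMap_eq, eq_intCast, map_intCast]
  rw [h, Module.End.intCast_apply]

variable {B : ℕ} {K : Type*} [CommRing K]

/-- the classes killed by the kernel of `θ` -/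
def XJ (N : ℕ) [NeZero N] (θ : GPoly B →+* K) : AddSubgroup (JZero N) where
  carrier := {x | ∀ P, θ P = 0 → evJ B N P x = 0}
  zero_mem' P _ := map_zero _
  add_mem' hx hy P hP := by rw [map_add, hx P hP, hy P hP, add_zero]
  neg_mem' hx P hP := by rw [map_neg, hx P hP, neg_zero]

theorem mem_XJ {N : ℕ} [NeZero N] {θ : GPoly B →+* K} {x : JZero N} :
    x ∈ XJ N θ ↔ ∀ P, θ P = 0 → evJ B N P x = 0 := Iff.rfl

theorem evJ_mem_XJ {N : ℕ} [NeZero N] {θ : GPoly B →+* K} {x : JZero N} (hx : x ∈ XJ N θ)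
    (P : GPoly B) : evJ B N P x ∈ XJ N θ := fun Q hQ => by
  rw [← Module.End.mul_apply, ← map_mul]
  exact hx _ (by rw [map_mul, hQ, zero_mul])

end Fermat.Agent.MazurQ
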