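import Fermat.Agent.MazurQ.Swap
import Fermat.Agent.QComp.ModStrong

/-!
# Frobenius and the Atkin-Lehner involution on classes of toric type
-/

set_option autoImplicit false
set_option linter.unusedSectionVars false
set_option linter.style.haveILetI false

noncomputable section

open AlgebraicCurve ModularCurve IntermediateField Module

namespace Fermat.Agent.MazurQ

open Fermat.Agent.FF Fermat.Agent.Red Fermat.Agent.QComp Fermat.Agent.QVal Fermat.Agent.JZ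
  Fermat.Agent.ESh

local notation "Qb" => AlgebraicClosure ℚ
local notation "Γℚ" => (AlgebraicClosure ℚ ≃ₐ[ℚ] AlgebraicClosure ℚ)

section Abstract

variable {K k : Type*} [Field K] [Field k] {A : ValuationSubring K} {π : A →+* k}
  {F₀ F κ : Type*} [Field F₀] [Algebra K F₀] [Field F] [Algebra K F] [Field κ] [Algebra k κ]
  [IsAlgClosed K] [CharZero K] [IsAlgClosed k] [IsFnField K F₀] [IsFnField K F] [IsFnField k κ]
  {R₀ : ConstRed A π F₀ κ} {R₁ R₂ : ConstRed A π F κ} {j : F₀} {jb : κ}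
    {α : F₀ →ₐ[K] F} {w : F →ₐ[K] F} {Fr : κ →ₐ[k] κ} {q : ℕ}
    (H : TwoLevel R₀ R₁ R₂ j jb α w Fr q)
    {Q : ℕ} {τ τ' : F →+* F} {σ σ' : K →+* K} {ψ ψ' : κ →+* κ}
    {n : ℕ} {y : F} {D : Divisor K F} {c₁ c₂ : K} {a₁ a₂ : κ}

include H

theorem swapEnd (hπ : Function.Surjective π)
    (Φ : TwoLevel.Frob R₁ R₂ (α j * w (α j)) Fr Q τ τ' σ σ' ψ ψ')
    [Fintype ((regAlg k (jb ^ (q + 1)) ⧸ H.cond) →ₐ[k] k)] {g : F →+* F} {g₀ : K →+* K}
    {φ : κ →+* κ} (hg : SemiRed R₁ R₂ (α j * w (α j)) g g₀ φ) (hφ : ∀ b, Fr (φ b) = b ^ q) :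
    SwapEnd (H.nodes hπ Φ) q (g.comp (w : F →+* F)) g₀ φ where
  comm c := by
    change g (w (algebraMap K F c)) = _
    rw [AlgHom.commutes, hg.comm]
  fix := by
    change g (w (α j * w (α j))) = _
    rw [map_mul, H.ww, mul_comm]
    exact hg.fix
  red1 f b h := hg.red2 _ _ (H.swap.2 h)
  red2 f b h := hg.red1 _ _ ((H.red2 _ _).1 h)
  reg b hb := by
    haveI := H.twoRed.fd
    exact TwoLevel.Glued.mem2 H (TwoLevel.Glued.semi hg (H.glued_Fr' hb))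
  e s b b' hb' := by
    have h1 : H.FrB b' = b ^ q := Subtype.ext (by
      rw [TwoLevel.coe_FrB, hb', hφ]; rfl)
    change s (Ideal.Quotient.mkₐ k H.cond (H.FrB b')) = s (Ideal.Quotient.mkₐ k H.cond b) ^ q
    rw [h1, map_pow, map_pow]

/-- a function times the `q`-th power of the original one -/
theorem toric_swap (w₁ : W1 R₁ R₂ n y D c₁ c₂ a₁ a₂) (hA : IsArch A)
    (hA' : ∃ c : A, ¬ IsUnit c ∧ c ≠ 0) (hn : (n : k) ≠ 0) (hπ : Function.Surjective π)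
    (Φ : TwoLevel.Frob R₁ R₂ (α j * w (α j)) Fr Q τ τ' σ σ' ψ ψ') {g : F →+* F} {g₀ : K →+* K}
    {φ : κ →+* κ} (hg : SemiRed R₁ R₂ (α j * w (α j)) g g₀ φ) (hφ : ∀ b, Fr (φ b) = b ^ q)
    {D₁ : Divisor K F} (hD₁ : Divisor.degree D₁ = 0)
    (hdiv : ∀ P, (n : ℤ) * D₁ P = P.ord (g (w y) * y ^ q)) :
    ∃ f : F, f ^ n = g (w y) * y ^ q := by
  haveI := (H.finrank_quot hπ).1
  haveI : Fintype ((regAlg k (jb ^ (q + 1)) ⧸ H.cond) →ₐ[k] k) := Fintype.ofFinite _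
  exact w₁.swap H.twoRed hA hA' hn hπ (H.nodes hπ Φ) (swapEnd H hπ Φ hg hφ) hD₁ hdiv

/-- the class version -/
theorem toric_class (w₁ : W1 R₁ R₂ n y D c₁ c₂ a₁ a₂) (hA : IsArch A)
    (hA' : ∃ c : A, ¬ IsUnit c ∧ c ≠ 0) (hn : (n : k) ≠ 0) (hπ : Function.Surjective π)
    (Φ : TwoLevel.Frob R₁ R₂ (α j * w (α j)) Fr Q τ τ' σ σ' ψ ψ') {g : SemilinearAut K F}
    {φ : κ →+* κ} (hg : SemiRed R₁ R₂ (α j * w (α j)) (gF g) (gK g) φ)
    (hφ : ∀ b, Fr (φ b) = b ^ q) {we : F ≃ₐ[K] F} (hwe : ∀ f, w f = we f) :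
    Divisor.IsPrincipal (g • (SemilinearAut.ofAlgAut we • D) + q • D) := by
  have hy := w₁.ne
  have hwy : gF g (w y) ≠ 0 := by
    rw [Ne, map_eq_zero (gF g), hwe]
    exact (map_ne_zero_iff _ we.injective).2 hy
  have hdiv : ∀ P : Place K F, (n : ℤ) * (g • (SemilinearAut.ofAlgAut we • D) + q • D) P =
      P.ord (gF g (w y) * y ^ q) := by
    intro P
    have e1 := divisor_smul_div (g := g * SemilinearAut.ofAlgAut we) w₁.div P
    rw [mul_smul] at e1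
    have e2 : gF (g * SemilinearAut.ofAlgAut we) y = gF g (w y) := by rw [hwe]; rfl
    rw [P.ord_mul hwy (pow_ne_zero _ hy), ord_pow, Finsupp.add_apply, mul_add, Finsupp.smul_apply,
      nsmul_eq_mul, ← w₁.div P, e1, e2]
    ring
  obtain ⟨f, hf⟩ := toric_swap H w₁ hA hA' hn hπ Φ hg hφ
    (D₁ := g • (SemilinearAut.ofAlgAut we • D) + q • D) (by
      rw [map_add, SemilinearAut.degree_smul, SemilinearAut.degree_smul, map_nsmul, w₁.deg]
      simp) hdiv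
  have hf0 : f ≠ 0 := by
    rintro rfl
    rw [zero_pow w₁.n0] at hf
    exact mul_ne_zero hwy (pow_ne_zero _ hy) hf.symm
  refine ⟨f, hf0, fun P => ?_⟩
  have h5 := hdiv P
  rw [← hf, ord_pow] at h5
  exact mul_left_cancel₀ (by exact_mod_cast w₁.n0) h5

end Abstract

section Modular

variable {k : Type*} [Field k] {A : ValuationSubring Qb} {π : A →+* k} {M q : ℕ} [NeZero M]
  [NeZero q] [hqf : Fact q.Prime]

/-- the Atkin-Lehner involution as a semilinear automorphism -/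
def wSemi (hM : ¬ q ∣ M) : SemilinearAut Qb (FB (M * q)) :=
  SemilinearAut.ofAlgAut (w1 hqf.out hM)

theorem wSemi_smul (hM : ¬ q ∣ M) (f : FB (M * q)) : wSemi hM • f = w1 hqf.out hM f := rfl

theorem wSemi_mul_self (hM : ¬ q ∣ M) : wSemi hM * wSemi hM = 1 := by
  rw [wSemi, ← map_mul]
  have : w1 hqf.out hM * w1 hqf.out hM = 1 := AlgEquiv.ext fun x => w1_w1 hqf.out hM x
  rw [this, map_one]

/-- the Atkin-Lehner involution on divisor classes -/
theorem wSemi_wSemi (hM : ¬ q ∣ M) (x : JZero (M * q)) : wSemi hM • wSemi hM • x = x := by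
  rw [← mul_smul, wSemi_mul_self, one_smul]

/-- the Atkin-Lehner involution commutes with the Galois action -/
theorem wSemi_galois (hM : ¬ q ∣ M) (σ : Γℚ) :
    wSemi hM * arithmeticGalois (modularFunctionFieldFull (M * q)) σ =
      arithmeticGalois (modularFunctionFieldFull (M * q)) σ * wSemi hM := by
  refine Subtype.ext (Prod.ext (RingEquiv.ext fun x => ?_) ?_)
  · exact w1_gal hM σ x
  · change (1 : Qb ≃+* Qb) * _ = _ * (1 : Qb ≃+* Qb)
    rw [one_mul, mul_one]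

theorem wSemi_galois_smul (hM : ¬ q ∣ M) (σ : Γℚ) (x : JZero (M * q)) :
    wSemi hM • σ • x = σ • wSemi hM • x := by
  change wSemi hM • arithmeticGalois (modularFunctionFieldFull (M * q)) σ • x =
    arithmeticGalois (modularFunctionFieldFull (M * q)) σ • wSemi hM • x
  rw [← mul_smul, ← mul_smul, wSemi_galois]

/-- **(C)** Frobenius on the toric part -/
theorem frob_wSemi (hA : A.LiesOverPrime q) (hπ : ∀ a : A, π a = 0 ↔ ¬ IsUnit a)
    (hs : Function.Surjective π) (hM : ¬ q ∣ M) [CharP k q] [PerfectRing k q] [IsAlgClosed k]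
    [IsFnField k (modularFunctionFieldFullC k M)] {n : ℕ} (hn : (n : k) ≠ 0)
    {φ : Γℚ} (hφ : A.IsFrobeniusAt φ q) {D : Divisor.degZero (K := Qb) (F := FB (M * q))}
    {y : FB (M * q)} (hy : y ≠ 0) (hdiv : ∀ P, (n : ℤ) * (D : Divisor Qb (FB (M * q))) P = P.ord y)
    {γ₁ γ₂ : Qb} (hγ₁ : γ₁ ≠ 0) (hγ₂ : γ₂ ≠ 0) {b₁ b₂ : modularFunctionFieldFullC k M}
    (hb₁ : b₁ ≠ 0) (hb₂ : b₂ ≠ 0)
    (h1 : (rInf1 M q hA hπ hs hM).IsRed (algebraMap Qb (FB (M * q)) γ₁ * y) (b₁ ^ n))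
    (h2 : (rZero1 M q hA hπ hs hM).IsRed (algebraMap Qb (FB (M * q)) γ₂ * y) (b₂ ^ n)) :
    φ • wSemi hM • Pic0.mk D + q • Pic0.mk D = 0 := by
  have hn0 : n ≠ 0 := by rintro rfl; simp at hn
  obtain ⟨c₁, hc₁⟩ := IsAlgClosed.exists_pow_nat_eq γ₁ (Nat.pos_of_ne_zero hn0)
  obtain ⟨c₂, hc₂⟩ := IsAlgClosed.exists_pow_nat_eq γ₂ (Nat.pos_of_ne_zero hn0)
  have hc₁0 : c₁ ≠ 0 := by rintro rfl; rw [zero_pow hn0] at hc₁; exact hγ₁ hc₁.symm
  have hc₂0 : c₂ ≠ 0 := by rintro rfl; rw [zero_pow hn0] at hc₂; exact hγ₂ hc₂.symm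
  have W : W1 (rInf1 M q hA hπ hs hM) (rZero1 M q hA hπ hs hM) n y D c₁ c₂ b₁ b₂ :=
    ⟨hn0, Divisor.mem_degZero.1 D.2, hy, hdiv, hc₁0, hc₂0, hb₁, hb₂,
      by rw [← map_pow, hc₁]; exact h1, by rw [← map_pow, hc₂]; exact h2⟩
  obtain ⟨⟨sA, hsA1, hsA2⟩, -⟩ := exists_act (k := k) hπ hφ
  have hsemi : SemiRed (rInf1 M q hA hπ hs hM) (rZero1 M q hA hπ hs hM)
      (al1 M q (jB M) * (w1 hqf.out hM : FB (M * q) →ₐ[Qb] FB (M * q)) (al1 M q (jB M)))
      (gF (arithmeticGalois (modularFunctionFieldFull (M * q)) φ))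
      (gK (arithmeticGalois (modularFunctionFieldFull (M * q)) φ))
      (gF (coeffSemi M (frobeniusEquiv k q))) :=
    semiRed_galois sA hsA1 _ hsA2
  have hmain := toric_class (twoLevel hA hπ hs hM) W (isArch_of_liesOverPrime hA)
    (exists_nonunit hA) hn hs (frobStructure hφ) hsemi
    (fun b => by rw [gF_coeffSemi_frob, FrK_phiK]) (we := w1 hqf.out hM) (fun f => rfl)
  have h4 : φ • wSemi hM • Pic0.mk D + q • Pic0.mk D =
      Pic0.mk (SemilinearAut.degZeroSMulHom (arithmeticGalois (modularFunctionFieldFull (M * q)) φ)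
        (SemilinearAut.degZeroSMulHom (wSemi hM) D) + q • D) := rfl
  rw [h4, Red.pic0_mk_eq_zero]
  exact hmain

end Modular

end Fermat.Agent.MazurQ
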